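import Mathlib

/-!
# Explicit `H²` of a finite cyclic group

For a group `G`, an integer-valued function `ι : G → ℤ` which is additive modulo `n`, and a
`G`-invariant element `a` of a representation `A`, the *Bockstein cocycle*
`(g, h) ↦ ((ι g + ι h - ι (g * h)) / n) • a` is a 2-cocycle (it is `a ∪ δχ` for the character
`χ = ι mod n`).

For a finite cyclic group `G = ⟨σ⟩` of order `n` and `ι` an index function (`σ ^ ι g = g`), we
prove that every 2-cocycle `f` is cohomologous to the Bockstein cocycle of the invariant element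
`T f = ∑_{i < n} f (σ ^ i, σ)`, and that the Bockstein cocycle of `a` is a coboundary iff `a` is
a norm.  Hence `A^G / N_G A ≃ H²(G, A)`, explicitly.
-/

open CategoryTheory groupCohomology Rep

namespace Fermat.Agent.CFT

universe u

variable {k G : Type u} [CommRing k] [Group G]

section Bockstein

variable (A : Rep k G) (ι : G → ℤ) (n : ℤ)

/-- The Bockstein 2-cochain attached to `ι : G → ℤ` (additive mod `n`) and `a : A`. -/
def bockFun (a : A) : G × G → A :=
  fun p => ((ι p.1 + ι p.2 - ι (p.1 * p.2)) / n) • a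

variable {A ι n}

lemma bockFun_apply (a : A) (g h : G) :
    bockFun A ι n a (g, h) = ((ι g + ι h - ι (g * h)) / n) • a := rfl

lemma bockFun_mem_cocycles₂ (hn : n ≠ 0) (hι : ∀ g h, n ∣ ι g + ι h - ι (g * h)) (a : A)
    (ha : ∀ g, A.ρ g a = a) : bockFun A ι n a ∈ cocycles₂ A := by
  rw [mem_cocycles₂_iff]
  intro g h j
  simp only [bockFun_apply, map_zsmul, ha, ← add_smul]
  congr 1
  apply Int.eq_of_mul_eq_mul_right hn
  rw [add_mul, add_mul, Int.ediv_mul_cancel (hι _ _), Int.ediv_mul_cancel (hι _ _),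
    Int.ediv_mul_cancel (hι _ _), Int.ediv_mul_cancel (hι _ _), mul_assoc]
  ring

lemma bockFun_add (a b : A) : bockFun A ι n (a + b) = bockFun A ι n a + bockFun A ι n b := by
  funext p
  simp [bockFun, smul_add]

lemma bockFun_smul (r : k) (a : A) : bockFun A ι n (r • a) = r • bockFun A ι n a := by
  funext p
  exact smul_comm _ r a

end Bockstein

section Cyclic

variable (A : Rep k G) (σ : G)

/-- The partial sums `∑_{i < m} f (σ ^ i, σ)`. -/
def cycSum (f : G × G → A) (m : ℕ) : A := ∑ i ∈ Finset.range m, f (σ ^ i, σ)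

variable {A σ}

@[simp] lemma cycSum_zero (f : G × G → A) : cycSum A σ f 0 = 0 := by simp [cycSum]

lemma cycSum_succ (f : G × G → A) (m : ℕ) :
    cycSum A σ f (m + 1) = cycSum A σ f m + f (σ ^ m, σ) := by
  simp [cycSum, Finset.sum_range_succ]

/-- The key formula: a 2-cocycle on powers of `σ` is determined by `f (1, 1)` and the partial
sums of `f (σ ^ i, σ)`. -/
lemma cocycle_pow_pow {f : G × G → A} (hf : f ∈ cocycles₂ A) (a b : ℕ) :
    f (σ ^ a, σ ^ b) = A.ρ (σ ^ a) (f (1, 1)) + cycSum A σ f (a + b) - cycSum A σ f a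
      - A.ρ (σ ^ a) (cycSum A σ f b) := by
  induction b with
  | zero =>
    have h := cocycles₂_map_one_snd (⟨f, hf⟩ : cocycles₂ A) (σ ^ a)
    simp only [pow_zero, add_zero, cycSum_zero, map_zero, sub_zero, add_sub_cancel_right]
    exact h
  | succ b ih =>
    have h := (mem_cocycles₂_iff f).1 hf (σ ^ a) (σ ^ b) σ
    rw [← pow_add, ← pow_succ] at h
    rw [← add_assoc, cycSum_succ, cycSum_succ, map_add]
    have h' : f (σ ^ a, σ ^ (b + 1)) = f (σ ^ (a + b), σ) + f (σ ^ a, σ ^ b)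
        - A.ρ (σ ^ a) (f (σ ^ b, σ)) := by
      rw [h]; abel
    rw [h', ih]
    abel

lemma cycSum_add_of_pow_eq_one {n : ℕ} (hn : σ ^ n = 1) (f : G × G → A) (m : ℕ) :
    cycSum A σ f (n + m) = cycSum A σ f n + cycSum A σ f m := by
  simp only [cycSum, Finset.sum_range_add, pow_add, hn, one_mul]

lemma cycSum_add_mul {n : ℕ} (hn : σ ^ n = 1) (f : G × G → A) (m q : ℕ) :
    cycSum A σ f (m + q * n) = cycSum A σ f m + q • cycSum A σ f n := by
  induction q with
  | zero => simp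
  | succ q ih =>
    rw [add_mul, one_mul, ← add_assoc, add_comm (m + q * n) n, cycSum_add_of_pow_eq_one hn, ih,
      succ_nsmul]
    abel

lemma cycSum_sub_of_eq {n : ℕ} (hn : σ ^ n = 1) (f : G × G → A) (m m' : ℕ) (c : ℤ)
    (h : (m : ℤ) - m' = n * c) : cycSum A σ f m - cycSum A σ f m' = c • cycSum A σ f n := by
  obtain ⟨q, rfl | rfl⟩ := Int.eq_nat_or_neg c
  · have hm : m = m' + q * n := by
      have : (m : ℤ) = ((m' + q * n : ℕ) : ℤ) := by push_cast; linarith
      exact_mod_cast this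
    rw [hm, cycSum_add_mul hn, natCast_zsmul]
    abel
  · have hm : m' = m + q * n := by
      have : (m' : ℤ) = ((m + q * n : ℕ) : ℤ) := by push_cast; linarith
      exact_mod_cast this
    rw [hm, cycSum_add_mul hn, neg_smul, natCast_zsmul]
    abel

/-- The total sum `T f = ∑_{i < n} f (σ ^ i, σ)` of a 2-cocycle is fixed by `σ`. -/
lemma ρ_cycSum_eq {n : ℕ} (hn : σ ^ n = 1) {f : G × G → A} (hf : f ∈ cocycles₂ A) :
    A.ρ σ (cycSum A σ f n) = cycSum A σ f n := by
  have h := cocycle_pow_pow (σ := σ) hf 1 n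
  have h1 := cocycles₂_map_one_snd (⟨f, hf⟩ : cocycles₂ A) σ
  rw [hn, pow_one, add_comm 1 n, cycSum_add_of_pow_eq_one hn] at h
  have h1' : f (σ, 1) = A.ρ σ (f (1, 1)) := h1
  rw [h1'] at h
  have h2 : A.ρ σ (cycSum A σ f n) = A.ρ σ (f (1, 1)) + (cycSum A σ f n + cycSum A σ f 1)
      - cycSum A σ f 1 - A.ρ σ (f (1, 1)) + 0 := by
    nth_rewrite 2 [h]
    abel
  rw [h2]
  abel

lemma ρ_pow_cycSum_eq {n : ℕ} (hn : σ ^ n = 1) {f : G × G → A} (hf : f ∈ cocycles₂ A) (j : ℕ) :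
    A.ρ (σ ^ j) (cycSum A σ f n) = cycSum A σ f n := by
  induction j with
  | zero => simp
  | succ j ih => rw [pow_succ, map_mul, Module.End.mul_apply, ρ_cycSum_eq hn hf, ih]

variable (ι : G → ℕ)

lemma ρ_cycSum_eq_of_index (hι : ∀ g, σ ^ ι g = g) {n : ℕ} (hn : σ ^ n = 1) {f : G × G → A}
    (hf : f ∈ cocycles₂ A) (g : G) : A.ρ g (cycSum A σ f n) = cycSum A σ f n := by
  rw [← hι g]
  exact ρ_pow_cycSum_eq hn hf _

/-- **Normal form of 2-cocycles on a cyclic group**: `f` is the Bockstein cocycle of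
`T f = ∑_{i < n} f (σ ^ i, σ)` plus the coboundary of `g ↦ f (1, 1) - ∑_{i < ι g} f (σ ^ i, σ)`. -/
theorem cocycle_eq_bock_add {ι : G → ℕ} (hι : ∀ g, σ ^ ι g = g) {n : ℕ} (hn : σ ^ n = 1)
    (hdiv : ∀ g h, (n : ℤ) ∣ (ι g : ℤ) + ι h - ι (g * h)) {f : G × G → A}
    (hf : f ∈ cocycles₂ A) (g h : G) :
    f (g, h) = bockFun A (fun g => (ι g : ℤ)) n (cycSum A σ f n) (g, h) +
      (A.ρ g (f (1, 1) - cycSum A σ f (ι h)) - (f (1, 1) - cycSum A σ f (ι (g * h))) +
        (f (1, 1) - cycSum A σ f (ι g))) := by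
  have h1 := cocycle_pow_pow (σ := σ) hf (ι g) (ι h)
  rw [hι, hι] at h1
  have h2 := cycSum_sub_of_eq hn f (ι g + ι h) (ι (g * h))
    (((ι g : ℤ) + ι h - ι (g * h)) / n) (by
      rw [Int.mul_ediv_cancel' (hdiv g h)]; push_cast; ring)
  rw [bockFun_apply, ← h2, h1, map_sub]
  abel

/-- The total sum of a coboundary: `∑_{i < m} (dφ)(σ ^ i, σ)` telescopes. -/
lemma cycSum_d₁₂ (φ : G → A) (m : ℕ) :
    cycSum A σ (fun p => A.ρ p.1 (φ p.2) - φ (p.1 * p.2) + φ p.1) m =
      ∑ i ∈ Finset.range m, A.ρ (σ ^ i) (φ σ) - φ (σ ^ m) + φ 1 := by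
  induction m with
  | zero => simp
  | succ m ih =>
    rw [cycSum_succ, ih, Finset.sum_range_succ, ← pow_succ]
    abel

/-- integer identity behind `cycSum_bockFun`. -/
lemma mul_sum_bock (ι : G → ℤ) (n : ℤ) (hdiv : ∀ g h, n ∣ ι g + ι h - ι (g * h)) (m : ℕ) :
    n * ∑ i ∈ Finset.range m, ((ι (σ ^ i) + ι σ - ι (σ ^ i * σ)) / n) =
      m * ι σ + ι 1 - ι (σ ^ m) := by
  induction m with
  | zero => simp
  | succ m ih =>
    rw [Finset.sum_range_succ, mul_add, ih, Int.mul_ediv_cancel' (hdiv _ _), ← pow_succ]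
    push_cast
    ring

lemma cycSum_bockFun (ι : G → ℤ) (n : ℤ) (a : A) (m : ℕ) :
    cycSum A σ (bockFun A ι n a) m =
      (∑ i ∈ Finset.range m, ((ι (σ ^ i) + ι σ - ι (σ ^ i * σ)) / n)) • a := by
  simp only [cycSum, bockFun_apply, Finset.sum_smul]

end Cyclic

section Norm

variable (A : Rep k G) (σ : G)

/-- The norm `∑_{i < orderOf σ} σ ^ i` of the cyclic group generated by `σ`. -/
noncomputable def cycNorm : A.V →ₗ[k] A.V := ∑ i ∈ Finset.range (orderOf σ), A.ρ (σ ^ i)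

lemma cycNorm_apply (b : A) :
    cycNorm A σ b = ∑ i ∈ Finset.range (orderOf σ), A.ρ (σ ^ i) b := by
  simp [cycNorm, LinearMap.sum_apply]

lemma cycNorm_of_invariant (a : A) (ha : ∀ g, A.ρ g a = a) :
    cycNorm A σ a = orderOf σ • a := by
  rw [cycNorm_apply]
  simp only [ha, Finset.sum_const, Finset.card_range]

end Norm

section Main

variable (A : Rep k G) {σ : G} {ι : G → ℕ} (hι : ∀ g, σ ^ ι g = g)

include hι

lemma isOfFinOrder_of_index : IsOfFinOrder σ := by
  rw [isOfFinOrder_iff_pow_eq_one]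
  refine ⟨ι σ⁻¹ + 1, Nat.succ_pos _, ?_⟩
  rw [pow_succ, hι, inv_mul_cancel]

lemma orderOf_pos_of_index : 0 < orderOf σ := (isOfFinOrder_of_index hι).orderOf_pos

lemma orderOf_ne_zero_of_index : (orderOf σ : ℤ) ≠ 0 := by
  exact_mod_cast (orderOf_pos_of_index hι).ne'

lemma index_dvd (g h : G) : (orderOf σ : ℤ) ∣ (ι g : ℤ) + ι h - ι (g * h) := by
  have h1 : σ ^ (ι g + ι h) = σ ^ ι (g * h) := by rw [pow_add, hι, hι, hι]
  rw [pow_eq_pow_iff_modEq] at h1
  have h2 := (Nat.modEq_iff_dvd.1 h1.symm)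
  push_cast at h2
  exact h2

lemma index_gen_dvd : (orderOf σ : ℤ) ∣ (ι σ : ℤ) - 1 := by
  have h1 : σ ^ ι σ = σ ^ 1 := by rw [hι, pow_one]
  rw [pow_eq_pow_iff_modEq] at h1
  have h2 := (Nat.modEq_iff_dvd.1 h1.symm)
  push_cast at h2
  exact h2

/-- The carry cocycle `(σ^i, σ^j) ↦ ⌊(i + j) / n⌋ • a` of an invariant element `a`. -/
noncomputable def carryCocycle (a : A) (ha : ∀ g, A.ρ g a = a) : cocycles₂ A :=
  ⟨bockFun A (fun g => (ι g : ℤ)) (orderOf σ) a,
    bockFun_mem_cocycles₂ (orderOf_ne_zero_of_index hι) (index_dvd hι) a ha⟩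

lemma carryCocycle_apply (a : A) (ha : ∀ g, A.ρ g a = a) (g h : G) :
    carryCocycle A hι a ha (g, h) = (((ι g : ℤ) + ι h - ι (g * h)) / orderOf σ) • a := rfl

/-- Every 2-cocycle `f` on the cyclic group `⟨σ⟩` is cohomologous to the carry cocycle of
`∑_{i < n} f (σ ^ i, σ)`. -/
theorem H2π_eq_H2π_carryCocycle (f : cocycles₂ A) :
    H2π A f = H2π A (carryCocycle A hι (cycSum A σ f (orderOf σ))
      (ρ_cycSum_eq_of_index ι hι (pow_orderOf_eq_one σ) f.2)) := by
  rw [H2π_eq_iff]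
  refine ⟨fun g => f (1, 1) - cycSum A σ f (ι g), ?_⟩
  funext p
  obtain ⟨g, h⟩ := p
  have h1 := cocycle_eq_bock_add hι (pow_orderOf_eq_one σ) (index_dvd hι) f.2 g h
  simp only [d₁₂_hom_apply, Pi.sub_apply]
  rw [eq_sub_iff_add_eq, add_comm]
  exact h1.symm

lemma carryCocycle_congr {a a' : A} (h : a = a') (ha : ∀ g, A.ρ g a = a) :
    carryCocycle A hι a ha = carryCocycle A hι a' (h ▸ ha) := by
  subst h
  rfl

lemma cycSum_carryCocycle (a : A) (ha : ∀ g, A.ρ g a = a) :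
    cycSum A σ (carryCocycle A hι a ha) (orderOf σ) = (ι σ : ℤ) • a := by
  have h1 := mul_sum_bock (σ := σ) (fun g => (ι g : ℤ)) (orderOf σ) (index_dvd hι) (orderOf σ)
  rw [pow_orderOf_eq_one] at h1
  have h2 : (∑ i ∈ Finset.range (orderOf σ),
      (((ι (σ ^ i) : ℤ) + ι σ - ι (σ ^ i * σ)) / orderOf σ)) = ι σ := by
    apply Int.eq_of_mul_eq_mul_left (orderOf_ne_zero_of_index hι)
    rw [h1]
    ring
  change cycSum A σ (bockFun A (fun g => (ι g : ℤ)) (orderOf σ) a) (orderOf σ) = _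
  rw [cycSum_bockFun, h2]

/-- The carry cocycle of `a` is a coboundary iff `a` is a norm. -/
theorem H2π_carryCocycle_eq_zero_iff (a : A) (ha : ∀ g, A.ρ g a = a) :
    H2π A (carryCocycle A hι a ha) = 0 ↔ ∃ b : A, a = cycNorm A σ b := by
  constructor
  · intro h
    rw [H2π_eq_zero_iff] at h
    obtain ⟨ψ, hψ⟩ := h
    have h1 := cycSum_d₁₂ (A := A) (σ := σ) ψ (orderOf σ)
    have h2 : (fun p : G × G => A.ρ p.1 (ψ p.2) - ψ (p.1 * p.2) + ψ p.1) =
        ⇑(carryCocycle A hι a ha) := by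
      rw [← hψ]
      funext p
      simp [d₁₂_hom_apply]
    rw [h2, cycSum_carryCocycle, pow_orderOf_eq_one, sub_add_cancel, ← cycNorm_apply] at h1
    obtain ⟨q, hq⟩ := index_gen_dvd hι
    have h3 : (ι σ : ℤ) = 1 + orderOf σ * q := by linarith
    refine ⟨ψ σ - q • a, ?_⟩
    rw [map_sub, map_zsmul, cycNorm_of_invariant A σ a ha, ← h1, h3, add_smul, one_smul,
      mul_comm, mul_smul, natCast_zsmul]
    abel
  · rintro ⟨b, rfl⟩
    have hf : (d₁₂ A).hom (fun _ : G => b) ∈ cocycles₂ A := d₁₂_apply_mem_cocycles₂ _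
    have h1 := H2π_eq_H2π_carryCocycle A hι ⟨_, hf⟩
    have h2 : H2π A ⟨_, hf⟩ = 0 := by
      rw [H2π_eq_zero_iff]
      exact ⟨fun _ : G => b, rfl⟩
    have h3 : cycSum A σ (⟨_, hf⟩ : cocycles₂ A) (orderOf σ) = cycNorm A σ b := by
      have h4 := cycSum_d₁₂ (A := A) (σ := σ) (fun _ : G => b) (orderOf σ)
      rw [sub_add_cancel, ← cycNorm_apply] at h4
      rw [← h4]
      rfl
    rw [h2, carryCocycle_congr A hι h3] at h1
    exact h1.symm

/-- Every class in `H²` of the cyclic group `⟨σ⟩` is a carry class. -/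
theorem exists_carryCocycle (x : H2 A) :
    ∃ (a : A) (ha : ∀ g, A.ρ g a = a), x = H2π A (carryCocycle A hι a ha) := by
  induction x using H2_induction_on with
  | h f => exact ⟨_, _, H2π_eq_H2π_carryCocycle A hι f⟩

/-- The carry class, as a linear map from the invariants to `H²`. -/
noncomputable def carryH2 : A.ρ.invariants →ₗ[k] H2 A where
  toFun a := H2π A (carryCocycle A hι a.1 (fun g => a.2 g))
  map_add' a b := by
    rw [← map_add]
    congr 1
    apply Subtype.ext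
    exact bockFun_add (A := A) (ι := fun g => (ι g : ℤ)) (n := orderOf σ) a.1 b.1
  map_smul' r a := by
    rw [RingHom.id_apply, ← map_smul]
    congr 1
    apply Subtype.ext
    exact bockFun_smul (A := A) (ι := fun g => (ι g : ℤ)) (n := orderOf σ) r a.1

lemma carryH2_apply (a : A.ρ.invariants) :
    carryH2 A hι a = H2π A (carryCocycle A hι a.1 (fun g => a.2 g)) := rfl

theorem carryH2_surjective : Function.Surjective (carryH2 A hι) := by
  intro x
  obtain ⟨a, ha, rfl⟩ := exists_carryCocycle A hι x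
  exact ⟨⟨a, ha⟩, rfl⟩

theorem ker_carryH2 :
    LinearMap.ker (carryH2 A hι) =
      (LinearMap.range (cycNorm A σ)).comap A.ρ.invariants.subtype := by
  ext a
  rw [LinearMap.mem_ker, carryH2_apply, H2π_carryCocycle_eq_zero_iff, Submodule.mem_comap,
    LinearMap.mem_range]
  constructor
  · rintro ⟨b, hb⟩
    exact ⟨b, hb.symm⟩
  · rintro ⟨b, hb⟩
    exact ⟨b, hb.symm⟩

/-- `A^G / N_G A ≃ H²(G, A)` for the finite cyclic group `G = ⟨σ⟩`, via the carry cocycle. -/
noncomputable def carryH2Equiv :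
    (A.ρ.invariants ⧸ (LinearMap.range (cycNorm A σ)).comap A.ρ.invariants.subtype) ≃ₗ[k]
      H2 A :=
  (Submodule.quotEquivOfEq _ _ (ker_carryH2 A hι).symm).trans
    (LinearMap.quotKerEquivOfSurjective _ (carryH2_surjective A hι))

lemma carryH2Equiv_mk (a : A.ρ.invariants) :
    carryH2Equiv A hι (Submodule.Quotient.mk a) = carryH2 A hι a := rfl

/-- The inverse of `carryH2Equiv` is `[f] ↦ [∑_{i < n} f (σ ^ i, σ)]`. -/
lemma carryH2Equiv_symm_H2π (f : cocycles₂ A) :
    (carryH2Equiv A hι).symm (H2π A f) =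
      Submodule.Quotient.mk ⟨cycSum A σ f (orderOf σ),
        fun g => ρ_cycSum_eq_of_index ι hι (pow_orderOf_eq_one σ) f.2 g⟩ := by
  rw [LinearEquiv.symm_apply_eq, carryH2Equiv_mk, carryH2_apply]
  exact H2π_eq_H2π_carryCocycle A hι f

lemma finite_of_index : Finite G := by
  have hpos := orderOf_pos_of_index hι
  refine Finite.of_injective
    (fun g => (⟨ι g % orderOf σ, Nat.mod_lt _ hpos⟩ : Fin (orderOf σ))) ?_
  intro g h hgh
  have h1 : ι g % orderOf σ = ι h % orderOf σ := congrArg Fin.val hgh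
  rw [← hι g, ← hι h, ← pow_mod_orderOf, h1, pow_mod_orderOf]

omit [CommRing k] in
/-- Sums over `i < orderOf σ` of a function of `σ ^ i` are sums over the group. -/
lemma sum_range_orderOf_eq_finsum {M : Type*} [AddCommMonoid M] (F : G → M) :
    ∑ i ∈ Finset.range (orderOf σ), F (σ ^ i) = ∑ᶠ g : G, F g := by
  have hpos := orderOf_pos_of_index hι
  have := finite_of_index hι
  let _ := Fintype.ofFinite G
  rw [finsum_eq_sum_of_fintype]
  refine Finset.sum_nbij' (fun i => σ ^ i) (fun g => ι g % orderOf σ) ?_ ?_ ?_ ?_ ?_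
  · intro i _
    exact Finset.mem_univ _
  · intro g _
    exact Finset.mem_range.2 (Nat.mod_lt _ hpos)
  · intro i hi
    have h1 : σ ^ ι (σ ^ i) = σ ^ i := hι _
    rw [pow_eq_pow_iff_modEq] at h1
    have h2 : ι (σ ^ i) % orderOf σ = i % orderOf σ := h1
    rw [h2, Nat.mod_eq_of_lt (Finset.mem_range.1 hi)]
  · intro g _
    show σ ^ (ι g % orderOf σ) = g
    rw [pow_mod_orderOf, hι]
  · intro i _
    rfl

lemma cycNorm_eq_finsum (b : A) : cycNorm A σ b = ∑ᶠ g : G, A.ρ g b := by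
  rw [cycNorm_apply]
  exact sum_range_orderOf_eq_finsum hι (fun g => A.ρ g b)

end Main

section Index

open Classical in
/-- A canonical index function for a generator `σ`: `σ ^ cycIdx σ g = g` whenever `g` is a
power of `σ`, and `cycIdx σ g < orderOf σ`. -/
noncomputable def cycIdx (σ g : G) : ℕ :=
  (if h : ∃ i : ℕ, σ ^ i = g then Classical.choose h else 0) % orderOf σ

lemma pow_cycIdx {σ g : G} (h : ∃ i : ℕ, σ ^ i = g) : σ ^ cycIdx σ g = g := by
  rw [cycIdx, dif_pos h, pow_mod_orderOf]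
  exact Classical.choose_spec h

lemma cycIdx_lt {σ : G} (hσ : 0 < orderOf σ) (g : G) : cycIdx σ g < orderOf σ :=
  Nat.mod_lt _ hσ

lemma exists_pow_eq_of_mem_zpowers [Finite G] {σ : G} (hσ : ∀ g, g ∈ Subgroup.zpowers σ)
    (g : G) : ∃ i : ℕ, σ ^ i = g := by
  have h := hσ g
  rw [← mem_powers_iff_mem_zpowers] at h
  exact h

lemma pow_cycIdx_of_zpowers [Finite G] {σ : G} (hσ : ∀ g, g ∈ Subgroup.zpowers σ) (g : G) :
    σ ^ cycIdx σ g = g :=
  pow_cycIdx (exists_pow_eq_of_mem_zpowers hσ g)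

end Index

end Fermat.Agent.CFT
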