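import Mathlib

/-!
# Inner automorphisms act trivially on `H¹` and `H²`

For `A : Rep k G` and `g : G`, conjugation `c_g = (x ↦ g⁻¹ x g, a ↦ g • a)` induces the identity on
`Hⁿ(G, A)`.  We prove this for `n = 1, 2` by explicit cochain homotopies:
`g • f (g⁻¹ σ g) - f σ = σ • a - a` with `a = f g`, and
`g • f (g⁻¹ σ g, g⁻¹ τ g) - f (σ, τ) = (d u)(σ, τ)` with `u σ = f (g, g⁻¹ σ g) - f (σ, g)`.
-/

set_option autoImplicit false

open CategoryTheory groupCohomology Rep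

namespace Fermat.Agent.CFT

universe u

variable {k G : Type u} [CommRing k] [Group G] (A : Rep k G)

/-- Conjugation `x ↦ g⁻¹ x g` as a group endomorphism. -/
def conjInvHom (g : G) : G →* G := (MulAut.conj g⁻¹).toMonoidHom

@[simp]
theorem conjInvHom_apply (g x : G) : conjInvHom g x = g⁻¹ * x * g := by
  simp [conjInvHom]

/-- The action of `g` as a morphism `res (conj g⁻¹) A ⟶ A`. -/
def conjRepHom (g : G) : res (conjInvHom g) A ⟶ A :=
  ofHom ⟨(A.ρ g : A →ₗ[k] A), fun x => by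
    refine LinearMap.ext fun a => ?_
    show A.ρ g (A.ρ (conjInvHom g x) a) = A.ρ x (A.ρ g a)
    rw [conjInvHom_apply, ← Module.End.mul_apply, ← map_mul, ← Module.End.mul_apply, ← map_mul]
    congr 2
    group⟩

@[simp]
theorem conjRepHom_apply (g : G) (a : A) : (conjRepHom A g).hom a = A.ρ g a := rfl

/-- Inner automorphisms act trivially on `H¹`. -/
theorem map_conj_H1 (g : G) :
    groupCohomology.map (conjInvHom g) (conjRepHom A g) 1 = 𝟙 _ := by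
  refine (cancel_epi (H1π A)).1 ?_
  rw [H1π_comp_map, Category.comp_id]
  ext f
  show (H1π A).hom ((mapCocycles₁ (conjInvHom g) (conjRepHom A g)).hom f) = (H1π A).hom f
  rw [← sub_eq_zero, ← map_sub, H1π_eq_zero_iff]
  refine ⟨f g, ?_⟩
  funext σ
  have h1 := (mem_cocycles₁_iff (f : G → A)).1 f.2
  show A.ρ σ (f g) - f g = A.ρ g (f (conjInvHom g σ)) - f σ
  rw [conjInvHom_apply]
  have e1 : f (g * (g⁻¹ * σ * g)) = A.ρ g (f (g⁻¹ * σ * g)) + f g := h1 g (g⁻¹ * σ * g)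
  have e2 : f (σ * g) = A.ρ σ (f g) + f σ := h1 σ g
  have e3 : g * (g⁻¹ * σ * g) = σ * g := by group
  rw [e3] at e1
  rw [e2] at e1
  have : A.ρ g (f (g⁻¹ * σ * g)) = A.ρ σ (f g) + f σ - f g := by
    rw [e1]; abel
  rw [this]; abel

/-- Inner automorphisms act trivially on `H²`. -/
theorem map_conj_H2 (g : G) :
    groupCohomology.map (conjInvHom g) (conjRepHom A g) 2 = 𝟙 _ := by
  refine (cancel_epi (H2π A)).1 ?_
  rw [H2π_comp_map, Category.comp_id]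
  ext f
  show (H2π A).hom ((mapCocycles₂ (conjInvHom g) (conjRepHom A g)).hom f) = (H2π A).hom f
  rw [← sub_eq_zero, ← map_sub, H2π_eq_zero_iff]
  refine ⟨fun σ => f (g, g⁻¹ * σ * g) - f (σ, g), ?_⟩
  funext ⟨σ, τ⟩
  have hc := (mem_cocycles₂_iff (f : G × G → A)).1 f.2
  show A.ρ σ (f (g, g⁻¹ * τ * g) - f (τ, g)) - (f (g, g⁻¹ * (σ * τ) * g) - f (σ * τ, g))
      + (f (g, g⁻¹ * σ * g) - f (σ, g)) =
    A.ρ g (f (conjInvHom g σ, conjInvHom g τ)) - f (σ, τ)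
  rw [conjInvHom_apply, conjInvHom_apply]
  have e1 := hc g (g⁻¹ * σ * g) (g⁻¹ * τ * g)
  have e2 := hc σ g (g⁻¹ * τ * g)
  have e3 := hc σ τ g
  have a1 : g * (g⁻¹ * σ * g) = σ * g := by group
  have a2 : g⁻¹ * σ * g * (g⁻¹ * τ * g) = g⁻¹ * (σ * τ) * g := by group
  have a3 : g * (g⁻¹ * τ * g) = τ * g := by group
  rw [a1, a2] at e1
  rw [a3] at e2
  rw [map_sub]
  have : A.ρ g (f (g⁻¹ * σ * g, g⁻¹ * τ * g)) =
      f (σ * g, g⁻¹ * τ * g) + f (g, g⁻¹ * σ * g) - f (g, g⁻¹ * (σ * τ) * g) := by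
    rw [e1]; abel
  rw [this]
  have : f (σ * g, g⁻¹ * τ * g) = A.ρ σ (f (g, g⁻¹ * τ * g)) + f (σ, τ * g) - f (σ, g) := by
    rw [← e2]; abel
  rw [this]
  have : f (σ, τ * g) = f (σ * τ, g) + f (σ, τ) - A.ρ σ (f (τ, g)) := by
    rw [e3]; abel
  rw [this]
  abel

end Fermat.Agent.CFT
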