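import Fermat.Agent.CFT.Tate.DimShift

/-!
# Higher inflation-restriction

For `S` a normal subgroup of `G`, `A : Rep k G` and `n : ℕ`, if `Hⁱ(S, A) = 0` for `1 ≤ i ≤ n`,
then
`0 ⟶ Hⁿ⁺¹(G ⧸ S, A^S) ⟶ Hⁿ⁺¹(G, A) ⟶ Hⁿ⁺¹(S, A)`
is exact (`HnInfRes_exact`, `HnInfRes_mono`). The case `n = 0` is Mathlib's `H1InfRes`; the general
case follows by dimension shifting (`DimShift.lean`).
-/

open CategoryTheory Limits groupCohomology Rep

namespace Fermat.Agent.CFT

universe u

section MapOne

variable {k G H : Type u} [CommRing k] [Group G] [Group H]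

/-- The map induced on positive-degree cohomology by the trivial group homomorphism is zero. -/
theorem map_one_succ {A : Rep k H} {B : Rep k G} (φ : res (1 : G →* H) A ⟶ B) (n : ℕ) :
    groupCohomology.map (1 : G →* H) φ (n + 1) = 0 := by
  let T : Subgroup H := ⊥
  let φ' : res (1 : G →* T) (res T.subtype A) ⟶ B := ofHom ⟨φ.hom.toLinearMap, fun g =>
    φ.hom.isIntertwining' g⟩
  have h1 : groupCohomology.map (1 : G →* H) φ (n + 1) =
      groupCohomology.map (T.subtype.comp (1 : G →* T))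
        ((resFunctor (1 : G →* T)).map (𝟙 (res T.subtype A)) ≫ φ') (n + 1) := by
    apply groupCohomology.map_congr
    · ext g
      rfl
    · rfl
  rw [h1, groupCohomology.map_comp]
  have hz : IsZero (groupCohomology (res T.subtype A) (n + 1)) :=
    isZero_groupCohomology_succ_of_subsingleton _ n
  rw [hz.eq_of_tgt (groupCohomology.map T.subtype (𝟙 (res T.subtype A)) (n + 1)) 0, zero_comp]

end MapOne

section CatAux

lemma mono_of_comm_isIso {C : Type*} [Category C] {X Y X' Y' : C} (f : X ⟶ Y) (f' : X' ⟶ Y')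
    (a : X' ⟶ X) (b : Y' ⟶ Y) (h : a ≫ f = f' ≫ b) [IsIso a] [IsIso b] [Mono f'] : Mono f := by
  have hf : f = inv a ≫ f' ≫ b := by
    rw [← h, IsIso.inv_hom_id_assoc]
  rw [hf]
  infer_instance

end CatAux

section InfRes

variable {k G : Type u} [CommRing k] [Group G]

/-- The short complex `Hⁿ⁺¹(G ⧸ S, A^S) ⟶ Hⁿ⁺¹(G, A) ⟶ Hⁿ⁺¹(S, A)` (inflation, restriction). -/
@[simps X₁ X₂ X₃ f g]
noncomputable def HnInfRes (A : Rep k G) (S : Subgroup G) [S.Normal] (n : ℕ) :
    ShortComplex (ModuleCat k) where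
  X₁ := groupCohomology (A.quotientToInvariants S) (n + 1)
  X₂ := groupCohomology A (n + 1)
  X₃ := groupCohomology (res S.subtype A) (n + 1)
  f := groupCohomology.map (QuotientGroup.mk' S) (ofHom <| A.ρ.quotientToInvariants_lift S) (n + 1)
  g := groupCohomology.map S.subtype (𝟙 _) (n + 1)
  zero := by
    rw [← groupCohomology.map_comp, Category.comp_id,
      groupCohomology.congr (QuotientGroup.mk'_comp_subtype S)
        (fun f φ => groupCohomology.map f φ (n + 1)), map_one_succ]

lemma isIso_δ_upSES (A : Rep k G) (n : ℕ) :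
    IsIso (δ (upSES_shortExact A) (n + 1) (n + 2) rfl) :=
  isIso_δ_of_isZero _ _ ((isCoinducedRep_funRep (k := k) (G := G) A.V).isZero_groupCohomology n)
    ((isCoinducedRep_funRep (k := k) (G := G) A.V).isZero_groupCohomology (n + 1))

/-- Dimension shifting for `G` itself: `Hⁿ⁺¹(G, A⁺) ≅ Hⁿ⁺²(G, A)`. -/
noncomputable def upIso (A : Rep k G) (n : ℕ) :
    groupCohomology (up A) (n + 1) ≅ groupCohomology A (n + 2) :=
  @asIso _ _ _ _ (δ (upSES_shortExact A) (n + 1) (n + 2) rfl) (isIso_δ_upSES A n)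

/-- Dimension shifting for the invariants: `Hⁿ⁺¹(G ⧸ S, (A⁺)^S) ≅ Hⁿ⁺²(G ⧸ S, A^S)` when
`H¹(S, A) = 0`. -/
noncomputable def upInvIso (A : Rep k G) (S : Subgroup G) [S.Normal]
    (h1 : IsZero (groupCohomology (res S.subtype A) 1)) (n : ℕ) :
    groupCohomology ((up A).quotientToInvariants S) (n + 1) ≅
      groupCohomology (A.quotientToInvariants S) (n + 2) :=
  @asIso _ _ _ _ (δ (upInvSES_shortExact A S h1) (n + 1) (n + 2) rfl) (isIso_δ_upInvSES A S h1 n)

/-- The isomorphism of short complexes given by dimension shifting. -/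
noncomputable def HnInfResUpIso (A : Rep k G) (S : Subgroup G) [S.Normal]
    (h1 : IsZero (groupCohomology (res S.subtype A) 1)) (n : ℕ) :
    HnInfRes (up A) S n ≅ HnInfRes A S (n + 1) :=
  ShortComplex.isoMk (upInvIso A S h1 n) (upIso A n) (upResIso A S n)
    (δ_upInvSES_comp_inf A S h1 (n + 1) (n + 2) rfl)
    (δ_upSES_comp_res A S (n + 1) (n + 2) rfl)

/-- **Higher inflation-restriction**: if `Hⁱ(S, A) = 0` for `1 ≤ i ≤ n`, then
`0 ⟶ Hⁿ⁺¹(G ⧸ S, A^S) ⟶ Hⁿ⁺¹(G, A) ⟶ Hⁿ⁺¹(S, A)` is exact. -/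
theorem HnInfRes_exact_and_mono (S : Subgroup G) [S.Normal] (n : ℕ) :
    ∀ A : Rep k G, (∀ i, i < n → IsZero (groupCohomology (res S.subtype A) (i + 1))) →
      (HnInfRes A S n).Exact ∧ Mono (HnInfRes A S n).f := by
  induction n with
  | zero =>
    intro A _
    exact ⟨H1InfRes_exact A S, inferInstanceAs (Mono (H1InfRes A S).f)⟩
  | succ n ih =>
    intro A h
    have h1 : IsZero (groupCohomology (res S.subtype A) 1) := h 0 (Nat.succ_pos n)
    have hB : ∀ i, i < n → IsZero (groupCohomology (res S.subtype (up A)) (i + 1)) := by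
      intro i hi
      exact (isZero_res_up_iff A S i).mpr (h (i + 1) (Nat.succ_lt_succ hi))
    obtain ⟨hex, hmono⟩ := ih (up A) hB
    refine ⟨(ShortComplex.exact_iff_of_iso (HnInfResUpIso A S h1 n)).mp hex, ?_⟩
    exact mono_of_comm_isIso _ _ _ _ (HnInfResUpIso A S h1 n).hom.comm₁₂

theorem HnInfRes_exact (A : Rep k G) (S : Subgroup G) [S.Normal] (n : ℕ)
    (h : ∀ i, i < n → IsZero (groupCohomology (res S.subtype A) (i + 1))) :
    (HnInfRes A S n).Exact :=
  (HnInfRes_exact_and_mono S n A h).1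

theorem HnInfRes_mono (A : Rep k G) (S : Subgroup G) [S.Normal] (n : ℕ)
    (h : ∀ i, i < n → IsZero (groupCohomology (res S.subtype A) (i + 1))) :
    Mono (HnInfRes A S n).f :=
  (HnInfRes_exact_and_mono S n A h).2

/-- Elementwise form: inflation is injective in degree `n + 1`. -/
theorem HnInfRes_f_injective (A : Rep k G) (S : Subgroup G) [S.Normal] (n : ℕ)
    (h : ∀ i, i < n → IsZero (groupCohomology (res S.subtype A) (i + 1))) :
    Function.Injective (HnInfRes A S n).f.hom :=
  (ModuleCat.mono_iff_injective _).mp (HnInfRes_mono A S n h)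

/-- Elementwise form: a class of degree `n + 1` restricting to zero on `S` is inflated from
`G ⧸ S`. -/
theorem HnInfRes_exists_of_g_eq_zero (A : Rep k G) (S : Subgroup G) [S.Normal] (n : ℕ)
    (h : ∀ i, i < n → IsZero (groupCohomology (res S.subtype A) (i + 1)))
    (x : groupCohomology A (n + 1)) (hx : (HnInfRes A S n).g.hom x = 0) :
    ∃ y : groupCohomology (A.quotientToInvariants S) (n + 1), (HnInfRes A S n).f.hom y = x :=
  (ShortComplex.moduleCat_exact_iff _).mp (HnInfRes_exact A S n h) x hx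

section DegreeTwo

variable (A : Rep k G) (S : Subgroup G) [S.Normal]
  (h1 : IsZero (groupCohomology (res S.subtype A) 1))

include h1

omit [S.Normal] in
lemma isZero_of_lt_one (i : ℕ) (hi : i < 1) :
    IsZero (groupCohomology (res S.subtype A) (i + 1)) := by
  obtain rfl : i = 0 := by omega
  exact h1

/-- **Inflation-restriction in degree 2**: if `H¹(S, A) = 0` then
`0 ⟶ H²(G ⧸ S, A^S) ⟶ H²(G, A) ⟶ H²(S, A)` is exact. -/
theorem H2InfRes_exact : (HnInfRes A S 1).Exact :=
  HnInfRes_exact A S 1 (isZero_of_lt_one A S h1)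

theorem H2InfRes_mono : Mono (HnInfRes A S 1).f :=
  HnInfRes_mono A S 1 (isZero_of_lt_one A S h1)

theorem H2Inf_injective : Function.Injective (HnInfRes A S 1).f.hom :=
  HnInfRes_f_injective A S 1 (isZero_of_lt_one A S h1)

theorem H2_exists_inf_of_res_eq_zero (x : groupCohomology A 2)
    (hx : (HnInfRes A S 1).g.hom x = 0) :
    ∃ y : groupCohomology (A.quotientToInvariants S) 2, (HnInfRes A S 1).f.hom y = x :=
  HnInfRes_exists_of_g_eq_zero A S 1 (isZero_of_lt_one A S h1) x hx

end DegreeTwo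

end InfRes

end Fermat.Agent.CFT
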