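import Fermat.Agent.CFT.Tate.Induced

/-!
# Dimension shifting for group cohomology

For `A : Rep k G` we form the short exact sequence `0 → A → Fun(G, A) → A⁺ → 0`
(`upSES A`), whose middle term is coinduced.  Consequences:

* `upResIso A H n : H^{n+1}(H, A⁺) ≅ H^{n+2}(H, A)` for every subgroup `H`;
* for `S` normal with `H¹(S, A) = 0`, the sequence of `S`-invariants
  `0 → A^S → Fun(G, A)^S → (A⁺)^S → 0` (`upInvSES A S`) is short exact with coinduced middle term;
* `δ_comp_map`: naturality of connecting homomorphisms under change of group, and the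
  resulting restriction / inflation squares.
-/

open CategoryTheory Limits groupCohomology Rep

namespace Fermat.Agent.CFT

universe u

section Basics

variable {k G : Type u} [CommRing k] [Group G]

/-- Elementwise criterion for exactness in `Rep k G`. -/
lemma rep_exact_iff (S : ShortComplex (Rep k G)) :
    S.Exact ↔ ∀ x : S.X₂, S.g.hom x = 0 → ∃ y : S.X₁, S.f.hom y = x := by
  rw [← ShortComplex.exact_map_iff_of_faithful S (forget₂ (Rep k G) (ModuleCat k))]
  rw [ShortComplex.moduleCat_exact_iff]
  rfl

lemma rep_shortExact_of (S : ShortComplex (Rep k G))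
    (h1 : Function.Injective S.f.hom) (h2 : ∀ x : S.X₂, S.g.hom x = 0 → ∃ y : S.X₁, S.f.hom y = x)
    (h3 : Function.Surjective S.g.hom) : S.ShortExact where
  exact := (rep_exact_iff S).2 h2
  mono_f := (Rep.mono_iff_injective _).2 h1
  epi_g := (Rep.epi_iff_surjective _).2 h3

instance quotientToInvariantsFunctor_preservesZero (S : Subgroup G) [S.Normal] :
    (quotientToInvariantsFunctor k S).PreservesZeroMorphisms where
  map_zero X Y := by
    ext x
    rfl

lemma quotientToInvariantsFunctor_map_val (S : Subgroup G) [S.Normal] {X Y : Rep k G}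
    (f : X ⟶ Y) (x : X.quotientToInvariants S) :
    ((((quotientToInvariantsFunctor k S).map f).hom x : Y.quotientToInvariants S)).1 =
      f.hom x.1 := rfl

lemma exists_eq_sub_of_isZero_H1 (A : Rep k G) (h : IsZero (groupCohomology A 1))
    (c : cocycles₁ A) : ∃ a : A, ∀ g, c g = A.ρ g a - a := by
  have h0 : H1π A c = 0 := by
    have : Subsingleton (H1 A) := ModuleCat.subsingleton_of_isZero h
    exact Subsingleton.elim _ _
  obtain ⟨a, ha⟩ := (H1π_eq_zero_iff c).1 h0
  refine ⟨a, fun g => ?_⟩
  have := congrFun ha g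
  simpa using this.symm

end Basics

section Up

variable {k G : Type u} [CommRing k] [Group G]

/-- The canonical embedding `A → Fun(G, A)`, `a ↦ (x ↦ x • a)`. -/
noncomputable def upMap (A : Rep k G) : A ⟶ funRep k G A.V :=
  ConcreteCategory.ofHom (C := Rep k G)
    ⟨(LinearMap.pi fun x => A.ρ x : A.V →ₗ[k] (G → A.V)), fun g => by
      refine LinearMap.ext fun a => funext fun x => ?_
      show A.ρ x (A.ρ g a) = A.ρ (x * g) a
      simp⟩

@[simp]
lemma upMap_apply (A : Rep k G) (a : A) (x : G) : (upMap A).hom a x = A.ρ x a := rfl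

lemma upMap_injective (A : Rep k G) : Function.Injective (upMap A).hom := by
  intro a b h
  have := congrFun h 1
  simpa using this

instance (A : Rep k G) : Mono (upMap A) := (Rep.mono_iff_injective _).2 (upMap_injective A)

/-- The dimension shifting module `A⁺ = Fun(G, A) / A`. -/
noncomputable abbrev up (A : Rep k G) : Rep k G := cokernel (upMap A)

/-- The short complex `A → Fun(G, A) → A⁺`. -/
noncomputable def upSES (A : Rep k G) : ShortComplex (Rep k G) :=
  ShortComplex.mk (upMap A) (cokernel.π (upMap A)) (cokernel.condition _)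

lemma upSES_shortExact (A : Rep k G) : (upSES A).ShortExact where
  exact := ShortComplex.exact_cokernel _
  mono_f := inferInstanceAs (Mono (upMap A))
  epi_g := inferInstanceAs (Epi (cokernel.π (upMap A)))

/-- The restriction of `A → Fun(G, A) → A⁺` to a subgroup. -/
noncomputable def upResSES (A : Rep k G) (H : Subgroup G) : ShortComplex (Rep k H) :=
  (upSES A).map (resFunctor H.subtype)

lemma upResSES_shortExact (A : Rep k G) (H : Subgroup G) : (upResSES A H).ShortExact :=
  (shortExact_res H.subtype).2 (upSES_shortExact A)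

lemma isCoinducedRep_upResSES_X₂ (A : Rep k G) (H : Subgroup G) :
    IsCoinducedRep (upResSES A H).X₂ :=
  (isCoinducedRep_funRep (k := k) (G := G) A.V).res H

instance isIso_δ_upResSES (A : Rep k G) (H : Subgroup G) (n : ℕ) :
    IsIso (δ (upResSES_shortExact A H) (n + 1) (n + 2) rfl) :=
  isIso_δ_of_isZero _ _ ((isCoinducedRep_upResSES_X₂ A H).isZero_groupCohomology n)
    ((isCoinducedRep_upResSES_X₂ A H).isZero_groupCohomology (n + 1))

instance epi_δ_upResSES (A : Rep k G) (H : Subgroup G) :
    Epi (δ (upResSES_shortExact A H) 0 1 rfl) :=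
  epi_δ_of_isZero _ _ ((isCoinducedRep_upResSES_X₂ A H).isZero_groupCohomology 0)

/-- Dimension shifting: `H^{n+1}(H, A⁺) ≅ H^{n+2}(H, A)` for every subgroup `H`. -/
noncomputable def upResIso (A : Rep k G) (H : Subgroup G) (n : ℕ) :
    groupCohomology (res H.subtype (up A)) (n + 1) ≅ groupCohomology (res H.subtype A) (n + 2) :=
  @asIso _ _ _ _ (δ (upResSES_shortExact A H) (n + 1) (n + 2) rfl) (isIso_δ_upResSES A H n)

lemma isZero_res_up_iff (A : Rep k G) (H : Subgroup G) (n : ℕ) :
    IsZero (groupCohomology (res H.subtype (up A)) (n + 1)) ↔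
      IsZero (groupCohomology (res H.subtype A) (n + 2)) :=
  (upResIso A H n).isZero_iff

end Up


section UpInv

variable {k G : Type u} [CommRing k] [Group G]

/-- The short complex of `G ⧸ S`-modules `A^S → Fun(G, A)^S → (A⁺)^S`. -/
noncomputable def upInvSES (A : Rep k G) (S : Subgroup G) [S.Normal] :
    ShortComplex (Rep k (G ⧸ S)) :=
  (upSES A).map (quotientToInvariantsFunctor k S)

lemma upInvSES_shortExact (A : Rep k G) (S : Subgroup G) [S.Normal]
    (h1 : IsZero (groupCohomology (res S.subtype A) 1)) : (upInvSES A S).ShortExact := by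
  have hex : ∀ x : funRep k G A.V, (cokernel.π (upMap A)).hom x = 0 →
      ∃ y : A, (upMap A).hom y = x := (rep_exact_iff (upSES A)).1 (upSES_shortExact A).exact
  have hsurj : Function.Surjective (cokernel.π (upMap A)).hom :=
    (Rep.epi_iff_surjective _).1 inferInstance
  apply rep_shortExact_of
  · show Function.Injective ((quotientToInvariantsFunctor k S).map (upMap A)).hom
    rintro ⟨x, hx⟩ ⟨y, hy⟩ hxy
    apply Subtype.ext
    apply upMap_injective A
    exact congrArg Subtype.val hxy
  · show ∀ x : (funRep k G A.V).quotientToInvariants S,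
      ((quotientToInvariantsFunctor k S).map (cokernel.π (upMap A))).hom x = 0 →
        ∃ y : A.quotientToInvariants S,
          ((quotientToInvariantsFunctor k S).map (upMap A)).hom y = x
    rintro ⟨x, hxinv⟩ hx
    have hx' : (cokernel.π (upMap A)).hom x = 0 := congrArg Subtype.val hx
    obtain ⟨a, ha⟩ := hex _ hx'
    have hinv : ∀ s : S, A.ρ s a = a := by
      intro s
      apply upMap_injective A
      rw [Rep.hom_comm_apply, ha]
      exact hxinv s
    exact ⟨⟨a, hinv⟩, Subtype.ext ha⟩
  · show Function.Surjective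
      ((quotientToInvariantsFunctor k S).map (cokernel.π (upMap A))).hom
    rintro ⟨b, hbinv⟩
    obtain ⟨f, hf⟩ := hsurj b
    -- the cocycle s ↦ s • f - f takes values in the image of `upMap`
    have hc : ∀ s : S, ∃ a : A, (upMap A).hom a = (funRep k G A.V).ρ s f - f := by
      intro s
      apply hex
      rw [map_sub, Rep.hom_comm_apply, hf, sub_eq_zero]
      exact hbinv s
    choose c hc using hc
    have hcoc : c ∈ cocycles₁ (res S.subtype A) := by
      rw [mem_cocycles₁_iff]
      intro s t
      apply upMap_injective A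
      rw [map_add, hc, hc]
      have : (upMap A).hom ((res S.subtype A).ρ s (c t)) =
          (funRep k G A.V).ρ s ((upMap A).hom (c t)) := Rep.hom_comm_apply (upMap A) (s : G) (c t)
      rw [this, hc, map_sub]
      have hmul : (funRep k G A.V).ρ ((s * t : S) : G) f =
          (funRep k G A.V).ρ s ((funRep k G A.V).ρ t f) := by
        simp
      rw [hmul]
      abel
    obtain ⟨a, ha⟩ := exists_eq_sub_of_isZero_H1 (res S.subtype A) h1 ⟨c, hcoc⟩
    have hinv : ∀ s : S, (funRep k G A.V).ρ s (f - (upMap A).hom a) = f - (upMap A).hom a := by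
      intro s
      have h1' : (upMap A).hom (c s) = (upMap A).hom (A.ρ s a - a) := congrArg _ (ha s)
      rw [hc, map_sub, Rep.hom_comm_apply] at h1'
      rw [map_sub]
      calc (funRep k G A.V).ρ s f - (funRep k G A.V).ρ s ((upMap A).hom a)
          = ((funRep k G A.V).ρ s f - f) -
            ((funRep k G A.V).ρ s ((upMap A).hom a) - (upMap A).hom a) +
              (f - (upMap A).hom a) := by abel
        _ = f - (upMap A).hom a := by rw [h1']; abel
    refine ⟨⟨f - (upMap A).hom a, hinv⟩, Subtype.ext ?_⟩
    show (cokernel.π (upMap A)).hom (f - (upMap A).hom a) = b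
    have hz : (cokernel.π (upMap A)).hom ((upMap A).hom a) = 0 := by
      have := congrArg (fun φ => φ.hom a) (cokernel.condition (upMap A))
      exact this
    rw [map_sub, hf, hz, sub_zero]

end UpInv

section DeltaMap

variable {k G H : Type u} [CommRing k] [Group G] [Group H]

/-- Naturality of the connecting homomorphism with respect to a change of group. -/
theorem δ_comp_map (f : G →* H) {X : ShortComplex (Rep k H)} (hX : X.ShortExact)
    {Y : ShortComplex (Rep k G)} (hY : Y.ShortExact) (φ : X.map (resFunctor f) ⟶ Y)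
    (i j : ℕ) (hij : i + 1 = j) :
    δ hX i j hij ≫ groupCohomology.map f φ.τ₁ j = groupCohomology.map f φ.τ₃ i ≫ δ hY i j hij := by
  let Φ : X.map (cochainsFunctor k H) ⟶ Y.map (cochainsFunctor k G) :=
    { τ₁ := cochainsMap f φ.τ₁
      τ₂ := cochainsMap f φ.τ₂
      τ₃ := cochainsMap f φ.τ₃
      comm₁₂ := by
        have h := φ.comm₁₂
        have h1 : cochainsMap f φ.τ₁ ≫ cochainsMap (MonoidHom.id G) Y.f =
            cochainsMap f (φ.τ₁ ≫ Y.f) := rfl
        have h2 : cochainsMap (MonoidHom.id H) X.f ≫ cochainsMap f φ.τ₂ =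
            cochainsMap f ((resFunctor f).map X.f ≫ φ.τ₂) := rfl
        exact h1.trans ((congrArg (cochainsMap f) h).trans h2.symm)
      comm₂₃ := by
        have h := φ.comm₂₃
        have h1 : cochainsMap f φ.τ₂ ≫ cochainsMap (MonoidHom.id G) Y.g =
            cochainsMap f (φ.τ₂ ≫ Y.g) := rfl
        have h2 : cochainsMap (MonoidHom.id H) X.g ≫ cochainsMap f φ.τ₃ =
            cochainsMap f ((resFunctor f).map X.g ≫ φ.τ₃) := rfl
        exact h1.trans ((congrArg (cochainsMap f) h).trans h2.symm) }
  exact HomologicalComplex.HomologySequence.δ_naturality Φ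
    (map_cochainsFunctor_shortExact hX) (map_cochainsFunctor_shortExact hY) i j hij

end DeltaMap

section Squares

variable {k G : Type u} [CommRing k] [Group G]

lemma isCoinducedRep_upInvSES_X₂ (A : Rep k G) (S : Subgroup G) [S.Normal] :
    IsCoinducedRep (upInvSES A S).X₂ :=
  (isCoinducedRep_funRep (k := k) (G := G) A.V).quotientToInvariants S

lemma isIso_δ_upInvSES (A : Rep k G) (S : Subgroup G) [S.Normal]
    (h1 : IsZero (groupCohomology (res S.subtype A) 1)) (n : ℕ) :
    IsIso (δ (upInvSES_shortExact A S h1) (n + 1) (n + 2) rfl) :=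
  isIso_δ_of_isZero _ _ ((isCoinducedRep_upInvSES_X₂ A S).isZero_groupCohomology n)
    ((isCoinducedRep_upInvSES_X₂ A S).isZero_groupCohomology (n + 1))

/-- The restriction square for dimension shifting. -/
lemma δ_upSES_comp_res (A : Rep k G) (H : Subgroup G) (i j : ℕ) (hij : i + 1 = j) :
    δ (upSES_shortExact A) i j hij ≫ groupCohomology.map H.subtype (𝟙 (res H.subtype A)) j =
      groupCohomology.map H.subtype (𝟙 (res H.subtype (up A))) i ≫
        δ (upResSES_shortExact A H) i j hij :=
  δ_comp_map H.subtype (upSES_shortExact A) (upResSES_shortExact A H) (𝟙 _) i j hij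

/-- The inclusion of invariants, as a morphism of short complexes. -/
noncomputable def upInvSESLift (A : Rep k G) (S : Subgroup G) [S.Normal] :
    (upInvSES A S).map (resFunctor (QuotientGroup.mk' S)) ⟶ upSES A where
  τ₁ := ofHom (A.ρ.quotientToInvariants_lift S)
  τ₂ := ofHom ((funRep k G A.V).ρ.quotientToInvariants_lift S)
  τ₃ := ofHom ((up A).ρ.quotientToInvariants_lift S)
  comm₁₂ := by
    ext x
    rfl
  comm₂₃ := by
    ext x
    rfl

/-- The inflation square for dimension shifting. -/
lemma δ_upInvSES_comp_inf (A : Rep k G) (S : Subgroup G) [S.Normal]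
    (h1 : IsZero (groupCohomology (res S.subtype A) 1)) (i j : ℕ) (hij : i + 1 = j) :
    δ (upInvSES_shortExact A S h1) i j hij ≫
        groupCohomology.map (QuotientGroup.mk' S) (ofHom (A.ρ.quotientToInvariants_lift S)) j =
      groupCohomology.map (QuotientGroup.mk' S)
          (ofHom ((up A).ρ.quotientToInvariants_lift S)) i ≫
        δ (upSES_shortExact A) i j hij :=
  δ_comp_map (QuotientGroup.mk' S) (upInvSES_shortExact A S h1) (upSES_shortExact A)
    (upInvSESLift A S) i j hij

end Squares

end Fermat.Agent.CFT
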