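import Mathlib

/-!
# Coinduced modules `Fun(G, V)` and their cohomological triviality

For a group `G` and a `k`-module `V`, `funRep k G V` is the representation of `G` on functions
`G → V` by right translation, `(g • f) x = f (x * g)`.  We show

* `H^{n+1}(G, Fun(G,V)) = 0` (Shapiro, via Mathlib's `coindIso`),
* the restriction of `Fun(G,V)` to a subgroup `H` is `Fun(H, (G ⧸ H → V))`,
* for `H` normal, the `H`-invariants of `Fun(G,V)` are `Fun(G ⧸ H, V)` as a `G ⧸ H`-module.
-/

open CategoryTheory Limits groupCohomology Rep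

namespace Fermat.Agent.CFT

universe u

section Defs

variable (k G : Type u) [CommRing k] [Group G] (V : Type u) [AddCommGroup V] [Module k V]

/-- The representation of `G` on functions `G → V` by right translation. -/
def funRepresentation : Representation k G (G → V) where
  toFun g := LinearMap.funLeft k V (· * g)
  map_one' := by ext; simp
  map_mul' g h := by ext f x; simp [mul_assoc]

@[simp]
lemma funRepresentation_apply (g : G) (f : G → V) (x : G) :
    funRepresentation k G V g f x = f (x * g) := rfl

/-- `Fun(G, V)` as an object of `Rep k G`. -/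
noncomputable def funRep : Rep k G := Rep.of (funRepresentation k G V)

@[simp]
lemma funRep_ρ_apply (g : G) (f : G → V) (x : G) :
    (funRep k G V).ρ g f x = f (x * g) := rfl

/-- The linear equivalence between `G → V` and the underlying module of the coinduction from the
trivial subgroup. -/
noncomputable def funLinearEquivCoindV :
    (G → V) ≃ₗ[k]
      Representation.coindV (⊥ : Subgroup G).subtype (Rep.trivial k (⊥ : Subgroup G) V).ρ where
  toFun f := ⟨f, fun g h => by
    have hg : (g : G) = 1 := Subgroup.mem_bot.1 g.2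
    simp [hg]⟩
  invFun f := f.1
  map_add' _ _ := rfl
  map_smul' _ _ := rfl
  left_inv _ := rfl
  right_inv _ := rfl

/-- `Fun(G, V)` is coinduced from the trivial subgroup. -/
noncomputable def funRepIsoCoind :
    funRep k G V ≅ coind (⊥ : Subgroup G).subtype (Rep.trivial k (⊥ : Subgroup G) V) :=
  Rep.mkIso (Representation.Equiv.mk (funLinearEquivCoindV k G V) (fun g => by
    ext f
    rfl))

/-- Shapiro: the higher cohomology of `Fun(G, V)` vanishes. -/
theorem isZero_groupCohomology_funRep (n : ℕ) :
    IsZero (groupCohomology (funRep k G V) (n + 1)) := by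
  have h1 : IsZero (groupCohomology (Rep.trivial k (⊥ : Subgroup G) V) (n + 1)) :=
    isZero_groupCohomology_succ_of_subsingleton _ n
  have h2 := h1.of_iso (coindIso (Rep.trivial k (⊥ : Subgroup G) V) (n + 1))
  exact h2.of_iso ((groupCohomology.functor k G (n + 1)).mapIso (funRepIsoCoind k G V))

end Defs

section Subgroups

variable (k G : Type u) [CommRing k] [Group G] (V : Type u) [AddCommGroup V] [Module k V]

/-- Restriction of `Fun(G, V)` to a subgroup `H`: linear equivalence with `Fun(H, (G ⧸ H → V))`. -/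
noncomputable def funResLinearEquiv (H : Subgroup G) :
    (G → V) ≃ₗ[k] (H → ((G ⧸ H) → V)) where
  toFun f := fun h q => f (q.out * h)
  invFun F := fun x => F ⟨((QuotientGroup.mk x : G ⧸ H).out)⁻¹ * x,
    QuotientGroup.eq.1 (QuotientGroup.out_eq' _)⟩ (QuotientGroup.mk x)
  map_add' _ _ := rfl
  map_smul' _ _ := rfl
  left_inv f := by
    funext x
    simp
  right_inv F := by
    funext h q
    have hq : (QuotientGroup.mk (q.out * (h : G)) : G ⧸ H) = q := by
      rw [QuotientGroup.mk_mul_of_mem _ h.2]
      exact QuotientGroup.out_eq' q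
    show F ⟨((QuotientGroup.mk (q.out * (h : G)) : G ⧸ H).out)⁻¹ * (q.out * h), _⟩
      (QuotientGroup.mk (q.out * (h : G))) = F h q
    have key : ∀ (q' : G ⧸ H) (hq' : q' = q) (hm : (q'.out)⁻¹ * (q.out * (h : G)) ∈ H),
        F ⟨(q'.out)⁻¹ * (q.out * h), hm⟩ q' = F h q := by
      rintro q' rfl hm
      congr 1
      ext
      simp
    exact key _ hq _

/-- The restriction of `Fun(G, V)` to a subgroup `H` is again of the form `Fun(H, W)`. -/
noncomputable def resFunRepIso (H : Subgroup G) :
    res H.subtype (funRep k G V) ≅ funRep k H ((G ⧸ H) → V) :=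
  Rep.mkIso (Representation.Equiv.mk (funResLinearEquiv k G V H) (fun g => by
    ext f h q
    show f (q.out * h * g) = f (q.out * (h * g : H))
    simp [mul_assoc]))

end Subgroups

section Invariants

variable (k G : Type u) [CommRing k] [Group G] (V : Type u) [AddCommGroup V] [Module k V]

/-- The `S`-invariants of `Fun(G, V)` are the functions on `G ⧸ S`. -/
noncomputable def funInvariantsLinearEquiv (S : Subgroup G) [S.Normal] :
    ((G ⧸ S) → V) ≃ₗ[k]
      Representation.invariants ((funRepresentation k G V).comp S.subtype) where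
  toFun F := ⟨fun x => F (QuotientGroup.mk x), fun s => by
    funext x
    show F (QuotientGroup.mk (x * (s : G))) = F (QuotientGroup.mk x)
    rw [QuotientGroup.mk_mul_of_mem _ s.2]⟩
  invFun f := fun q => Quotient.liftOn' q f.1 (fun a b hab => by
    have hs : a⁻¹ * b ∈ S := QuotientGroup.leftRel_apply.1 hab
    have := congrFun (f.2 ⟨a⁻¹ * b, hs⟩) a
    simpa using this.symm)
  map_add' _ _ := rfl
  map_smul' _ _ := rfl
  left_inv F := by
    funext q
    induction q using QuotientGroup.induction_on with
    | H x => rfl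
  right_inv f := by
    ext x
    rfl

/-- For `S` normal, the `G ⧸ S`-module of `S`-invariants of `Fun(G, V)` is `Fun(G ⧸ S, V)`. -/
noncomputable def quotientToInvariantsFunRepIso (S : Subgroup G) [S.Normal] :
    funRep k (G ⧸ S) V ≅ (funRep k G V).quotientToInvariants S :=
  Rep.mkIso (Representation.Equiv.mk (funInvariantsLinearEquiv k G V S) (fun g => by
    induction g using QuotientGroup.induction_on with
    | H g =>
      ext F
      rfl))

end Invariants

section TateProps

variable {k G : Type u} [CommRing k] [Group G]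

/-- `Ĥ⁰(G, A) = 0`: every `G`-invariant element is a norm. -/
def TateZeroTrivial (A : Rep k G) : Prop :=
  ∀ a : A, (∀ g : G, A.ρ g a = a) → ∃ b : A, ∑ᶠ g : G, A.ρ g b = a

/-- `Ĥ⁻¹(G, A) = 0`: every element of norm zero lies in `I_G A`. -/
def TateNegOneTrivial (A : Rep k G) : Prop :=
  ∀ a : A, ∑ᶠ g : G, A.ρ g a = 0 → a ∈ Representation.Coinvariants.ker A.ρ

lemma iso_hom_inv_apply {A B : Rep k G} (e : A ≅ B) (b : B) : e.hom.hom (e.inv.hom b) = b := by
  simp

lemma iso_inv_hom_apply {A B : Rep k G} (e : A ≅ B) (a : A) : e.inv.hom (e.hom.hom a) = a := by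
  simp

lemma hom_finsum_norm [Finite G] {A B : Rep k G} (f : A ⟶ B) (a : A) :
    f.hom (∑ᶠ g : G, A.ρ g a) = ∑ᶠ g : G, B.ρ g (f.hom a) := by
  have h := map_finsum (f.hom.toLinearMap : A →ₗ[k] B).toAddMonoidHom
    (f := fun g : G => A.ρ g a) (Set.toFinite _)
  simp only [LinearMap.toAddMonoidHom_coe] at h
  refine h.trans (finsum_congr fun g => ?_)
  exact Rep.hom_comm_apply f g a

lemma TateZeroTrivial.of_iso [Finite G] {A B : Rep k G} (e : A ≅ B) (h : TateZeroTrivial A) :
    TateZeroTrivial B := by
  intro b hb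
  obtain ⟨a, ha⟩ := h (e.inv.hom b) (fun g => by
    rw [← Rep.hom_comm_apply e.inv g b, hb g])
  refine ⟨e.hom.hom a, ?_⟩
  rw [← hom_finsum_norm, ha, iso_hom_inv_apply]

lemma hom_mem_coinvariantsKer {A B : Rep k G} (f : A ⟶ B) {a : A}
    (ha : a ∈ Representation.Coinvariants.ker A.ρ) :
    f.hom a ∈ Representation.Coinvariants.ker B.ρ := by
  induction ha using Submodule.span_induction with
  | mem x hx =>
    obtain ⟨⟨g, y⟩, rfl⟩ := hx
    have : f.hom (A.ρ g y - y) = B.ρ g (f.hom y) - f.hom y := by
      rw [map_sub, Rep.hom_comm_apply]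
    rw [this]
    exact Representation.Coinvariants.sub_mem_ker g _
  | zero => simp
  | add x y _ _ hx hy => rw [map_add]; exact Submodule.add_mem _ hx hy
  | smul c x _ hx => rw [map_smul]; exact Submodule.smul_mem _ c hx

lemma TateNegOneTrivial.of_iso [Finite G] {A B : Rep k G} (e : A ≅ B)
    (h : TateNegOneTrivial A) : TateNegOneTrivial B := by
  intro b hb
  have h1 : ∑ᶠ g : G, A.ρ g (e.inv.hom b) = 0 := by
    rw [← hom_finsum_norm, hb, map_zero]
  have h2 := hom_mem_coinvariantsKer e.hom (h _ h1)
  rwa [iso_hom_inv_apply] at h2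

end TateProps

section FunRepTate

variable (k G : Type u) [CommRing k] [Group G] [Finite G] (V : Type u) [AddCommGroup V]
  [Module k V]

lemma funRepresentation_finsum_apply (f : G → V) (x : G) :
    (∑ᶠ g : G, funRepresentation k G V g f) x = ∑ᶠ g : G, f (x * g) := by
  have := Fintype.ofFinite G
  rw [finsum_eq_sum_of_fintype, finsum_eq_sum_of_fintype, Finset.sum_apply]
  rfl

open Classical in
theorem tateZeroTrivial_funRep : TateZeroTrivial (funRep k G V) := by
  intro f hf
  change G → V at f
  refine ⟨fun x => if x = 1 then f 1 else 0, ?_⟩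
  funext x
  refine (funRepresentation_finsum_apply k G V _ x).trans ?_
  have := Fintype.ofFinite G
  rw [finsum_eq_sum_of_fintype]
  have hfx : f x = f 1 := by
    have := congrFun (hf x) 1
    simpa using this
  rw [hfx]
  rw [Finset.sum_eq_single x⁻¹]
  · simp
  · intro g _ hg
    have : x * g ≠ 1 := fun h => hg (eq_inv_of_mul_eq_one_right h)
    simp [this]
  · simp

open Classical in
theorem tateNegOneTrivial_funRep : TateNegOneTrivial (funRep k G V) := by
  intro f hf
  change G → V at f
  have := Fintype.ofFinite G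
  -- δ y v : the function supported at `y` with value `v`
  let δ : G → V → (G → V) := fun y v x => if x = y then v else 0
  have hsum : ∑ y : G, f y = 0 := by
    have h1 := congrFun hf 1
    have h2 := funRepresentation_finsum_apply k G V f 1
    simp only [one_mul] at h2
    rw [← finsum_eq_sum_of_fintype, ← h2]
    exact h1
  have hf_eq : f = ∑ y : G, (δ y (f y) - δ 1 (f y)) := by
    funext x
    simp only [Finset.sum_apply, Pi.sub_apply, δ]
    rw [Finset.sum_sub_distrib]
    rw [Finset.sum_ite_eq Finset.univ x (fun y => f y)]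
    simp only [Finset.mem_univ, if_true]
    by_cases hx : x = 1
    · simp [hx, hsum]
    · simp [hx]
  have hmem : (∑ y : G, (δ y (f y) - δ 1 (f y))) ∈
      Representation.Coinvariants.ker (funRepresentation k G V) := by
    refine Submodule.sum_mem _ fun y _ => ?_
    refine Representation.Coinvariants.mem_ker_of_eq y⁻¹ (δ 1 (f y)) _ ?_
    funext x
    simp only [Pi.sub_apply, δ, funRepresentation_apply]
    have : x * y⁻¹ = 1 ↔ x = y := by
      rw [mul_inv_eq_one]
    simp [this]
  rw [← hf_eq] at hmem
  exact hmem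

end FunRepTate

section IsCoinduced

variable {k G : Type u} [CommRing k] [Group G]

/-- `B` is isomorphic to a module of the form `Fun(G, V)`. -/
def IsCoinducedRep (B : Rep k G) : Prop :=
  ∃ (V : Type u) (_ : AddCommGroup V) (_ : Module k V), Nonempty (B ≅ funRep k G V)

lemma isCoinducedRep_funRep (V : Type u) [AddCommGroup V] [Module k V] :
    IsCoinducedRep (funRep k G V) := ⟨V, _, _, ⟨Iso.refl _⟩⟩

lemma IsCoinducedRep.of_iso {B B' : Rep k G} (e : B ≅ B') (h : IsCoinducedRep B) :
    IsCoinducedRep B' := by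
  obtain ⟨V, _, _, ⟨f⟩⟩ := h
  exact ⟨V, _, _, ⟨e.symm ≪≫ f⟩⟩

lemma IsCoinducedRep.isZero_groupCohomology {B : Rep k G} (h : IsCoinducedRep B) (n : ℕ) :
    IsZero (groupCohomology B (n + 1)) := by
  obtain ⟨V, _, _, ⟨f⟩⟩ := h
  exact (isZero_groupCohomology_funRep k G V n).of_iso
    ((groupCohomology.functor k G (n + 1)).mapIso f)

lemma IsCoinducedRep.tateZeroTrivial [Finite G] {B : Rep k G} (h : IsCoinducedRep B) :
    TateZeroTrivial B := by
  obtain ⟨V, _, _, ⟨f⟩⟩ := h
  exact (tateZeroTrivial_funRep k G V).of_iso f.symm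

lemma IsCoinducedRep.tateNegOneTrivial [Finite G] {B : Rep k G} (h : IsCoinducedRep B) :
    TateNegOneTrivial B := by
  obtain ⟨V, _, _, ⟨f⟩⟩ := h
  exact (tateNegOneTrivial_funRep k G V).of_iso f.symm

lemma IsCoinducedRep.res {B : Rep k G} (h : IsCoinducedRep B) (H : Subgroup G) :
    IsCoinducedRep (res H.subtype B) := by
  obtain ⟨V, _, _, ⟨f⟩⟩ := h
  exact ⟨(G ⧸ H) → V, _, _, ⟨(resFunctor H.subtype).mapIso f ≪≫ resFunRepIso k G V H⟩⟩

lemma IsCoinducedRep.quotientToInvariants {B : Rep k G} (h : IsCoinducedRep B)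
    (S : Subgroup G) [S.Normal] : IsCoinducedRep (B.quotientToInvariants S) := by
  obtain ⟨V, _, _, ⟨f⟩⟩ := h
  exact ⟨V, _, _, ⟨(quotientToInvariantsFunctor k S).mapIso f ≪≫
    (quotientToInvariantsFunRepIso k G V S).symm⟩⟩

end IsCoinduced

end Fermat.Agent.CFT
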