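import Mathlib
import Fermat.Agent.CFT.Tate.Induced

/-!
# Restriction, "corestriction ∘ restriction = index", Sylow detection

For a subgroup `S ≤ G` and `A : Rep k G` we study the restriction map
`resCoh S A n : H^n(G, A) ⟶ H^n(S, Res A)`.
-/

open CategoryTheory Limits groupCohomology Rep

namespace Fermat.Agent.CFT

universe u

section Res

variable {k G : Type u} [CommRing k] [Group G]

/-- The restriction map `H^n(G, A) ⟶ H^n(S, Res_S A)`. -/
noncomputable abbrev resCoh (S : Subgroup G) (A : Rep k G) (n : ℕ) :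
    groupCohomology A n ⟶ groupCohomology (res S.subtype A) n :=
  groupCohomology.map S.subtype (𝟙 _) n

/-- Restriction is natural in the coefficients. -/
lemma resCoh_naturality (S : Subgroup G) {A B : Rep k G} (φ : A ⟶ B) (n : ℕ) :
    groupCohomology.map (MonoidHom.id G) φ n ≫ resCoh S B n =
      resCoh S A n ≫ groupCohomology.map (MonoidHom.id S) ((resFunctor S.subtype).map φ) n :=
  (resNatTrans k S.subtype n).naturality φ

/-- The restriction of a short exact sequence is short exact. -/
lemma shortExact_map_resFunctor (S : Subgroup G) {X : ShortComplex (Rep k G)}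
    (hX : X.ShortExact) : (X.map (resFunctor S.subtype)).ShortExact :=
  (Rep.shortExact_res S.subtype).2 hX

/-- The morphism of short complexes of cochain complexes induced by restriction. -/
noncomputable def resCochainsShortComplexHom (S : Subgroup G) (X : ShortComplex (Rep k G)) :
    X.map (cochainsFunctor k G) ⟶
      (X.map (resFunctor S.subtype)).map (cochainsFunctor k S) where
  τ₁ := cochainsMap S.subtype (𝟙 _)
  τ₂ := cochainsMap S.subtype (𝟙 _)
  τ₃ := cochainsMap S.subtype (𝟙 _)
  comm₁₂ := rfl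
  comm₂₃ := rfl

/-- The connecting homomorphisms commute with restriction. -/
lemma δ_resCoh (S : Subgroup G) {X : ShortComplex (Rep k G)} (hX : X.ShortExact)
    (i j : ℕ) (hij : i + 1 = j) :
    groupCohomology.δ hX i j hij ≫ resCoh S X.X₁ j =
      resCoh S X.X₃ i ≫ groupCohomology.δ (shortExact_map_resFunctor S hX) i j hij :=
  HomologicalComplex.HomologySequence.δ_naturality (resCochainsShortComplexHom S X)
    (map_cochainsFunctor_shortExact hX)
    (map_cochainsFunctor_shortExact (shortExact_map_resFunctor S hX)) i j hij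

end Res

section Shift

variable {k G : Type u} [CommRing k] [Group G]

/-- The canonical embedding `A ⟶ Fun(G, A)`, `a ↦ (x ↦ x • a)`. -/
noncomputable def toFunRep (A : Rep k G) : A ⟶ funRep k G A.V :=
  Rep.ofHom ⟨LinearMap.pi (fun x => A.ρ x), fun g => by
    ext a x
    simp⟩

@[simp]
lemma toFunRep_hom_apply (A : Rep k G) (a : A) (x : G) :
    (toFunRep A).hom a x = A.ρ x a := rfl

lemma toFunRep_injective (A : Rep k G) : Function.Injective (toFunRep A).hom := by
  intro a b h
  have := congrFun h 1
  simpa using this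

instance mono_toFunRep (A : Rep k G) : Mono (toFunRep A) :=
  (Rep.mono_iff_injective _).2 (toFunRep_injective A)

/-- The dimension-shifting short complex `A ⟶ Fun(G, A) ⟶ coker`. -/
noncomputable def shiftSC (A : Rep k G) : ShortComplex (Rep k G) :=
  ShortComplex.mk (toFunRep A) (cokernel.π (toFunRep A)) (cokernel.condition _)

lemma shiftSC_shortExact (A : Rep k G) : (shiftSC A).ShortExact :=
  { exact := ShortComplex.exact_cokernel _
    mono_f := mono_toFunRep A
    epi_g := by dsimp [shiftSC]; infer_instance }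

lemma shiftSC_X₂_isCoinduced (A : Rep k G) : IsCoinducedRep (shiftSC A).X₂ :=
  isCoinducedRep_funRep _

end Shift

section DegreeOne

variable {k G : Type u} [CommRing k] [Group G]

/-- A 1-cocycle vanishing on `S` is constant on left cosets of `S`. -/
lemma cocycle_mul_of_vanish (S : Subgroup G) (A : Rep k G) (y : cocycles₁ A)
    (hy : ∀ s : S, y (s : G) = 0) (g : G) (s : S) : y (g * s) = y g := by
  rw [(mem_cocycles₁_iff y).1 y.2 g s, hy s, map_zero, zero_add]

lemma cocycle_out_of_vanish (S : Subgroup G) (A : Rep k G) (y : cocycles₁ A)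
    (hy : ∀ s : S, y (s : G) = 0) (g : G) :
    y ((QuotientGroup.mk g : G ⧸ S).out) = y g := by
  have h : ((QuotientGroup.mk g : G ⧸ S).out)⁻¹ * g ∈ S :=
    QuotientGroup.eq.1 (QuotientGroup.out_eq' _)
  have h2 := cocycle_mul_of_vanish S A y hy ((QuotientGroup.mk g : G ⧸ S).out) ⟨_, h⟩
  simpa using h2.symm

/-- Key computation: if a 1-cocycle `y` vanishes on a finite index subgroup `S`, then
`[G : S] • y` is the coboundary of `-∑_{q ∈ G/S} y(q)`. -/
lemma index_smul_cocycle_of_vanish (S : Subgroup G) [S.FiniteIndex] (A : Rep k G)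
    (y : cocycles₁ A) (hy : ∀ s : S, y (s : G) = 0) :
    S.index • (y : G → A) ∈ coboundaries₁ A := by
  classical
  have : Fintype (G ⧸ S) := Fintype.ofFinite _
  refine ⟨-∑ q : G ⧸ S, y q.out, ?_⟩
  funext g
  have h1 : A.ρ g (∑ q : G ⧸ S, y q.out) = ∑ q : G ⧸ S, (y (g • q).out - y g) := by
    rw [map_sum]
    refine Finset.sum_congr rfl fun q _ => ?_
    have hq : g • q = (QuotientGroup.mk (g * q.out) : G ⧸ S) := by
      conv_lhs => rw [← QuotientGroup.out_eq' q]
      rfl
    rw [hq, cocycle_out_of_vanish S A y hy, (mem_cocycles₁_iff y).1 y.2 g q.out]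
    abel
  have h2 : ∑ q : G ⧸ S, y (g • q).out = ∑ q : G ⧸ S, y q.out :=
    Equiv.sum_comp (MulAction.toPerm g : Equiv.Perm (G ⧸ S)) (fun q => y q.out)
  have h3 : Fintype.card (G ⧸ S) = S.index := by
    rw [Subgroup.index_eq_card, Nat.card_eq_fintype_card]
  simp only [d₀₁_hom_apply, map_neg, Pi.smul_apply]
  rw [h1, Finset.sum_sub_distrib, h2, Finset.sum_const, Finset.card_univ, h3]
  abel

theorem index_nsmul_eq_zero_of_resCoh_one (S : Subgroup G) [S.FiniteIndex] (A : Rep k G)
    (x : groupCohomology A 1) (hx : resCoh S A 1 x = 0) : S.index • x = 0 := by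
  induction x using H1_induction_on with | h x =>
  rw [H1π_comp_map_apply S.subtype, H1π_eq_zero_iff] at hx
  obtain ⟨a, ha⟩ := hx
  have ha' : ∀ s : S, A.ρ s a - a = x (s : G) := fun s => congrFun ha s
  -- the modified cocycle
  let y : cocycles₁ A := x - ⟨d₀₁ A a, d₀₁_apply_mem_cocycles₁ a⟩
  have hy : ∀ s : S, y (s : G) = 0 := by
    intro s
    show x (s : G) - (A.ρ s a - a) = 0
    rw [ha' s, sub_self]
  have hxy : H1π A x = H1π A y := by
    rw [H1π_eq_iff]
    refine ⟨a, ?_⟩
    funext g
    show A.ρ g a - a = x g - (x g - (A.ρ g a - a))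
    abel
  rw [hxy, ← map_nsmul, H1π_eq_zero_iff]
  exact index_smul_cocycle_of_vanish S A y hy

end DegreeOne

section Induction

variable {k G : Type u} [CommRing k] [Group G]

/-- The dimension-shifting step for the kernel of restriction. -/
lemma index_nsmul_eq_zero_step (S : Subgroup G) (m : ℕ) (n : ℕ)
    {X : ShortComplex (Rep k G)} (hX : X.ShortExact) (hco : IsCoinducedRep X.X₂)
    (ih : ∀ y : groupCohomology X.X₃ (n + 1), resCoh S X.X₃ (n + 1) y = 0 → m • y = 0)
    (x : groupCohomology X.X₁ (n + 2)) (hx : resCoh S X.X₁ (n + 2) x = 0) : m • x = 0 := by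
  -- `δ` is surjective
  have hepi : Epi (groupCohomology.δ hX (n + 1) (n + 2) rfl) :=
    epi_δ_of_isZero hX (n + 1) (hco.isZero_groupCohomology (n + 1))
  obtain ⟨y, rfl⟩ := (ModuleCat.epi_iff_surjective _).1 hepi x
  -- `δ_S` is injective
  have hmono : Mono (groupCohomology.δ (shortExact_map_resFunctor S hX) (n + 1) (n + 2) rfl) :=
    mono_δ_of_isZero (shortExact_map_resFunctor S hX) (n + 1)
      ((hco.res S).isZero_groupCohomology n)
  have hnat := δ_resCoh S hX (n + 1) (n + 2) rfl
  have h1 : groupCohomology.δ (shortExact_map_resFunctor S hX) (n + 1) (n + 2) rfl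
      (resCoh S X.X₃ (n + 1) y) = 0 := by
    have := ConcreteCategory.congr_hom hnat y
    exact this.symm.trans hx
  have h2 : resCoh S X.X₃ (n + 1) y = 0 :=
    (ModuleCat.mono_iff_injective _).1 hmono (h1.trans (map_zero _).symm)
  have h3 := ih y h2
  have h4 : m • (groupCohomology.δ hX (n + 1) (n + 2) rfl) y =
      (groupCohomology.δ hX (n + 1) (n + 2) rfl) (m • y) :=
    (map_nsmul (groupCohomology.δ hX (n + 1) (n + 2) rfl).hom m y).symm
  rw [h4, h3, map_zero]

/-- **`cores ∘ res = index`, kernel form**: a class in `H^{n+1}(G, A)` whose restriction to a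
finite index subgroup `S` vanishes is killed by `[G : S]`. -/
theorem index_nsmul_eq_zero_of_resCoh_succ (S : Subgroup G) [S.FiniteIndex] (n : ℕ) :
    ∀ (A : Rep k G) (x : groupCohomology A (n + 1)), resCoh S A (n + 1) x = 0 →
      S.index • x = 0 := by
  induction n with
  | zero => exact fun A x hx => index_nsmul_eq_zero_of_resCoh_one S A x hx
  | succ n ih =>
    intro A x hx
    exact index_nsmul_eq_zero_step S S.index n (shiftSC_shortExact A) (shiftSC_X₂_isCoinduced A)
      (ih (shiftSC A).X₃) x hx

end Induction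

section Corollaries

variable {k G : Type u} [CommRing k] [Group G]

instance mono_resCoh_zero (S : Subgroup G) (A : Rep k G) : Mono (resCoh S A 0) := by
  have h := map_H0Iso_hom_f (A := A) (B := res S.subtype A) S.subtype (𝟙 _)
  have h' : resCoh S A 0 ≫ (H0Iso (res S.subtype A)).hom ≫
      (shortComplexH0 (res S.subtype A)).f = (H0Iso A).hom ≫ (shortComplexH0 A).f := by
    rw [h]
    rfl
  have hm : Mono (shortComplexH0 A).f := inferInstance
  have hm2 : Mono ((H0Iso A).hom ≫ (shortComplexH0 A).f) :=
    @mono_comp _ _ _ _ _ _ inferInstance _ hm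
  exact @mono_of_mono_fac _ _ _ _ _ _ _ _ hm2 h'

lemma resCoh_zero_injective (S : Subgroup G) (A : Rep k G) :
    Function.Injective (resCoh S A 0) :=
  (ModuleCat.mono_iff_injective _).1 inferInstance

/-- **`cores ∘ res = index`, kernel form, all degrees**. -/
theorem index_nsmul_eq_zero_of_resCoh (S : Subgroup G) [S.FiniteIndex] (n : ℕ) (A : Rep k G)
    (x : groupCohomology A n) (hx : resCoh S A n x = 0) : S.index • x = 0 := by
  cases n with
  | zero =>
    have : x = 0 := resCoh_zero_injective S A (hx.trans (map_zero _).symm)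
    rw [this, smul_zero]
  | succ n => exact index_nsmul_eq_zero_of_resCoh_succ S n A x hx

/-- Higher cohomology of a finite group is killed by the order of the group. -/
theorem card_nsmul_groupCohomology_eq_zero [Finite G] (A : Rep k G) (n : ℕ)
    (x : groupCohomology A (n + 1)) : Nat.card G • x = 0 := by
  have h := index_nsmul_eq_zero_of_resCoh_succ (⊥ : Subgroup G) n A x
    ((ModuleCat.subsingleton_of_isZero (isZero_groupCohomology_succ_of_subsingleton _ n)).elim _ _)
  rwa [Subgroup.index_bot] at h

/-- An element of an abelian group killed by `|G|` and by the index of a Sylow `p`-subgroup for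
every prime `p ∣ |G|` is zero. -/
lemma eq_zero_of_sylow_index_nsmul [Finite G] {M : Type*} [AddCommGroup M] (x : M)
    (hG : Nat.card G • x = 0)
    (h : ∀ p : ℕ, p.Prime → p ∣ Nat.card G →
      ∃ P : Sylow p G, (P : Subgroup G).index • x = 0) : x = 0 := by
  by_contra hx
  have h1 : addOrderOf x ∣ Nat.card G := addOrderOf_dvd_of_nsmul_eq_zero hG
  have h2 : addOrderOf x ≠ 1 := fun h => hx (AddMonoid.addOrderOf_eq_one_iff.1 h)
  obtain ⟨p, hp, hpx⟩ := Nat.exists_prime_and_dvd h2
  obtain ⟨P, hP⟩ := h p hp (hpx.trans h1)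
  have h3 : p ∣ (P : Subgroup G).index := hpx.trans (addOrderOf_dvd_of_nsmul_eq_zero hP)
  have : Fact p.Prime := ⟨hp⟩
  exact P.not_dvd_index h3

/-- **Sylow detection, element form**: a class in `H^{n+1}(G, A)` whose restriction to some Sylow
`p`-subgroup vanishes for every prime `p ∣ |G|` is zero. -/
theorem eq_zero_of_forall_resCoh_sylow [Finite G] (A : Rep k G) (n : ℕ)
    (x : groupCohomology A (n + 1))
    (h : ∀ p : ℕ, p.Prime → p ∣ Nat.card G →
      ∃ P : Sylow p G, resCoh (P : Subgroup G) A (n + 1) x = 0) : x = 0 := by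
  refine eq_zero_of_sylow_index_nsmul (G := G) x
    (card_nsmul_groupCohomology_eq_zero A n _) fun p hp hpG => ?_
  obtain ⟨P, hP⟩ := h p hp hpG
  exact ⟨P, index_nsmul_eq_zero_of_resCoh_succ (P : Subgroup G) n A _ hP⟩

/-- **Sylow detection**: if for every prime `p ∣ |G|` the cohomology `H^{n+1}(P, A)` vanishes for
some Sylow `p`-subgroup `P`, then `H^{n+1}(G, A) = 0`. -/
theorem isZero_groupCohomology_of_sylow [Finite G] (A : Rep k G) (n : ℕ)
    (h : ∀ p : ℕ, p.Prime → p ∣ Nat.card G →
      ∃ P : Sylow p G, IsZero (groupCohomology (res (P : Subgroup G).subtype A) (n + 1))) :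
    IsZero (groupCohomology A (n + 1)) := by
  rw [ModuleCat.isZero_iff_subsingleton]
  refine ⟨fun x y => ?_⟩
  rw [← sub_eq_zero]
  refine eq_zero_of_forall_resCoh_sylow A n (x - y) fun p hp hpG => ?_
  obtain ⟨P, hP⟩ := h p hp hpG
  exact ⟨P, (ModuleCat.subsingleton_of_isZero hP).elim _ _⟩

/-- Restriction to a Sylow `p`-subgroup is injective on `p`-power torsion classes. -/
theorem eq_zero_of_resCoh_sylow [Finite G] {p : ℕ} [Fact p.Prime] (P : Sylow p G) (A : Rep k G)
    (n : ℕ) (x : groupCohomology A n) (m : ℕ) (hpx : p ^ m • x = 0)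
    (hx : resCoh (P : Subgroup G) A n x = 0) : x = 0 := by
  have h1 := index_nsmul_eq_zero_of_resCoh (P : Subgroup G) n A x hx
  have hcop : Nat.Coprime (p ^ m) (P : Subgroup G).index :=
    Nat.Coprime.pow_left m ((Nat.Prime.coprime_iff_not_dvd Fact.out).2 P.not_dvd_index)
  have h2 : addOrderOf x ∣ 1 := by
    rw [← hcop]
    exact Nat.dvd_gcd (addOrderOf_dvd_of_nsmul_eq_zero hpx) (addOrderOf_dvd_of_nsmul_eq_zero h1)
  exact AddMonoid.addOrderOf_eq_one_iff.1 (Nat.dvd_one.1 h2)

end Corollaries

end Fermat.Agent.CFT
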