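import Mathlib
import Fermat.Agent.CFT.CoindPairing
import Fermat.Agent.CFT.CoindMaps
import Fermat.Agent.CFT.Tate.DimShift
import Fermat.Agent.CFT.Tate.ResCores

/-!
# Explicit Shapiro isomorphism and corestriction

For a subgroup `S ≤ G` and `B : Rep k S`, the map
`shapiroMap S B n : H^n(G, coind_S^G B) ⟶ H^n(S, B)` induced by the inclusion `S ≤ G` and
evaluation at `1` is an isomorphism (`isIso_shapiroMap`).  For `S` of finite index we define the
corestriction `cores S A n : H^n(S, A) ⟶ H^n(G, A)` as `tr_* ∘ shapiroMap⁻¹` and prove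
`res ≫ cores = [G : S]`, naturality in `A` and compatibility with connecting homomorphisms.
-/

open CategoryTheory Limits groupCohomology Rep

namespace Fermat.Agent.CFT

universe u

section MapLemmas

variable {k : Type u} [CommRing k]

/-- Composition of `groupCohomology.map`s, in the direction convenient for rewriting. -/
lemma map_comp_map {G H K : Type u} [Group G] [Group H] [Group K]
    {A : Rep k K} {B : Rep k H} {C : Rep k G} (f : H →* K) (g : G →* H)
    (φ : res f A ⟶ B) (ψ : res g B ⟶ C) (n : ℕ) :
    groupCohomology.map f φ n ≫ groupCohomology.map g ψ n =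
      groupCohomology.map (f.comp g) ((resFunctor g).map φ ≫ ψ) n :=
  (groupCohomology.map_comp f g φ ψ n).symm

variable {G : Type u} [Group G]

instance functor_additive (n : ℕ) : (groupCohomology.functor k G n).Additive where
  map_add {X Y f g} := by
    show groupCohomology.map (MonoidHom.id G) (f + g) n =
      groupCohomology.map (MonoidHom.id G) f n + groupCohomology.map (MonoidHom.id G) g n
    have h : cochainsMap (MonoidHom.id G) (f + g) =
        cochainsMap (MonoidHom.id G) f + cochainsMap (MonoidHom.id G) g :=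
      (cochainsFunctor k G).map_add
    rw [groupCohomology.map, h, HomologicalComplex.homologyMap_add]
    rfl

lemma map_id_nsmul {A B : Rep k G} (φ : A ⟶ B) (m : ℕ) (n : ℕ) :
    groupCohomology.map (MonoidHom.id G) (m • φ) n =
      m • groupCohomology.map (MonoidHom.id G) φ n :=
  (groupCohomology.functor k G n).map_nsmul (f := φ) (n := m)

end MapLemmas

section CoindExact

variable {k G : Type u} [CommRing k] [Group G] (S : Subgroup G)

lemma coindMap_apply_apply {A B : Rep k S} (φ : A ⟶ B) (f : coind S.subtype A) (x : G) :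
    (((coindFunctor k S.subtype).map φ).hom f).1 x = φ.hom (f.1 x) := rfl

/-- Coinduction from a subgroup is exact. -/
lemma shortExact_map_coindFunctor {X : ShortComplex (Rep k S)} (hX : X.ShortExact) :
    (X.map (coindFunctor k S.subtype)).ShortExact := by
  have hinj : Function.Injective X.f.hom := (Rep.mono_iff_injective X.f).1 hX.mono_f
  apply rep_shortExact_of
  · intro f g hfg
    apply Subtype.ext
    funext x
    have := congrArg (fun h => h.1 x) hfg
    exact hinj this
  · intro f hf
    have hex := (rep_exact_iff X).1 hX.exact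
    have h1 : ∀ x, X.g.hom (f.1 x) = 0 := fun x => congrArg (fun h => h.1 x) hf
    choose c hc using fun x => hex (f.1 x) (h1 x)
    refine ⟨⟨c, fun s x => ?_⟩, Subtype.ext (funext hc)⟩
    apply hinj
    rw [hc, Rep.hom_comm_apply, hc]
    exact f.2 s x
  · have h1 : Epi X.g := hX.epi_g
    have h2 : Epi ((coindFunctor k S.subtype).map X.g) := inferInstance
    exact (Rep.epi_iff_surjective _).1 h2

/-- Evaluation at `1` as a morphism of short complexes. -/
noncomputable def ev₁ShortComplexHom (X : ShortComplex (Rep k S)) :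
    (X.map (coindFunctor k S.subtype)).map (resFunctor S.subtype) ⟶ X where
  τ₁ := Cup.ev₁ S X.X₁
  τ₂ := Cup.ev₁ S X.X₂
  τ₃ := Cup.ev₁ S X.X₃
  comm₁₂ := by
    ext f
    rfl
  comm₂₃ := by
    ext f
    rfl

end CoindExact

section ShapiroZero

variable {k G : Type u} [CommRing k] [Group G] (S : Subgroup G)

/-- The explicit Shapiro map `H^n(G, coind_S^G B) ⟶ H^n(S, B)`. -/
noncomputable abbrev shapiroMap (B : Rep k S) (n : ℕ) :
    groupCohomology (coind S.subtype B) n ⟶ groupCohomology B n :=
  groupCohomology.map S.subtype (Cup.ev₁ S B) n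

/-- The Shapiro map in degree `0`, on invariants. -/
lemma shapiroMap_zero_H0Iso_apply (B : Rep k S) (x : groupCohomology (coind S.subtype B) 0) :
    ((H0Iso B).hom (shapiroMap S B 0 x)).1 =
      ((H0Iso (coind S.subtype B)).hom x).1.1 1 := by
  have h := map_H0Iso_hom_f_apply S.subtype (Cup.ev₁ S B) x
  exact h

lemma shapiroMap_zero_bijective (B : Rep k S) : Function.Bijective (shapiroMap S B 0) := by
  constructor
  · rw [injective_iff_map_eq_zero]
    intro x hx
    have hinj : Function.Injective (H0Iso (coind S.subtype B : Rep.{u} k G)).hom :=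
      (ModuleCat.mono_iff_injective _).1 inferInstance
    apply hinj
    rw [map_zero]
    apply Subtype.ext
    apply Subtype.ext
    funext g
    have h1 := shapiroMap_zero_H0Iso_apply S B x
    rw [hx, map_zero] at h1
    have h2 := ((H0Iso (coind S.subtype B)).hom x).2 g
    have h4 : ((H0Iso (coind S.subtype B)).hom x).1.1 (1 * g) =
        ((H0Iso (coind S.subtype B)).hom x).1.1 1 := congrArg (fun f => f.1 1) h2
    rw [one_mul] at h4
    rw [h4, ← h1]
    rfl
  · intro y
    let b : B.ρ.invariants := (H0Iso B).hom y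
    let f : coind S.subtype B := ⟨fun _ => b.1, fun s _ => (b.2 s).symm⟩
    have hf : ∀ g : G, (coind S.subtype B).ρ g f = f := fun g => Subtype.ext (funext fun _ => rfl)
    refine ⟨(H0Iso (coind S.subtype B)).inv ⟨f, hf⟩, ?_⟩
    have hinj : Function.Injective (H0Iso B).hom :=
      (ModuleCat.mono_iff_injective _).1 inferInstance
    apply hinj
    apply Subtype.ext
    rw [shapiroMap_zero_H0Iso_apply]
    have : (H0Iso (coind S.subtype B)).hom ((H0Iso (coind S.subtype B)).inv ⟨f, hf⟩) = ⟨f, hf⟩ := by
      simp
    rw [this]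

instance isIso_shapiroMap_zero (B : Rep k S) : IsIso (shapiroMap S B 0) :=
  (ConcreteCategory.isIso_iff_bijective _).2 (shapiroMap_zero_bijective S B)

end ShapiroZero

section LongExact

variable {k G : Type u} [CommRing k] [Group G]

lemma map_g_comp_δ {X : ShortComplex (Rep k G)} (hX : X.ShortExact) (i j : ℕ) (hij : i + 1 = j) :
    groupCohomology.map (MonoidHom.id G) X.g i ≫ groupCohomology.δ hX i j hij = 0 :=
  (map_cochainsFunctor_shortExact hX).comp_δ i j hij

lemma map_g_δ_apply {X : ShortComplex (Rep k G)} (hX : X.ShortExact) (i j : ℕ) (hij : i + 1 = j)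
    (y : groupCohomology X.X₂ i) :
    groupCohomology.δ hX i j hij (groupCohomology.map (MonoidHom.id G) X.g i y) = 0 := by
  have := ConcreteCategory.congr_hom (map_g_comp_δ hX i j hij) y
  exact this

lemma exists_of_δ_eq_zero {X : ShortComplex (Rep k G)} (hX : X.ShortExact) (i j : ℕ)
    (hij : i + 1 = j) (z : groupCohomology X.X₃ i) (hz : groupCohomology.δ hX i j hij z = 0) :
    ∃ y : groupCohomology X.X₂ i, groupCohomology.map (MonoidHom.id G) X.g i y = z :=
  (ShortComplex.moduleCat_exact_iff _).1 (mapShortComplex₃_exact hX hij) z hz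

end LongExact

section ShapiroNat

variable {k G : Type u} [CommRing k] [Group G] (S : Subgroup G)

/-- The Shapiro map is natural in the coefficients. -/
lemma shapiroMap_naturality {B B' : Rep.{u} k S} (φ : B ⟶ B') (n : ℕ) :
    groupCohomology.map (MonoidHom.id G) ((coindFunctor k S.subtype).map φ) n ≫
        shapiroMap S B' n =
      shapiroMap S B n ≫ groupCohomology.map (MonoidHom.id S) φ n := by
  rw [map_comp_map, map_comp_map]
  exact groupCohomology.map_congr rfl rfl n

lemma shapiroMap_naturality_apply {B B' : Rep.{u} k S} (φ : B ⟶ B') (n : ℕ)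
    (x : groupCohomology (coind S.subtype B) n) :
    shapiroMap S B' n (groupCohomology.map (MonoidHom.id G)
        ((coindFunctor k S.subtype).map φ) n x) =
      groupCohomology.map (MonoidHom.id S) φ n (shapiroMap S B n x) := by
  have := ConcreteCategory.congr_hom (shapiroMap_naturality S φ n) x
  exact this

/-- The Shapiro map commutes with connecting homomorphisms. -/
lemma δ_shapiroMap {X : ShortComplex (Rep.{u} k S)} (hX : X.ShortExact) (i j : ℕ)
    (hij : i + 1 = j) :
    groupCohomology.δ (shortExact_map_coindFunctor S hX) i j hij ≫ shapiroMap S X.X₁ j =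
      shapiroMap S X.X₃ i ≫ groupCohomology.δ hX i j hij :=
  δ_comp_map S.subtype (shortExact_map_coindFunctor S hX) hX (ev₁ShortComplexHom S X) i j hij

lemma δ_shapiroMap_apply {X : ShortComplex (Rep.{u} k S)} (hX : X.ShortExact) (i j : ℕ)
    (hij : i + 1 = j) (x : groupCohomology (coind S.subtype X.X₃) i) :
    shapiroMap S X.X₁ j (groupCohomology.δ (shortExact_map_coindFunctor S hX) i j hij x) =
      groupCohomology.δ hX i j hij (shapiroMap S X.X₃ i x) := by
  have := ConcreteCategory.congr_hom (δ_shapiroMap S hX i j hij) x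
  exact this

/-- Higher cohomology of the coinduction of a coinduced module vanishes. -/
lemma isZero_groupCohomology_coind_of_isCoinduced {B : Rep.{u} k S} (hB : IsCoinducedRep B)
    (n : ℕ) : IsZero (groupCohomology (coind S.subtype B) (n + 1)) :=
  (hB.isZero_groupCohomology n).of_iso (groupCohomology.coindIso B (n + 1))

end ShapiroNat

section ShapiroIso

variable {k G : Type u} [CommRing k] [Group G] (S : Subgroup G)

/-- Dimension shifting step in degrees `≥ 2`. -/
lemma isIso_shapiroMap_step_succ {X : ShortComplex (Rep.{u} k S)} (hX : X.ShortExact)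
    (hco : IsCoinducedRep X.X₂) (n : ℕ) (ih : IsIso (shapiroMap S X.X₃ (n + 1))) :
    IsIso (shapiroMap S X.X₁ (n + 2)) := by
  have hCX := shortExact_map_coindFunctor S hX
  have hepiG : Function.Surjective (groupCohomology.δ hCX (n + 1) (n + 2) rfl) :=
    (ModuleCat.epi_iff_surjective _).1
      (epi_δ_of_isZero hCX (n + 1) (isZero_groupCohomology_coind_of_isCoinduced S hco (n + 1)))
  have hepiS : Function.Surjective (groupCohomology.δ hX (n + 1) (n + 2) rfl) :=
    (ModuleCat.epi_iff_surjective _).1
      (epi_δ_of_isZero hX (n + 1) (hco.isZero_groupCohomology (n + 1)))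
  have hmonoS : Function.Injective (groupCohomology.δ hX (n + 1) (n + 2) rfl) :=
    (ModuleCat.mono_iff_injective _).1
      (mono_δ_of_isZero hX (n + 1) (hco.isZero_groupCohomology n))
  have hb3 : Function.Bijective (shapiroMap S X.X₃ (n + 1)) :=
    (ConcreteCategory.isIso_iff_bijective _).1 ih
  rw [ConcreteCategory.isIso_iff_bijective]
  constructor
  · rw [injective_iff_map_eq_zero]
    intro x hx
    obtain ⟨w, rfl⟩ := hepiG x
    rw [δ_shapiroMap_apply S hX (n + 1) (n + 2) rfl w] at hx
    have hw : shapiroMap S X.X₃ (n + 1) w = 0 := hmonoS (hx.trans (map_zero _).symm)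
    have hw0 : w = 0 := hb3.1 (hw.trans (map_zero _).symm)
    rw [hw0]
    exact map_zero _
  · intro y
    obtain ⟨z, rfl⟩ := hepiS y
    obtain ⟨w, rfl⟩ := hb3.2 z
    exact ⟨groupCohomology.δ hCX (n + 1) (n + 2) rfl w,
      δ_shapiroMap_apply S hX (n + 1) (n + 2) rfl w⟩

/-- Dimension shifting step from degree `0` to degree `1`. -/
lemma isIso_shapiroMap_step_zero {X : ShortComplex (Rep.{u} k S)} (hX : X.ShortExact)
    (hco : IsCoinducedRep X.X₂) : IsIso (shapiroMap S X.X₁ 1) := by
  have hCX := shortExact_map_coindFunctor S hX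
  have hepiG : Function.Surjective (groupCohomology.δ hCX 0 1 rfl) :=
    (ModuleCat.epi_iff_surjective _).1
      (epi_δ_of_isZero hCX 0 (isZero_groupCohomology_coind_of_isCoinduced S hco 0))
  have hepiS : Function.Surjective (groupCohomology.δ hX 0 1 rfl) :=
    (ModuleCat.epi_iff_surjective _).1 (epi_δ_of_isZero hX 0 (hco.isZero_groupCohomology 0))
  have hb2 := shapiroMap_zero_bijective S X.X₂
  have hb3 := shapiroMap_zero_bijective S X.X₃
  rw [ConcreteCategory.isIso_iff_bijective]
  constructor
  · rw [injective_iff_map_eq_zero]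
    intro x hx
    obtain ⟨w, rfl⟩ := hepiG x
    rw [δ_shapiroMap_apply S hX 0 1 rfl w] at hx
    obtain ⟨v, hv⟩ := exists_of_δ_eq_zero hX 0 1 rfl _ hx
    obtain ⟨u', rfl⟩ := hb2.2 v
    rw [← shapiroMap_naturality_apply S X.g 0 u'] at hv
    have hw := hb3.1 hv
    rw [← hw]
    exact map_g_δ_apply hCX 0 1 rfl u'
  · intro y
    obtain ⟨z, rfl⟩ := hepiS y
    obtain ⟨w, rfl⟩ := hb3.2 z
    exact ⟨groupCohomology.δ hCX 0 1 rfl w, δ_shapiroMap_apply S hX 0 1 rfl w⟩

/-- **Explicit Shapiro lemma**: the map `H^n(G, coind_S^G B) ⟶ H^n(S, B)` induced by the inclusion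
`S ≤ G` and evaluation at `1` is an isomorphism. -/
theorem isIso_shapiroMap_all (n : ℕ) : ∀ B : Rep.{u} k S, IsIso (shapiroMap S B n) := by
  induction n using Nat.twoStepInduction with
  | zero => exact fun B => isIso_shapiroMap_zero S B
  | one =>
    exact fun B => isIso_shapiroMap_step_zero S (upSES_shortExact B) (isCoinducedRep_funRep _)
  | more n _ ih =>
    exact fun B => isIso_shapiroMap_step_succ S (upSES_shortExact B) (isCoinducedRep_funRep _) n
      (ih (upSES B).X₃)

instance isIso_shapiroMap (B : Rep.{u} k S) (n : ℕ) : IsIso (shapiroMap S B n) :=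
  isIso_shapiroMap_all S n B

end ShapiroIso

section Cores

variable {k G : Type u} [CommRing k] [Group G] (S : Subgroup G)

/-- Restriction is the composite of the unit `A ⟶ coind res A` with the Shapiro map. -/
lemma resCoh_eq (A : Rep.{u} k G) (n : ℕ) :
    resCoh S A n = groupCohomology.map (MonoidHom.id G) (coindUnit S A) n ≫
      shapiroMap S (res S.subtype A) n := by
  rw [map_comp_map]
  refine groupCohomology.map_congr rfl ?_ n
  ext a
  show a = A.ρ 1 a
  simp

variable [S.FiniteIndex]

lemma coindUnit_comp_tr (A : Rep.{u} k G) :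
    coindUnit S A ≫ Cup.tr S A = S.index • 𝟙 A := by
  ext a
  show (Cup.tr S A).hom ((coindUnit S A).hom a) = (S.index • 𝟙 A : A ⟶ A).hom a
  rw [Cup.tr_of_forall_eq S A a _ (fun g => rfl)]
  rfl

/-- The trace map is natural. -/
lemma tr_naturality {A A' : Rep.{u} k G} (φ : A ⟶ A') :
    Cup.tr S A ≫ φ =
      (coindFunctor k S.subtype).map ((resFunctor S.subtype).map φ) ≫ Cup.tr S A' := by
  have : Finite (G ⧸ S) := Subgroup.finite_quotient_of_finiteIndex
  ext f
  show φ.hom ((Cup.tr S A).hom f) = (Cup.tr S A').hom
    (((coindFunctor k S.subtype).map ((resFunctor S.subtype).map φ)).hom f)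
  rw [Cup.tr_hom_apply, Cup.tr_hom_apply]
  have h := map_finsum (φ.hom.toLinearMap : A →ₗ[k] A') (f := fun c => Cup.trTerm S A f c)
    (Set.toFinite _)
  refine h.trans (finsum_congr fun c => ?_)
  induction c using QuotientGroup.induction_on with | _ g =>
  show φ.hom (A.ρ g (f.1 g⁻¹)) = A'.ρ g (φ.hom (f.1 g⁻¹))
  exact Rep.hom_comm_apply φ g _

/-- **Corestriction** `H^n(S, A) ⟶ H^n(G, A)` for a subgroup `S` of finite index, defined as
the composite of the inverse of the Shapiro isomorphism with the map induced by the trace. -/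
noncomputable def cores (A : Rep.{u} k G) (n : ℕ) :
    groupCohomology (res S.subtype A) n ⟶ groupCohomology A n :=
  inv (shapiroMap S (res S.subtype A) n) ≫ groupCohomology.map (MonoidHom.id G) (Cup.tr S A) n

lemma shapiroMap_comp_cores (A : Rep.{u} k G) (n : ℕ) :
    shapiroMap S (res S.subtype A) n ≫ cores S A n =
      groupCohomology.map (MonoidHom.id G) (Cup.tr S A) n := by
  rw [cores, IsIso.hom_inv_id_assoc]

lemma cores_shapiroMap_apply (A : Rep.{u} k G) (n : ℕ)
    (w : groupCohomology (coind S.subtype (res S.subtype A)) n) :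
    cores S A n (shapiroMap S (res S.subtype A) n w) =
      groupCohomology.map (MonoidHom.id G) (Cup.tr S A) n w := by
  have := ConcreteCategory.congr_hom (shapiroMap_comp_cores S A n) w
  exact this

/-- **`cores ∘ res = index`**. -/
theorem resCoh_comp_cores (A : Rep.{u} k G) (n : ℕ) :
    resCoh S A n ≫ cores S A n = S.index • 𝟙 (groupCohomology A n) := by
  rw [resCoh_eq, Category.assoc, shapiroMap_comp_cores, ← groupCohomology.map_id_comp]
  have h2 : groupCohomology.map (MonoidHom.id G) (coindUnit S A ≫ Cup.tr S A) n =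
      groupCohomology.map (MonoidHom.id G) (S.index • 𝟙 A) n :=
    congrArg (fun φ => groupCohomology.map (MonoidHom.id G) φ n) (coindUnit_comp_tr S A)
  exact h2.trans (by rw [map_id_nsmul, groupCohomology.map_id])

theorem cores_resCoh_apply (A : Rep.{u} k G) (n : ℕ) (x : groupCohomology A n) :
    cores S A n (resCoh S A n x) = S.index • x := by
  have := ConcreteCategory.congr_hom (resCoh_comp_cores S A n) x
  exact this

/-- The form of `cores ∘ res = index` with a scalar from `k`. -/
theorem resCoh_comp_cores' (A : Rep.{u} k G) (n : ℕ) :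
    resCoh S A n ≫ cores S A n = (S.index : k) • 𝟙 (groupCohomology A n) := by
  rw [resCoh_comp_cores, Nat.cast_smul_eq_nsmul]

/-- Existence form (the statement used by consumers). -/
theorem exists_cores (A : Rep.{u} k G) (n : ℕ) :
    ∃ cor : groupCohomology (res S.subtype A) n ⟶ groupCohomology A n,
      groupCohomology.map S.subtype (𝟙 (res S.subtype A)) n ≫ cor =
        (S.index : k) • 𝟙 (groupCohomology A n) :=
  ⟨cores S A n, resCoh_comp_cores' S A n⟩

/-- Corestriction is natural in the coefficients. -/
theorem cores_naturality {A A' : Rep.{u} k G} (φ : A ⟶ A') (n : ℕ) :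
    cores S A n ≫ groupCohomology.map (MonoidHom.id G) φ n =
      groupCohomology.map (MonoidHom.id S) ((resFunctor S.subtype).map φ) n ≫ cores S A' n := by
  have h1 := shapiroMap_naturality S ((resFunctor S.subtype).map φ) n
  rw [cores, cores, Category.assoc, ← groupCohomology.map_id_comp, tr_naturality,
    groupCohomology.map_id_comp, ← Category.assoc, ← Category.assoc]
  congr 1
  rw [IsIso.inv_comp_eq, ← Category.assoc, ← h1, Category.assoc, IsIso.hom_inv_id,
    Category.comp_id]

end Cores

section CoresDelta

variable {k G : Type u} [CommRing k] [Group G] (S : Subgroup G) [S.FiniteIndex]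

/-- The trace as a morphism of short complexes. -/
noncomputable def trShortComplexHom (X : ShortComplex (Rep.{u} k G)) :
    (X.map (resFunctor S.subtype)).map (coindFunctor k S.subtype) ⟶ X where
  τ₁ := Cup.tr S X.X₁
  τ₂ := Cup.tr S X.X₂
  τ₃ := Cup.tr S X.X₃
  comm₁₂ := tr_naturality S X.f
  comm₂₃ := tr_naturality S X.g

/-- Corestriction commutes with connecting homomorphisms. -/
theorem δ_cores {X : ShortComplex (Rep.{u} k G)} (hX : X.ShortExact) (i j : ℕ)
    (hij : i + 1 = j) :
    groupCohomology.δ (shortExact_map_resFunctor S hX) i j hij ≫ cores S X.X₁ j =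
      cores S X.X₃ i ≫ groupCohomology.δ hX i j hij := by
  have hXS := shortExact_map_resFunctor S hX
  have hC := shortExact_map_coindFunctor S hXS
  have hsurj : Function.Surjective (shapiroMap S (res S.subtype X.X₃) i) :=
    ((ConcreteCategory.isIso_iff_bijective _).1 (isIso_shapiroMap S _ i)).2
  have hnat := groupCohomology.δ_naturality hC hX (trShortComplexHom S X) i j hij
  refine ConcreteCategory.hom_ext _ _ fun y => ?_
  obtain ⟨w, rfl⟩ := hsurj y
  have h1 := δ_shapiroMap_apply S hXS i j hij w
  have h2 := cores_shapiroMap_apply S X.X₁ j (groupCohomology.δ hC i j hij w)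
  have h3 := cores_shapiroMap_apply S X.X₃ i w
  have h4 := ConcreteCategory.congr_hom hnat w
  calc (groupCohomology.δ hXS i j hij ≫ cores S X.X₁ j) (shapiroMap S (res S.subtype X.X₃) i w)
      = cores S X.X₁ j (groupCohomology.δ hXS i j hij
          (shapiroMap S (res S.subtype X.X₃) i w)) := rfl
    _ = cores S X.X₁ j (shapiroMap S (res S.subtype X.X₁) j (groupCohomology.δ hC i j hij w)) :=
        congrArg _ h1.symm
    _ = groupCohomology.map (MonoidHom.id G) (Cup.tr S X.X₁) j
          (groupCohomology.δ hC i j hij w) := h2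
    _ = groupCohomology.δ hX i j hij
          (groupCohomology.map (MonoidHom.id G) (Cup.tr S X.X₃) i w) := h4
    _ = groupCohomology.δ hX i j hij
          (cores S X.X₃ i (shapiroMap S (res S.subtype X.X₃) i w)) := congrArg _ h3.symm
    _ = (cores S X.X₃ i ≫ groupCohomology.δ hX i j hij)
          (shapiroMap S (res S.subtype X.X₃) i w) := rfl

end CoresDelta

end Fermat.Agent.CFT
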