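import Fermat.Agent.CFT.Tate.InfResCount
import Fermat.Agent.CFT.Tate.ResCores

/-!
# Abstract second-inequality dévissage: `|H²(G, A)| ≤ |G|`

Let `Pr` be a predicate on pairs (finite group `P`, `ℤ[P]`-module `B`) which is stable under
restriction to subgroups, forces `H¹(P, B) = 0`, and such that for every normal subgroup `N` of
prime index, `H²(P ⧸ N, B^N)` is finite of order at most `[P : N]`.  Then for every `(G, A)`
satisfying `Pr`, `H²(G, A)` is finite of order at most `|G|`.

* `card_H2_le_card_of_hereditary_pgroup`: the case of `p`-groups (induction on the order, using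
  the higher inflation–restriction sequence);
* `card_H2_le_card_of_hereditary`: the general case (Sylow detection);
* `card_H2_res_le_card_of_hereditary`: the same bound for every subgroup.
-/

open CategoryTheory Limits groupCohomology Rep

namespace Fermat.Agent.CFT

section H2Devissage

variable (Pr : ∀ (P : Type) [Group P], Rep.{0} ℤ P → Prop)

/-- The `p`-group case of the dévissage, by induction on the order. -/
theorem card_H2_le_card_of_hereditary_pgroup
    (h_res : ∀ (P : Type) [Group P] [Finite P] (B : Rep ℤ P) (H : Subgroup P),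
      Pr P B → Pr H (res H.subtype B))
    (h_H1 : ∀ (P : Type) [Group P] [Finite P] (B : Rep ℤ P), Pr P B →
      IsZero (groupCohomology B 1))
    (h_cyc : ∀ (P : Type) [Group P] [Finite P] (B : Rep ℤ P) (N : Subgroup P) [N.Normal],
      Pr P B → N.index.Prime →
      Finite (groupCohomology (B.quotientToInvariants N) 2) ∧
        Nat.card (groupCohomology (B.quotientToInvariants N) 2) ≤ N.index)
    (p : ℕ) [hp : Fact p.Prime] :
    ∀ (n : ℕ) (P : Type) [Group P] [Finite P] (B : Rep ℤ P), Nat.card P = p ^ n → Pr P B →
      Finite (groupCohomology B 2) ∧ Nat.card (groupCohomology B 2) ≤ Nat.card P := by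
  intro n
  induction n with
  | zero =>
    intro P _ _ B hcard _
    have hsub : Subsingleton P := (Nat.card_eq_one_iff_unique.1 (by simpa using hcard)).1
    have hz : IsZero (groupCohomology B 2) := isZero_groupCohomology_succ_of_subsingleton B 1
    have hs : Subsingleton (groupCohomology B 2) := ModuleCat.subsingleton_of_isZero hz
    refine ⟨inferInstance, ?_⟩
    calc Nat.card (groupCohomology B 2) ≤ 1 := Finite.card_le_one_iff_subsingleton.2 hs
      _ ≤ Nat.card P := Nat.card_pos
  | succ n ih =>
    intro P _ _ B hcard hB
    obtain ⟨N, hN⟩ := Sylow.exists_subgroup_card_pow_prime (G := P) p (n := n)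
      (by rw [hcard]; exact pow_dvd_pow p (Nat.le_succ n))
    have hidx : N.index = p := by
      have h := N.card_mul_index
      rw [hN, hcard, pow_succ] at h
      exact Nat.eq_of_mul_eq_mul_left (pow_pos hp.out.pos n) h
    have hminFac : (Nat.card P).minFac = p := by
      rw [hcard]
      exact hp.out.pow_minFac (Nat.succ_ne_zero n)
    have : N.Normal := Subgroup.normal_of_index_eq_minFac_card (by rw [hidx, hminFac])
    have hPN : Pr N (res N.subtype B) := h_res P B N hB
    obtain ⟨hfinN, hcardN⟩ := ih N (res N.subtype B) hN hPN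
    obtain ⟨hfinQ, hcardQ⟩ := h_cyc P B N hB (by rw [hidx]; exact hp.out)
    have := hfinN
    have := hfinQ
    obtain ⟨hfin, hdvd⟩ := H2_finite_and_card_dvd B N (h_H1 N (res N.subtype B) hPN)
    refine ⟨hfin, ?_⟩
    calc Nat.card (groupCohomology B 2)
        ≤ Nat.card (groupCohomology (res N.subtype B) 2) *
            Nat.card (groupCohomology (B.quotientToInvariants N) 2) :=
          Nat.le_of_dvd (Nat.mul_pos Nat.card_pos Nat.card_pos) hdvd
      _ ≤ Nat.card N * N.index := Nat.mul_le_mul hcardN hcardQ
      _ = Nat.card P := N.card_mul_index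

/-- **Abstract second-inequality dévissage**: if `Pr` is hereditary (stable under restriction to
subgroups), forces `H¹ = 0`, and bounds `H²` of the invariants under normal subgroups of prime
index by the index, then `|H²(G, A)| ≤ |G|` whenever `Pr G A`. -/
theorem card_H2_le_card_of_hereditary
    (h_res : ∀ (P : Type) [Group P] [Finite P] (B : Rep ℤ P) (H : Subgroup P),
      Pr P B → Pr H (res H.subtype B))
    (h_H1 : ∀ (P : Type) [Group P] [Finite P] (B : Rep ℤ P), Pr P B →
      IsZero (groupCohomology B 1))
    (h_cyc : ∀ (P : Type) [Group P] [Finite P] (B : Rep ℤ P) (N : Subgroup P) [N.Normal],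
      Pr P B → N.index.Prime →
      Finite (groupCohomology (B.quotientToInvariants N) 2) ∧
        Nat.card (groupCohomology (B.quotientToInvariants N) 2) ≤ N.index)
    (G : Type) [Group G] [Finite G] (A : Rep ℤ G) (hA : Pr G A) :
    Finite (groupCohomology A 2) ∧ Nat.card (groupCohomology A 2) ≤ Nat.card G := by
  classical
  have hprime : ∀ p : {p // p ∈ (Nat.card G).primeFactors}, Fact p.1.Prime :=
    fun p => ⟨Nat.prime_of_mem_primeFactors p.2⟩
  have Q : ∀ p : {p // p ∈ (Nat.card G).primeFactors}, Sylow p.1 G :=
    fun p => Classical.arbitrary _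
  have key : ∀ p : {p // p ∈ (Nat.card G).primeFactors},
      Finite (groupCohomology (res (Q p : Subgroup G).subtype A) 2) ∧
        Nat.card (groupCohomology (res (Q p : Subgroup G).subtype A) 2) ≤
          Nat.card (Q p : Subgroup G) := fun p =>
    haveI := hprime p
    card_H2_le_card_of_hereditary_pgroup Pr h_res h_H1 h_cyc p.1 _ (Q p : Subgroup G)
      (res (Q p : Subgroup G).subtype A) (Q p).card_eq_multiplicity
      (h_res G A (Q p : Subgroup G) hA)
  let φ : groupCohomology A 2 →
      ∀ p : {p // p ∈ (Nat.card G).primeFactors},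
        groupCohomology (res (Q p : Subgroup G).subtype A) 2 :=
    fun x p => resCoh (Q p : Subgroup G) A 2 x
  have hφ : Function.Injective φ := by
    intro x y hxy
    rw [← sub_eq_zero]
    refine eq_zero_of_forall_resCoh_sylow A 1 (x - y) fun p hp hpG => ?_
    have hmem : p ∈ (Nat.card G).primeFactors :=
      Nat.mem_primeFactors.2 ⟨hp, hpG, Nat.card_pos.ne'⟩
    refine ⟨Q ⟨p, hmem⟩, ?_⟩
    have h := congrFun hxy ⟨p, hmem⟩
    rw [map_sub, sub_eq_zero]
    exact h
  have : ∀ p : {p // p ∈ (Nat.card G).primeFactors},
      Finite (groupCohomology (res (Q p : Subgroup G).subtype A) 2) := fun p => (key p).1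
  refine ⟨Finite.of_injective φ hφ, ?_⟩
  calc Nat.card (groupCohomology A 2)
      ≤ Nat.card (∀ p : {p // p ∈ (Nat.card G).primeFactors},
          groupCohomology (res (Q p : Subgroup G).subtype A) 2) :=
        Nat.card_le_card_of_injective φ hφ
    _ = ∏ p : {p // p ∈ (Nat.card G).primeFactors},
          Nat.card (groupCohomology (res (Q p : Subgroup G).subtype A) 2) := Nat.card_pi
    _ ≤ ∏ p : {p // p ∈ (Nat.card G).primeFactors}, Nat.card (Q p : Subgroup G) :=
        Finset.prod_le_prod' fun p _ => (key p).2
    _ = ∏ p : {p // p ∈ (Nat.card G).primeFactors}, p.1 ^ (Nat.card G).factorization p.1 := by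
        refine Finset.prod_congr rfl fun p _ => ?_
        have := hprime p
        exact (Q p).card_eq_multiplicity
    _ = ∏ p ∈ (Nat.card G).primeFactors, p ^ (Nat.card G).factorization p :=
        Finset.prod_coe_sort (Nat.card G).primeFactors
          (fun p => p ^ (Nat.card G).factorization p)
    _ = Nat.card G := Nat.prod_factorization_pow_eq_self Nat.card_pos.ne'

/-- The dévissage bound for every subgroup: `|H²(H, A)| ≤ |H|`. -/
theorem card_H2_res_le_card_of_hereditary
    (h_res : ∀ (P : Type) [Group P] [Finite P] (B : Rep ℤ P) (H : Subgroup P),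
      Pr P B → Pr H (res H.subtype B))
    (h_H1 : ∀ (P : Type) [Group P] [Finite P] (B : Rep ℤ P), Pr P B →
      IsZero (groupCohomology B 1))
    (h_cyc : ∀ (P : Type) [Group P] [Finite P] (B : Rep ℤ P) (N : Subgroup P) [N.Normal],
      Pr P B → N.index.Prime →
      Finite (groupCohomology (B.quotientToInvariants N) 2) ∧
        Nat.card (groupCohomology (B.quotientToInvariants N) 2) ≤ N.index)
    (G : Type) [Group G] [Finite G] (A : Rep ℤ G) (hA : Pr G A) (H : Subgroup G) :
    Finite (groupCohomology (res H.subtype A) 2) ∧
      Nat.card (groupCohomology (res H.subtype A) 2) ≤ Nat.card H :=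
  card_H2_le_card_of_hereditary Pr h_res h_H1 h_cyc H (res H.subtype A) (h_res G A H hA)

end H2Devissage

end Fermat.Agent.CFT
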