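import Mathlib
import Fermat.Agent.CFT.Tate.InfResHigher

/-!
# Inflation–restriction in degree two along a surjection `G → G'` with kernel `≅ H` (abstract form)

Data: groups `G`, `G'`, `H`; a surjection `r : G →* G'`; an injection `j : H →* G` with
`j.range = r.ker`; representations `A` of `G`, `A'` of `G'`, `B` of `H` over a commutative ring `k`; an "inflation"
morphism `f : res r A' ⟶ A` which is injective with image the `r.ker`-invariants of `A`; a
"restriction" morphism `g : res j A ⟶ B` which is bijective.  Then:

* `coeffQuotIso : Hⁿ(G ⧸ ker r, A^{ker r}) ≅ Hⁿ(G', A')`, identifying Mathlib's inflation with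
  `map r f n` (`coeffQuotIso_inv_comp_inf`);
* `coeffSubIso : Hⁿ(ker r, A) ≅ Hⁿ(H, B)`, identifying restriction to `ker r` with `map j g n`
  (`res_comp_coeffSubIso_hom`);
* if `H¹(H, B) = 0`: `map r f 2` is injective (`coeffInfl_two_injective`) and a class killed by
  `map j g 2` is in the image of `map r f 2` (`exists_coeffInfl_eq_of_rest_eq_zero`).

This is the common core of the inflation–restriction statements for `Lˣ`, `J_L`, `C_L`, `C_{L,S}`
in field language.
-/

set_option autoImplicit false
set_option linter.unusedSectionVars false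

open CategoryTheory groupCohomology Rep

namespace Fermat.Agent.CFT

noncomputable section

section Quot

variable {k G G' : Type} [CommRing k] [Group G] [Group G'] (r : G →* G')
  (A : Rep.{0} k G) (A' : Rep.{0} k G') (f : res r A' ⟶ A)

/-- The map `A' → A^{ker r}` induced by an inflation morphism. -/
def coeffToInvariants :
    A'.V →ₗ[k] Representation.invariants (A.ρ.comp r.ker.subtype) :=
  LinearMap.codRestrict _ f.hom.toLinearMap (fun c => by
    intro s
    have h := Rep.hom_comm_apply f (s : G) c
    have hs : r (s : G) = 1 := s.2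
    have h2 : (res r A').ρ (s : G) c = c := by
      show A'.ρ (r (s : G)) c = c
      rw [hs, map_one]; rfl
    rw [h2] at h
    exact h.symm)

theorem coe_coeffToInvariants (c : A'.V) :
    ((coeffToInvariants r A A' f c).1 : A.V) = f.hom c := rfl

variable (hinj : Function.Injective f.hom)
  (hdesc : ∀ a : A.V, (∀ s : r.ker, A.ρ (s : G) a = a) → ∃ a' : A'.V, f.hom a' = a)

include hinj hdesc in
theorem coeffToInvariants_bijective : Function.Bijective (coeffToInvariants r A A' f) := by
  constructor
  · intro a b hab
    exact hinj (congrArg Subtype.val hab)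
  · rintro ⟨y, hy⟩
    obtain ⟨a', ha'⟩ := hdesc y (fun s => hy s)
    exact ⟨a', Subtype.ext ha'⟩

/-- `A^{ker r} ≃ A'`. -/
def coeffInvariantsEquiv :
    Representation.invariants (A.ρ.comp r.ker.subtype) ≃ₗ[k] A'.V :=
  (LinearEquiv.ofBijective (coeffToInvariants r A A' f)
    (coeffToInvariants_bijective r A A' f hinj hdesc)).symm

theorem coeffInvariantsEquiv_toInvariants (c : A'.V) :
    coeffInvariantsEquiv r A A' f hinj hdesc (coeffToInvariants r A A' f c) = c :=
  (LinearEquiv.ofBijective (coeffToInvariants r A A' f)
    (coeffToInvariants_bijective r A A' f hinj hdesc)).symm_apply_apply c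

theorem quotientToInvariants_coeffToInvariants (σ : G) (c : A'.V) :
    (A.ρ.quotientToInvariants r.ker) (QuotientGroup.mk σ) (coeffToInvariants r A A' f c) =
      coeffToInvariants r A A' f (A'.ρ (r σ) c) := by
  apply Subtype.ext
  exact (Rep.hom_comm_apply f σ c).symm

variable (hr : Function.Surjective r)

/-- **Quotient transport**: `Hⁿ(G ⧸ ker r, A^{ker r}) ≅ Hⁿ(G', A')`. -/
def coeffQuotIso (n : ℕ) :
    groupCohomology (A.quotientToInvariants r.ker) n ≅ groupCohomology A' n :=
  groupCohomology.mapIso (QuotientGroup.quotientKerEquivOfSurjective r hr)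
    (coeffInvariantsEquiv r A A' f hinj hdesc)
    (fun q => by
      obtain ⟨σ, rfl⟩ := QuotientGroup.mk_surjective q
      refine LinearMap.ext fun y => ?_
      obtain ⟨x, rfl⟩ := (coeffToInvariants_bijective r A A' f hinj hdesc).2 y
      refine (congrArg (coeffInvariantsEquiv r A A' f hinj hdesc)
        (quotientToInvariants_coeffToInvariants r A A' f σ x)).trans ?_
      refine (coeffInvariantsEquiv_toInvariants r A A' f hinj hdesc _).trans ?_
      exact congrArg (A'.ρ (r σ))
        (coeffInvariantsEquiv_toInvariants r A A' f hinj hdesc x).symm) n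

/-- The quotient transport identifies Mathlib's inflation with `map r f`. -/
theorem coeffQuotIso_inv_comp_inf (n : ℕ) :
    (coeffQuotIso r A A' f hinj hdesc hr n).inv ≫
      groupCohomology.map (QuotientGroup.mk' r.ker)
        (ofHom <| A.ρ.quotientToInvariants_lift r.ker) n =
      groupCohomology.map r f n := by
  change groupCohomology.map _ _ n ≫ groupCohomology.map _ _ n = _
  rw [← groupCohomology.map_comp]
  refine groupCohomology.map_congr ?_ ?_ n
  · ext σ
    rfl
  · refine LinearMap.ext fun x => ?_
    rfl

end Quot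

section Sub

variable {k G H : Type} [CommRing k] [Group G] [Group H] (j : H →* G)
  (hj : Function.Injective j) (N : Subgroup G) (hN : j.range = N)
  (A : Rep.{0} k G) (B : Rep.{0} k H) (g : res j A ⟶ B) (hg : Function.Bijective g.hom)

/-- `H ≃* N` for an injection `j : H →* G` with range `N`. -/
def coeffSubEquiv : H ≃* N :=
  (MonoidHom.ofInjective hj).trans (MulEquiv.subgroupCongr hN)

theorem coe_coeffSubEquiv (h : H) : ((coeffSubEquiv j hj N hN h : N) : G) = j h := rfl

theorem coe_coeffSubEquiv_symm (s : N) : j ((coeffSubEquiv j hj N hN).symm s) = (s : G) := by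
  obtain ⟨h, rfl⟩ := (coeffSubEquiv j hj N hN).surjective s
  rw [MulEquiv.symm_apply_apply]
  rfl

/-- **Subgroup transport**: `Hⁿ(N, A) ≅ Hⁿ(H, B)`. -/
def coeffSubIso (n : ℕ) :
    groupCohomology (res N.subtype A) n ≅ groupCohomology B n :=
  groupCohomology.mapIso (coeffSubEquiv j hj N hN).symm
    (LinearEquiv.ofBijective g.hom.toLinearMap hg)
    (fun s => by
      refine LinearMap.ext fun a => ?_
      have h := Rep.hom_comm_apply g ((coeffSubEquiv j hj N hN).symm s) a
      have h2 : (res j A).ρ ((coeffSubEquiv j hj N hN).symm s) a = A.ρ (s : G) a := by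
        show A.ρ (j ((coeffSubEquiv j hj N hN).symm s)) a = A.ρ (s : G) a
        rw [coe_coeffSubEquiv_symm]
      rw [h2] at h
      exact h) n

/-- The subgroup transport identifies restriction to `N` with `map j g`. -/
theorem res_comp_coeffSubIso_hom (n : ℕ) :
    groupCohomology.map N.subtype (𝟙 (res N.subtype A)) n ≫
        (coeffSubIso j hj N hN A B g hg n).hom =
      groupCohomology.map j g n := by
  change groupCohomology.map _ _ n ≫ groupCohomology.map _ _ n = _
  rw [← groupCohomology.map_comp]
  refine groupCohomology.map_congr ?_ ?_ n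
  · ext h
    show ((coeffSubEquiv j hj N hN).symm.symm h : G) = j h
    rfl
  · refine LinearMap.ext fun x => ?_
    rfl

end Sub

section InfRes

variable {k G G' H : Type} [CommRing k] [Group G] [Group G'] [Group H]
  (r : G →* G') (hr : Function.Surjective r) (j : H →* G) (hj : Function.Injective j)
  (hjr : j.range = r.ker)
  (A : Rep.{0} k G) (A' : Rep.{0} k G') (B : Rep.{0} k H)
  (f : res r A' ⟶ A) (g : res j A ⟶ B)
  (hinj : Function.Injective f.hom)
  (hdesc : ∀ a : A.V, (∀ s : r.ker, A.ρ (s : G) a = a) → ∃ a' : A'.V, f.hom a' = a)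
  (hg : Function.Bijective g.hom)
  (h1 : Limits.IsZero (groupCohomology B 1))

include hj hjr hg h1 in
theorem coeff_isZero_H1_res_ker :
    Limits.IsZero (groupCohomology (res r.ker.subtype A) 1) :=
  h1.of_iso (coeffSubIso j hj r.ker hjr A B g hg 1)

include hj hjr hg in
theorem coeff_res_ker_eq_zero_of_rest_eq_zero (n : ℕ) (x : groupCohomology A n)
    (hx : (groupCohomology.map j g n).hom x = 0) :
    (groupCohomology.map r.ker.subtype (𝟙 (res r.ker.subtype A)) n).hom x = 0 := by
  rw [← res_comp_coeffSubIso_hom j hj r.ker hjr A B g hg, ModuleCat.comp_apply] at hx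
  have hinj' : Function.Injective (coeffSubIso j hj r.ker hjr A B g hg n).hom.hom :=
    (ConcreteCategory.bijective_of_isIso (coeffSubIso j hj r.ker hjr A B g hg n).hom).1
  apply hinj'
  rw [hx, map_zero]

include hr hj hjr hinj hdesc hg h1

/-- **Inflation is injective** on `H²`, given `H¹(H, B) = 0`. -/
theorem coeffInfl_two_injective : Function.Injective (groupCohomology.map r f 2).hom := by
  have h := H2Inf_injective A r.ker (coeff_isZero_H1_res_ker r j hj hjr A B g hg h1)
  have hc := coeffQuotIso_inv_comp_inf r A A' f hinj hdesc hr 2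
  have hbij : Function.Bijective (coeffQuotIso r A A' f hinj hdesc hr 2).inv.hom :=
    ConcreteCategory.bijective_of_isIso (coeffQuotIso r A A' f hinj hdesc hr 2).inv
  rw [← hc]
  intro a b hab
  rw [ModuleCat.comp_apply, ModuleCat.comp_apply] at hab
  exact hbij.1 (h hab)

/-- **Inflation–restriction exactness** on `H²`: a class killed by the restriction `map j g 2` is
inflated. -/
theorem exists_coeffInfl_eq_of_rest_eq_zero (x : groupCohomology A 2)
    (hx : (groupCohomology.map j g 2).hom x = 0) :
    ∃ y : groupCohomology A' 2, (groupCohomology.map r f 2).hom y = x := by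
  have hres := coeff_res_ker_eq_zero_of_rest_eq_zero r j hj hjr A B g hg 2 x hx
  obtain ⟨y', hy'⟩ := H2_exists_inf_of_res_eq_zero A r.ker
    (coeff_isZero_H1_res_ker r j hj hjr A B g hg h1) x hres
  refine ⟨(coeffQuotIso r A A' f hinj hdesc hr 2).hom.hom y', ?_⟩
  rw [← coeffQuotIso_inv_comp_inf r A A' f hinj hdesc hr 2, ModuleCat.comp_apply]
  have : (coeffQuotIso r A A' f hinj hdesc hr 2).inv.hom
      ((coeffQuotIso r A A' f hinj hdesc hr 2).hom.hom y') = y' := by
    rw [← ModuleCat.comp_apply, Iso.hom_inv_id]
    rfl
  rw [this]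
  exact hy'

end InfRes

end

end Fermat.Agent.CFT
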