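import Fermat.Agent.CFT.Tate.DimShift

/-!
# Criterion for cohomological triviality (Nakayama–Tate), hypothesis form

`pgroup_cohTriv`: for a finite `p`-group `G` and `A : Rep k G` such that `H¹(K, A) = H²(K, A) = 0`
for every subgroup `K` (phrased with injective homs `K →* G`), all `H^{n+1}(G, A)` vanish and
`Ĥ⁰(G, A) = Ĥ⁻¹(G, A) = 0`.  The proof is by induction on `|G|` via a normal subgroup of index `p`,
periodicity for cyclic groups (Mathlib) and higher inflation–restriction, which enters as the
hypothesis `InfResStatement k` (discharged in `InfResHigher.lean`).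
-/

open CategoryTheory Limits groupCohomology Rep

namespace Fermat.Agent.CFT

universe u



section Cyclic

variable {k G : Type u} [CommRing k] [CommGroup G] [Fintype G] (A : Rep k G) (g : G)
  (hg : ∀ x, x ∈ Subgroup.zpowers g)

open Rep.FiniteCyclicGroup

include hg in
lemma cyclic_isZero_odd (h1 : IsZero (groupCohomology A 1)) (i : ℕ) (hi : Odd i) :
    IsZero (groupCohomology A i) :=
  (h1.of_iso (groupCohomologyIsoOdd A g hg 1 (by decide)).symm).of_iso
    (groupCohomologyIsoOdd A g hg i hi)

include hg in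
lemma cyclic_isZero_even (h2 : IsZero (groupCohomology A 2)) (i : ℕ) [NeZero i] (hi : Even i) :
    IsZero (groupCohomology A i) :=
  (h2.of_iso (groupCohomologyIsoEven A g hg 2 (by decide)).symm).of_iso
    (groupCohomologyIsoEven A g hg i hi)

include hg in
lemma cyclic_isZero_succ (h1 : IsZero (groupCohomology A 1)) (h2 : IsZero (groupCohomology A 2))
    (n : ℕ) : IsZero (groupCohomology A (n + 1)) := by
  rcases Nat.even_or_odd (n + 1) with he | ho
  · exact cyclic_isZero_even A g hg h2 (n + 1) he
  · exact cyclic_isZero_odd A g hg h1 (n + 1) ho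

include hg in
lemma cyclic_tateZeroTrivial (h2 : IsZero (groupCohomology A 2)) : TateZeroTrivial A := by
  have hz : IsZero (normHomCompSub A g).homology :=
    h2.of_iso (groupCohomologyIsoEven A g hg 2 (by decide)).symm
  have hex : (normHomCompSub A g).Exact := (ShortComplex.exact_iff_isZero_homology _).2 hz
  rw [ShortComplex.moduleCat_exact_iff] at hex
  intro a ha
  obtain ⟨b, hb⟩ := hex a (by
    show (applyAsHom A g - 𝟙 A).hom a = 0
    simp [sub_hom, applyAsHom, ha g])
  refine ⟨b, ?_⟩
  rw [finsum_eq_sum_of_fintype]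
  have : A.norm.hom b = a := hb
  rw [← this]
  simp [Rep.norm, Representation.norm]

include hg in
lemma cyclic_tateNegOneTrivial (h1 : IsZero (groupCohomology A 1)) : TateNegOneTrivial A := by
  have hz : IsZero (subCompNormHom A g).homology :=
    h1.of_iso (groupCohomologyIsoOdd A g hg 1 (by decide)).symm
  have hex : (subCompNormHom A g).Exact := (ShortComplex.exact_iff_isZero_homology _).2 hz
  rw [ShortComplex.moduleCat_exact_iff] at hex
  intro a ha
  obtain ⟨b, hb⟩ := hex a (by
    show A.norm.hom a = 0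
    rw [finsum_eq_sum_of_fintype] at ha
    rw [← ha]
    simp [Rep.norm, Representation.norm])
  have : (applyAsHom A g - 𝟙 A).hom b = a := hb
  rw [← this]
  have h2 : (applyAsHom A g - 𝟙 A).hom b = A.ρ g b - b := by
    simp [sub_hom, applyAsHom]
  rw [h2]
  exact Representation.Coinvariants.sub_mem_ker g b

end Cyclic




/-- Cohomological triviality for finite cyclic groups from `H¹ = H² = 0` (periodicity). -/
theorem cyclic_cohTriv {k G : Type u} [CommRing k] [Group G] [IsCyclic G] [Finite G]
    (A : Rep k G) (h1 : IsZero (groupCohomology A 1)) (h2 : IsZero (groupCohomology A 2)) :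
    (∀ n : ℕ, IsZero (groupCohomology A (n + 1))) ∧ TateZeroTrivial A ∧ TateNegOneTrivial A := by
  let _ : CommGroup G := IsCyclic.commGroup
  let _ := Fintype.ofFinite G
  obtain ⟨g, hg⟩ := IsCyclic.exists_generator (α := G)
  exact ⟨cyclic_isZero_succ A g hg h1 h2, cyclic_tateZeroTrivial A g hg h2,
    cyclic_tateNegOneTrivial A g hg h1⟩




section CosetSum

variable {G : Type u} [Group G] (S : Subgroup G)

/-- The bijection `(G ⧸ S) × S ≃ G`, `(q, s) ↦ q.out * s`. -/
noncomputable def quotientProdEquiv : (G ⧸ S) × S ≃ G where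
  toFun x := x.1.out * x.2
  invFun g := ((QuotientGroup.mk g : G ⧸ S), ⟨((QuotientGroup.mk g : G ⧸ S).out)⁻¹ * g,
    QuotientGroup.eq.1 (QuotientGroup.out_eq' _)⟩)
  left_inv := by
    rintro ⟨q, s⟩
    have hq : (QuotientGroup.mk (q.out * (s : G)) : G ⧸ S) = q := by
      rw [QuotientGroup.mk_mul_of_mem _ s.2]
      exact QuotientGroup.out_eq' q
    refine Prod.ext hq ?_
    apply Subtype.ext
    show ((QuotientGroup.mk (q.out * (s : G)) : G ⧸ S).out)⁻¹ * (q.out * (s : G)) = s
    rw [hq]
    simp
  right_inv g := by simp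

lemma finsum_eq_finsum_quotient [Finite G] {M : Type*} [AddCommMonoid M] (F : G → M) :
    ∑ᶠ g : G, F g = ∑ᶠ q : G ⧸ S, ∑ᶠ s : S, F (q.out * s) := by
  have := Fintype.ofFinite G
  have := Fintype.ofFinite (G ⧸ S)
  have := Fintype.ofFinite S
  rw [finsum_eq_sum_of_fintype, finsum_eq_sum_of_fintype]
  simp_rw [finsum_eq_sum_of_fintype]
  rw [← Fintype.sum_prod_type']
  exact (Fintype.sum_equiv (quotientProdEquiv S) _ _ (fun x => rfl)).symm

end CosetSum

section Normal

variable {k G : Type u} [CommRing k] [Group G] (A : Rep k G) (S : Subgroup G) [S.Normal]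

lemma quotientToInvariants_ρ_mk (g : G) (x : A.quotientToInvariants S) :
    ((A.quotientToInvariants S).ρ (QuotientGroup.mk g) x).1 = A.ρ g x.1 := rfl

lemma quotientToInvariants_ρ_out (q : G ⧸ S) (x : A.quotientToInvariants S) :
    ((A.quotientToInvariants S).ρ q x).1 = A.ρ q.out x.1 := by
  conv_lhs => rw [← QuotientGroup.out_eq' q]
  rfl

omit [S.Normal] in
/-- the norm over `G` is the norm over `G ⧸ S` of the norm over `S`. -/
lemma finsum_ρ_eq [Finite G] (c : A) :
    ∑ᶠ g : G, A.ρ g c = ∑ᶠ q : G ⧸ S, A.ρ q.out (∑ᶠ s : S, A.ρ s c) := by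
  rw [finsum_eq_finsum_quotient S]
  refine finsum_congr fun q => ?_
  have h := map_finsum (A.ρ q.out : A.V →ₗ[k] A.V).toAddMonoidHom
    (f := fun s : S => A.ρ s c) (Set.toFinite _)
  simp only [LinearMap.toAddMonoidHom_coe] at h
  rw [h]
  refine finsum_congr fun s => ?_
  simp

lemma tateZeroTrivial_of_normal [Finite G]
    (hS : TateZeroTrivial (res S.subtype A))
    (hQ : TateZeroTrivial (A.quotientToInvariants S)) : TateZeroTrivial A := by
  intro a ha
  -- `a` as an element of `A^S`, invariant under `G ⧸ S`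
  obtain ⟨b, hb⟩ := hQ ⟨a, fun s => ha s⟩ (fun q => by
    apply Subtype.ext
    rw [quotientToInvariants_ρ_out]
    exact ha _)
  obtain ⟨c, hc⟩ := hS b.1 (fun s => b.2 s)
  refine ⟨c, ?_⟩
  rw [finsum_ρ_eq A S]
  have hc' : ∑ᶠ s : S, A.ρ s c = b.1 := hc
  rw [hc']
  have h1 : (∑ᶠ q : G ⧸ S, (A.quotientToInvariants S).ρ q b).1 = a := congrArg Subtype.val hb
  rw [← h1]
  have h2 := map_finsum ((Representation.invariants (A.ρ.comp S.subtype)).subtype : _ →ₗ[k] A.V).toAddMonoidHom
    (f := fun q : G ⧸ S => (A.quotientToInvariants S).ρ q b) (Set.toFinite _)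
  simp only [LinearMap.toAddMonoidHom_coe] at h2
  refine Eq.trans ?_ h2.symm
  refine finsum_congr fun q => ?_
  exact (quotientToInvariants_ρ_out A S q b).symm

end Normal




section Normal

variable {k G : Type u} [CommRing k] [Group G] (A : Rep k G) (S : Subgroup G) [S.Normal]

/-- conjugating the summation index of the `S`-norm -/
lemma sum_ρ_conj [Fintype S] (g : G) (z : A) :
    A.ρ g (∑ s : S, A.ρ s z) = ∑ s : S, A.ρ s (A.ρ g z) := by
  rw [map_sum]
  refine Fintype.sum_equiv (MulAut.conjNormal g : S ≃* S).toEquiv _ _ (fun s => ?_)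
  have : ((MulAut.conjNormal g : S ≃* S) s : G) = g * s * g⁻¹ := by
    simp [MulAut.conjNormal_apply]
  show A.ρ g (A.ρ s z) = A.ρ ((MulAut.conjNormal g : S ≃* S) s : G) (A.ρ g z)
  rw [this]
  simp [← Module.End.mul_apply, ← map_mul]

omit [S.Normal] in
lemma coinvariantsKer_resSubtype_le :
    Representation.Coinvariants.ker (res S.subtype A).ρ ≤ Representation.Coinvariants.ker A.ρ := by
  refine Submodule.span_le.2 ?_
  rintro _ ⟨⟨s, x⟩, rfl⟩
  exact Representation.Coinvariants.sub_mem_ker (s : G) x

/-- every element of `I_{G/S}(A^S)` is the `S`-norm of an element of `I_G A`,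
provided `Ĥ⁰(S, A) = 0`. -/
lemma exists_norm_of_mem_coinvariantsKer_quotient [Fintype S]
    (hS0 : TateZeroTrivial (res S.subtype A)) (y : A.quotientToInvariants S)
    (hy : y ∈ Representation.Coinvariants.ker (A.quotientToInvariants S).ρ) :
    ∃ w ∈ Representation.Coinvariants.ker A.ρ, y.1 = ∑ s : S, A.ρ s w := by
  induction hy using Submodule.span_induction with
  | mem y hy =>
    obtain ⟨⟨q, x⟩, rfl⟩ := hy
    obtain ⟨z, hz⟩ := hS0 x.1 (fun s => x.2 s)
    rw [finsum_eq_sum_of_fintype] at hz
    have hz' : ∑ s : S, A.ρ s z = x.1 := hz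
    refine ⟨A.ρ q.out z - z, Representation.Coinvariants.sub_mem_ker _ _, ?_⟩
    show ((A.quotientToInvariants S).ρ q x).1 - x.1 = _
    rw [quotientToInvariants_ρ_out, ← hz', sum_ρ_conj, ← Finset.sum_sub_distrib]
    simp [map_sub]
  | zero => exact ⟨0, Submodule.zero_mem _, by simp⟩
  | add x y _ _ hx hy =>
    obtain ⟨w1, hw1, h1⟩ := hx
    obtain ⟨w2, hw2, h2⟩ := hy
    refine ⟨w1 + w2, Submodule.add_mem _ hw1 hw2, ?_⟩
    show x.1 + y.1 = _
    rw [h1, h2, ← Finset.sum_add_distrib]
    simp [map_add]
  | smul c x _ hx =>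
    obtain ⟨w, hw, h⟩ := hx
    refine ⟨c • w, Submodule.smul_mem _ c hw, ?_⟩
    show c • x.1 = _
    rw [h, Finset.smul_sum]
    simp [map_smul]

lemma tateNegOneTrivial_of_normal [Finite G]
    (hS0 : TateZeroTrivial (res S.subtype A)) (hS1 : TateNegOneTrivial (res S.subtype A))
    (hQ : TateNegOneTrivial (A.quotientToInvariants S)) : TateNegOneTrivial A := by
  have := Fintype.ofFinite S
  intro a ha
  -- `a' = N_S a ∈ A^S`
  have hinv : ∀ t : S, A.ρ t (∑ s : S, A.ρ s a) = ∑ s : S, A.ρ s a := by
    intro t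
    rw [map_sum]
    refine Fintype.sum_equiv (Equiv.mulLeft t) _ _ (fun s => ?_)
    simp [← Module.End.mul_apply, ← map_mul]
  let a' : A.quotientToInvariants S := ⟨∑ s : S, A.ρ s a, hinv⟩
  have ha' : ∑ᶠ q : G ⧸ S, (A.quotientToInvariants S).ρ q a' = 0 := by
    apply Subtype.ext
    have h2 := map_finsum
      ((Representation.invariants (A.ρ.comp S.subtype)).subtype : _ →ₗ[k] A.V).toAddMonoidHom
      (f := fun q : G ⧸ S => (A.quotientToInvariants S).ρ q a') (Set.toFinite _)
    simp only [LinearMap.toAddMonoidHom_coe] at h2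
    refine h2.trans ?_
    show ∑ᶠ q : G ⧸ S, ((A.quotientToInvariants S).ρ q a').1 = 0
    rw [← ha, finsum_eq_finsum_quotient S]
    refine finsum_congr fun q => ?_
    rw [quotientToInvariants_ρ_out, finsum_eq_sum_of_fintype]
    show A.ρ q.out (∑ s : S, A.ρ s a) = _
    rw [map_sum]
    refine Finset.sum_congr rfl fun s _ => ?_
    simp
  obtain ⟨w, hw, hw'⟩ := exists_norm_of_mem_coinvariantsKer_quotient A S hS0 a' (hQ a' ha')
  have h3 : ∑ᶠ s : S, (res S.subtype A).ρ s (a - w) = 0 := by
    rw [finsum_eq_sum_of_fintype]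
    show ∑ s : S, A.ρ s (a - w) = 0
    simp only [map_sub, Finset.sum_sub_distrib]
    rw [← hw']
    exact sub_self _
  have h4 := coinvariantsKer_resSubtype_le A S (hS1 (a - w) h3)
  have : a = (a - w) + w := by abel
  rw [this]
  exact Submodule.add_mem _ h4 hw

end Normal




/-- A nontrivial finite `p`-group has a normal subgroup of index `p`. -/
theorem exists_normal_index_prime {G : Type u} [Group G] [Finite G] (p : ℕ) [hp : Fact p.Prime]
    (hG : IsPGroup p G) (hne : Nontrivial G) :
    ∃ S : Subgroup G, S.Normal ∧ S.index = p := by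
  obtain ⟨n, hn⟩ := IsPGroup.iff_card.1 hG
  have hn0 : n ≠ 0 := by
    rintro rfl
    rw [pow_zero] at hn
    have := (Nat.card_eq_one_iff_unique.1 hn).1
    exact not_subsingleton G this
  obtain ⟨m, rfl⟩ := Nat.exists_eq_succ_of_ne_zero hn0
  obtain ⟨S, hS⟩ := Sylow.exists_subgroup_card_pow_prime p (n := m)
    (by rw [hn]; exact pow_dvd_pow p (Nat.le_succ m))
  have hidx : S.index = p := by
    have h := S.card_mul_index
    rw [hS, hn, pow_succ] at h
    exact Nat.eq_of_mul_eq_mul_left (pow_pos hp.out.pos m) h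
  refine ⟨S, ?_, hidx⟩
  apply Subgroup.normal_of_index_eq_minFac_card
  rw [hidx, hn, Nat.Prime.pow_minFac hp.out (Nat.succ_ne_zero m)]




section Main

variable {k : Type u} [CommRing k]

/-- The inflation map `Hⁿ(G ⧸ S, A^S) ⟶ Hⁿ(G, A)`. -/
noncomputable abbrev infl {G : Type u} [Group G] (A : Rep k G) (S : Subgroup G) [S.Normal]
    (n : ℕ) : groupCohomology (A.quotientToInvariants S) n ⟶ groupCohomology A n :=
  groupCohomology.map (QuotientGroup.mk' S) (ofHom (A.ρ.quotientToInvariants_lift S)) n

/-- The restriction map `Hⁿ(G, A) ⟶ Hⁿ(S, A)`. -/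
noncomputable abbrev rest {G : Type u} [Group G] (A : Rep k G) (S : Subgroup G) (n : ℕ) :
    groupCohomology A n ⟶ groupCohomology (res S.subtype A) n :=
  groupCohomology.map S.subtype (𝟙 (res S.subtype A)) n

/-- The statement of higher inflation–restriction (elementwise form). -/
def InfResStatement (k : Type u) [CommRing k] : Prop :=
  ∀ (G : Type u) [Group G] (A : Rep k G) (S : Subgroup G) [S.Normal] (n : ℕ),
    (∀ i, i < n → IsZero (groupCohomology (res S.subtype A) (i + 1))) →
      Function.Injective (infl A S (n + 1)) ∧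
        ∀ x : groupCohomology A (n + 1), rest A S (n + 1) x = 0 →
          ∃ y, infl A S (n + 1) y = x

/-- `H¹` and `H²` vanish for every group mapping injectively to `G`. -/
def H12Vanish {G : Type u} [Group G] (A : Rep k G) : Prop :=
  ∀ (K : Type u) [Group K] (ι : K →* G), Function.Injective ι →
    IsZero (groupCohomology (res ι A) 1) ∧ IsZero (groupCohomology (res ι A) 2)

lemma H12Vanish.res {G K : Type u} [Group G] [Group K] {A : Rep k G} (h : H12Vanish A)
    (ι : K →* G) (hι : Function.Injective ι) : H12Vanish (res ι A) :=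
  fun K' _ ι' hι' => h K' (ι.comp ι') (hι.comp hι')

end Main


section PGroup

variable {k : Type u} [CommRing k]

lemma cohTriv_of_subsingleton {G : Type u} [Group G] [Subsingleton G] (A : Rep k G) :
    (∀ m : ℕ, IsZero (groupCohomology A (m + 1))) ∧ TateZeroTrivial A ∧ TateNegOneTrivial A := by
  have : Unique G := uniqueOfSubsingleton 1
  have hsum : ∀ a : A, ∑ᶠ g : G, A.ρ g a = a := by
    intro a
    rw [finsum_unique]
    have : (default : G) = 1 := Subsingleton.elim _ _
    rw [this]
    simp
  refine ⟨fun m => isZero_groupCohomology_succ_of_subsingleton A m, ?_, ?_⟩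
  · intro a _
    exact ⟨a, hsum a⟩
  · intro a ha
    rw [hsum a] at ha
    rw [ha]
    exact Submodule.zero_mem _

theorem pgroup_cohTriv (hInf : InfResStatement k) (p : ℕ) [hp : Fact p.Prime] (n : ℕ) :
    ∀ (G : Type u) [Group G] [Finite G], Nat.card G = n → IsPGroup p G →
      ∀ A : Rep k G, H12Vanish A →
        (∀ m : ℕ, IsZero (groupCohomology A (m + 1))) ∧ TateZeroTrivial A ∧
          TateNegOneTrivial A := by
  induction n using Nat.strong_induction_on with
  | _ n ih =>
    intro G _ _ hcard hG A hA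
    by_cases hsub : Subsingleton G
    · exact cohTriv_of_subsingleton A
    · have hnt : Nontrivial G := not_subsingleton_iff_nontrivial.1 hsub
      obtain ⟨S, hSn, hidx⟩ := exists_normal_index_prime p hG hnt
      have := hSn
      have hScard : Nat.card S < n := by
        have h := S.card_mul_index
        rw [hidx, hcard] at h
        have hpos : 0 < Nat.card S := Nat.card_pos
        have h2 : 2 ≤ p := hp.out.two_le
        nlinarith
      obtain ⟨hS_n, hS0, hS1⟩ := ih (Nat.card S) hScard S rfl (hG.to_subgroup S)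
        (res S.subtype A) (hA.res S.subtype S.subtype_injective)
      have hinf := fun m => hInf G A S m (fun i _ => hS_n i)
      have : IsCyclic (G ⧸ S) := by
        apply isCyclic_of_prime_card (p := p)
        rw [← Subgroup.index_eq_card]
        exact hidx
      obtain ⟨hG1, hG2⟩ := hA G (MonoidHom.id G) Function.injective_id
      have hQ1 : IsZero (groupCohomology (A.quotientToInvariants S) 1) := by
        rw [ModuleCat.isZero_iff_subsingleton]
        have : Subsingleton (groupCohomology A 1) := ModuleCat.subsingleton_of_isZero hG1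
        exact (hinf 0).1.subsingleton
      have hQ2 : IsZero (groupCohomology (A.quotientToInvariants S) 2) := by
        rw [ModuleCat.isZero_iff_subsingleton]
        have : Subsingleton (groupCohomology A 2) := ModuleCat.subsingleton_of_isZero hG2
        exact (hinf 1).1.subsingleton
      obtain ⟨hQ_n, hQ0, hQ1'⟩ := cyclic_cohTriv (A.quotientToInvariants S) hQ1 hQ2
      refine ⟨fun m => ?_, tateZeroTrivial_of_normal A S hS0 hQ0,
        tateNegOneTrivial_of_normal A S hS0 hS1 hQ1'⟩
      rw [ModuleCat.isZero_iff_subsingleton]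
      have : Subsingleton (groupCohomology (res S.subtype A) (m + 1)) :=
        ModuleCat.subsingleton_of_isZero (hS_n m)
      have : Subsingleton (groupCohomology (A.quotientToInvariants S) (m + 1)) :=
        ModuleCat.subsingleton_of_isZero (hQ_n m)
      refine ⟨fun x y => ?_⟩
      obtain ⟨x', rfl⟩ := (hinf m).2 x (Subsingleton.elim _ _)
      obtain ⟨y', rfl⟩ := (hinf m).2 y (Subsingleton.elim _ _)
      rw [Subsingleton.elim x' y']

end PGroup

section General

variable {k : Type u} [CommRing k]

/-- Sylow detection statements (proved in `ResCores.lean`). -/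
def SylowDetectStatement (k : Type u) [CommRing k] : Prop :=
  ∀ (G : Type u) [Group G] [Finite G] (A : Rep k G),
    (∀ n : ℕ, (∀ (p : ℕ) [Fact p.Prime] (P : Sylow p G),
        IsZero (groupCohomology (res (P : Subgroup G).subtype A) (n + 1))) →
      IsZero (groupCohomology A (n + 1))) ∧
    ((∀ (p : ℕ) [Fact p.Prime] (P : Sylow p G),
        TateZeroTrivial (res (P : Subgroup G).subtype A)) → TateZeroTrivial A) ∧
    ((∀ (p : ℕ) [Fact p.Prime] (P : Sylow p G),
        TateNegOneTrivial (res (P : Subgroup G).subtype A)) → TateNegOneTrivial A)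

theorem cohTriv_of_H12Vanish (hInf : InfResStatement k) (hSyl : SylowDetectStatement k)
    {G : Type u} [Group G] [Finite G] (A : Rep k G) (hA : H12Vanish A) :
    (∀ m : ℕ, IsZero (groupCohomology A (m + 1))) ∧ TateZeroTrivial A ∧ TateNegOneTrivial A := by
  obtain ⟨h1, h2, h3⟩ := hSyl G A
  have key : ∀ (p : ℕ) [Fact p.Prime] (P : Sylow p G),
      (∀ m : ℕ, IsZero (groupCohomology (res (P : Subgroup G).subtype A) (m + 1))) ∧
        TateZeroTrivial (res (P : Subgroup G).subtype A) ∧
          TateNegOneTrivial (res (P : Subgroup G).subtype A) :=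
    fun p _ P => pgroup_cohTriv hInf p _ (P : Subgroup G) rfl P.isPGroup'
      (res (P : Subgroup G).subtype A) (hA.res _ (Subgroup.subtype_injective _))
  exact ⟨fun m => h1 m (fun p _ P => (key p P).1 m), h2 (fun p _ P => (key p P).2.1),
    h3 (fun p _ P => (key p P).2.2)⟩

/-- transport of cohomology along an injective hom onto its range -/
noncomputable def resRangeIso {G K : Type u} [Group G] [Group K] (A : Rep k G) (ι : K →* G)
    (hι : Function.Injective ι) (n : ℕ) :
    groupCohomology (res ι A) n ≅ groupCohomology (res ι.range.subtype A) n :=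
  groupCohomology.mapIso (MonoidHom.ofInjective hι) (LinearEquiv.refl k A.V)
    (fun g => by
      ext a
      rfl) n

lemma H12Vanish_of_subgroups {G : Type u} [Group G] (A : Rep k G)
    (h1 : ∀ H : Subgroup G, IsZero (groupCohomology (res H.subtype A) 1))
    (h2 : ∀ H : Subgroup G, IsZero (groupCohomology (res H.subtype A) 2)) : H12Vanish A :=
  fun _ _ ι hι => ⟨(h1 ι.range).of_iso (resRangeIso A ι hι 1),
    (h2 ι.range).of_iso (resRangeIso A ι hι 2)⟩

/-- **Criterion for cohomological triviality**, in hypothesis form. -/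
theorem cohTriv_of_H1_H2_of (hInf : InfResStatement k) (hSyl : SylowDetectStatement k)
    {G : Type u} [Group G] [Finite G] (A : Rep k G)
    (h1 : ∀ H : Subgroup G, IsZero (groupCohomology (res H.subtype A) 1))
    (h2 : ∀ H : Subgroup G, IsZero (groupCohomology (res H.subtype A) 2)) (H : Subgroup G) :
    (∀ n : ℕ, IsZero (groupCohomology (res H.subtype A) (n + 1))) ∧
      TateZeroTrivial (res H.subtype A) ∧ TateNegOneTrivial (res H.subtype A) :=
  cohTriv_of_H12Vanish hInf hSyl (res H.subtype A)
    ((H12Vanish_of_subgroups A h1 h2).res H.subtype H.subtype_injective)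

end General

end Fermat.Agent.CFT
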