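import Mathlib
import Fermat.Agent.CFT.Tate.ResCores

/-!
# Sylow detection for `Ĥ⁰` and `Ĥ⁻¹`

For a finite group `G` and `A : Rep k G`: if `Ĥ⁰(P, A) = 0` (resp. `Ĥ⁻¹(P, A) = 0`) for a Sylow
`p`-subgroup `P` for every prime `p ∣ |G|`, then `Ĥ⁰(G, A) = 0` (resp. `Ĥ⁻¹(G, A) = 0`).
-/

open CategoryTheory Limits groupCohomology Rep

namespace Fermat.Agent.CFT

universe u

section Arithmetic

variable {G : Type*} [Group G]

/-- Subgroup form of `eq_zero_of_sylow_index_nsmul`. -/
lemma mem_of_sylow_index_nsmul_mem [Finite G] {M : Type*} [AddCommGroup M] (W : AddSubgroup M)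
    (a : M) (hG : Nat.card G • a ∈ W)
    (h : ∀ p : ℕ, p.Prime → p ∣ Nat.card G →
      ∃ P : Sylow p G, (P : Subgroup G).index • a ∈ W) : a ∈ W := by
  have key : ∀ n : ℕ, n • a ∈ W → n • (QuotientAddGroup.mk a : M ⧸ W) = 0 := by
    intro n hn
    rw [← QuotientAddGroup.mk_nsmul]
    exact (QuotientAddGroup.eq_zero_iff _).2 hn
  have := eq_zero_of_sylow_index_nsmul (G := G) (QuotientAddGroup.mk a : M ⧸ W) (key _ hG)
    (fun p hp hpG => by
      obtain ⟨P, hP⟩ := h p hp hpG
      exact ⟨P, key _ hP⟩)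
  exact (QuotientAddGroup.eq_zero_iff _).1 this

/-- The explicit bijection `(G ⧸ S) × S ≃ G`, `(q, s) ↦ q.out * s`. -/
noncomputable def quotProdEquiv (S : Subgroup G) : (G ⧸ S) × S ≃ G where
  toFun p := p.1.out * p.2
  invFun g := (QuotientGroup.mk g, ⟨(QuotientGroup.mk g : G ⧸ S).out⁻¹ * g,
    QuotientGroup.eq.1 (QuotientGroup.out_eq' _)⟩)
  left_inv := by
    rintro ⟨q, s⟩
    have hq : (QuotientGroup.mk (q.out * (s : G)) : G ⧸ S) = q := by
      rw [QuotientGroup.mk_mul_of_mem _ s.2]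
      exact QuotientGroup.out_eq' q
    refine Prod.ext hq (Subtype.ext ?_)
    show ((QuotientGroup.mk (q.out * (s : G)) : G ⧸ S).out)⁻¹ * (q.out * (s : G)) = s
    rw [hq]
    simp
  right_inv g := by simp

@[simp]
lemma quotProdEquiv_apply (S : Subgroup G) (p : (G ⧸ S) × S) :
    quotProdEquiv S p = p.1.out * p.2 := rfl

end Arithmetic

section Norms

variable {k G : Type u} [CommRing k] [Group G]

/-- The norm over `G` decomposes along the left cosets of `S`. -/
lemma finsum_rho_eq_cosets [Finite G] (S : Subgroup G) (A : Rep k G) (b : A) :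
    ∑ᶠ g : G, A.ρ g b = ∑ᶠ q : G ⧸ S, A.ρ q.out (∑ᶠ s : S, A.ρ (s : G) b) := by
  classical
  have := Fintype.ofFinite G
  have := Fintype.ofFinite (G ⧸ S)
  have := Fintype.ofFinite S
  rw [finsum_eq_sum_of_fintype, finsum_eq_sum_of_fintype]
  simp_rw [finsum_eq_sum_of_fintype, map_sum]
  rw [← Fintype.sum_prod_type' (f := fun (q : G ⧸ S) (s : S) => A.ρ q.out (A.ρ (s : G) b))]
  refine (Fintype.sum_equiv (quotProdEquiv S) _ _ fun p => ?_).symm
  simp

/-- The norm over `G` of `a`, rewritten with inverses. -/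
lemma finsum_rho_inv [Finite G] (A : Rep k G) (a : A) :
    ∑ᶠ g : G, A.ρ g⁻¹ a = ∑ᶠ g : G, A.ρ g a :=
  finsum_comp_equiv (Equiv.inv G) (f := fun g => A.ρ g a)

end Norms

section TateZero

variable {k G : Type u} [CommRing k] [Group G]

/-- The additive subgroup of norms `N_G A`. -/
noncomputable def normRange [Finite G] (A : Rep k G) : AddSubgroup A.V where
  carrier := {a | ∃ b : A, ∑ᶠ g : G, A.ρ g b = a}
  zero_mem' := ⟨0, by simp⟩
  add_mem' := by
    rintro _ _ ⟨b, rfl⟩ ⟨c, rfl⟩
    refine ⟨b + c, ?_⟩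
    simp only [map_add]
    exact finsum_add_distrib (Set.toFinite _) (Set.toFinite _)
  neg_mem' := by
    rintro _ ⟨b, rfl⟩
    refine ⟨-b, ?_⟩
    simp only [map_neg]
    exact finsum_neg_distrib _

lemma mem_normRange [Finite G] (A : Rep k G) (a : A) :
    a ∈ normRange A ↔ ∃ b : A, ∑ᶠ g : G, A.ρ g b = a := Iff.rfl

lemma card_nsmul_of_invariant [Finite G] (A : Rep k G) (a : A) (ha : ∀ g : G, A.ρ g a = a) :
    ∑ᶠ g : G, A.ρ g a = Nat.card G • a := by
  have := Fintype.ofFinite G
  rw [finsum_eq_sum_of_fintype, Finset.sum_congr rfl (fun g _ => ha g), Finset.sum_const,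
    Finset.card_univ, Nat.card_eq_fintype_card]

/-- **Sylow detection for `Ĥ⁰`** (weak hypothesis form). -/
theorem tateZeroTrivial_of_exists_sylow [Finite G] (A : Rep k G)
    (h : ∀ p : ℕ, p.Prime → p ∣ Nat.card G →
      ∃ P : Sylow p G, TateZeroTrivial (res (P : Subgroup G).subtype A)) :
    TateZeroTrivial A := by
  intro a ha
  rw [← mem_normRange]
  refine mem_of_sylow_index_nsmul_mem (G := G) (normRange A) a ?_ fun p hp hpG => ?_
  · exact ⟨a, card_nsmul_of_invariant A a ha⟩
  · obtain ⟨P, hP⟩ := h p hp hpG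
    refine ⟨P, ?_⟩
    obtain ⟨b, hb⟩ := hP a (fun s => ha (s : G))
    refine ⟨b, ?_⟩
    rw [finsum_rho_eq_cosets (P : Subgroup G) A b]
    have hb' : ∑ᶠ s : (P : Subgroup G), A.ρ (s : G) b = a := hb
    rw [hb']
    have := Fintype.ofFinite (G ⧸ (P : Subgroup G))
    rw [finsum_eq_sum_of_fintype, Finset.sum_congr rfl (fun q _ => ha q.out), Finset.sum_const,
      Finset.card_univ, Subgroup.index_eq_card, Nat.card_eq_fintype_card]

/-- **Sylow detection for `Ĥ⁰`**. -/
theorem tateZeroTrivial_of_sylow [Finite G] (A : Rep k G)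
    (h : ∀ (p : ℕ) [Fact p.Prime] (P : Sylow p G),
      TateZeroTrivial (res (P : Subgroup G).subtype A)) :
    TateZeroTrivial A :=
  tateZeroTrivial_of_exists_sylow A fun p hp _ =>
    haveI : Fact p.Prime := ⟨hp⟩
    ⟨default, h p default⟩

end TateZero

section TateNegOne

variable {k G : Type u} [CommRing k] [Group G]

lemma coinvariantsKer_res_le (S : Subgroup G) (A : Rep k G) :
    Representation.Coinvariants.ker (res S.subtype A).ρ ≤ Representation.Coinvariants.ker A.ρ := by
  refine Submodule.span_le.2 ?_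
  rintro _ ⟨⟨s, x⟩, rfl⟩
  exact Representation.Coinvariants.sub_mem_ker (s : G) x

/-- **Sylow detection for `Ĥ⁻¹`** (weak hypothesis form). -/
theorem tateNegOneTrivial_of_exists_sylow [Finite G] (A : Rep k G)
    (h : ∀ p : ℕ, p.Prime → p ∣ Nat.card G →
      ∃ P : Sylow p G, TateNegOneTrivial (res (P : Subgroup G).subtype A)) :
    TateNegOneTrivial A := by
  intro a ha
  have := Fintype.ofFinite G
  refine mem_of_sylow_index_nsmul_mem (G := G)
    (Representation.Coinvariants.ker A.ρ).toAddSubgroup a ?_ fun p hp hpG => ?_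
  · -- `|G| • a ≡ N_G a = 0`
    have h1 : Nat.card G • a - ∑ᶠ g : G, A.ρ g a ∈ Representation.Coinvariants.ker A.ρ := by
      rw [finsum_eq_sum_of_fintype, Nat.card_eq_fintype_card, ← Finset.card_univ, ← Finset.sum_const,
        ← Finset.sum_sub_distrib]
      refine Submodule.sum_mem _ fun g _ => ?_
      rw [← neg_sub]
      exact Submodule.neg_mem _ (Representation.Coinvariants.sub_mem_ker g a)
    rw [ha, sub_zero] at h1
    exact h1
  · obtain ⟨P, hP⟩ := h p hp hpG
    refine ⟨P, ?_⟩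
    have := Fintype.ofFinite (G ⧸ (P : Subgroup G))
    have := Fintype.ofFinite (P : Subgroup G)
    -- the element `a' = ∑_q q⁻¹ a`
    set a' : A := ∑ q : G ⧸ (P : Subgroup G), A.ρ (q.out)⁻¹ a with ha'
    -- its `P`-norm is the `G`-norm of `a`
    have hN : ∑ᶠ s : (P : Subgroup G), (res (P : Subgroup G).subtype A).ρ s a' = 0 := by
      have h1 : ∑ᶠ s : (P : Subgroup G), (res (P : Subgroup G).subtype A).ρ s a' =
          ∑ p : (G ⧸ (P : Subgroup G)) × (P : Subgroup G), A.ρ (quotProdEquiv _ p)⁻¹ a := by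
        rw [finsum_eq_sum_of_fintype, Fintype.sum_prod_type, Finset.sum_comm]
        rw [← Equiv.sum_comp (Equiv.inv (P : Subgroup G))]
        refine Finset.sum_congr rfl fun s _ => ?_
        show A.ρ ((s⁻¹ : (P : Subgroup G)) : G) a' = _
        rw [ha', map_sum]
        refine Finset.sum_congr rfl fun q _ => ?_
        rw [quotProdEquiv_apply, mul_inv_rev, map_mul]
        rfl
      rw [h1, Equiv.sum_comp (quotProdEquiv (P : Subgroup G)) (fun g => A.ρ g⁻¹ a),
        ← finsum_eq_sum_of_fintype, finsum_rho_inv, ha]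
    have h2 : a' ∈ Representation.Coinvariants.ker A.ρ :=
      coinvariantsKer_res_le _ A (hP a' hN)
    -- `a' ≡ index • a`
    have h3 : a' - (P : Subgroup G).index • a ∈ Representation.Coinvariants.ker A.ρ := by
      rw [ha', Subgroup.index_eq_card, Nat.card_eq_fintype_card, ← Finset.card_univ,
        ← Finset.sum_const, ← Finset.sum_sub_distrib]
      exact Submodule.sum_mem _ fun q _ => Representation.Coinvariants.sub_mem_ker _ a
    have h4 := Submodule.sub_mem _ h2 h3
    rwa [sub_sub_cancel] at h4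

/-- **Sylow detection for `Ĥ⁻¹`**. -/
theorem tateNegOneTrivial_of_sylow [Finite G] (A : Rep k G)
    (h : ∀ (p : ℕ) [Fact p.Prime] (P : Sylow p G),
      TateNegOneTrivial (res (P : Subgroup G).subtype A)) :
    TateNegOneTrivial A :=
  tateNegOneTrivial_of_exists_sylow A fun p hp _ =>
    haveI : Fact p.Prime := ⟨hp⟩
    ⟨default, h p default⟩

/-- Sylow detection for `H^{n+1}` with the strong (`∀ P`) hypothesis. -/
theorem isZero_groupCohomology_of_forall_sylow [Finite G] (A : Rep k G) (n : ℕ)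
    (h : ∀ (p : ℕ) [Fact p.Prime] (P : Sylow p G),
      IsZero (groupCohomology (res (P : Subgroup G).subtype A) (n + 1))) :
    IsZero (groupCohomology A (n + 1)) :=
  isZero_groupCohomology_of_sylow A n fun p hp _ =>
    haveI : Fact p.Prime := ⟨hp⟩
    ⟨default, h p default⟩

end TateNegOne

end Fermat.Agent.CFT
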