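import Fermat.Agent.CFT.Tate.CohTriv
import Fermat.Agent.CFT.Tate.InfResHigher
import Fermat.Agent.CFT.Tate.SylowTate

/-!
# The criterion for cohomological triviality, unconditional form

`CohTriv.lean` proves the Nakayama–Tate criterion under the two hypotheses `InfResStatement k`
(higher inflation–restriction) and `SylowDetectStatement k` (Sylow detection).  Here both are
discharged, from `InfResHigher.lean` and `SylowTate.lean`, and we obtain the unconditional

`cohTriv_of_H1_H2 : (∀ H, H¹(H, A) = 0) → (∀ H, H²(H, A) = 0) → ∀ H, (∀ n, Hⁿ⁺¹(H, A) = 0) ∧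
  Ĥ⁰(H, A) = 0 ∧ Ĥ⁻¹(H, A) = 0`.
-/

open CategoryTheory Limits groupCohomology Rep

namespace Fermat.Agent.CFT

universe u

variable {k : Type u} [CommRing k]

/-- Higher inflation–restriction, in the elementwise form used by `CohTriv.lean`. -/
theorem infResStatement : InfResStatement k := by
  intro G _ A S _ n h
  exact ⟨HnInfRes_f_injective A S n h, fun x hx => HnInfRes_exists_of_g_eq_zero A S n h x hx⟩

/-- Sylow detection of cohomological triviality, in the form used by `CohTriv.lean`. -/
theorem sylowDetectStatement : SylowDetectStatement k := by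
  intro G _ _ A
  exact ⟨fun n h => isZero_groupCohomology_of_forall_sylow A n h,
    fun h => tateZeroTrivial_of_sylow A h, fun h => tateNegOneTrivial_of_sylow A h⟩

/-- **Criterion for cohomological triviality** (Nakayama–Tate): if `H¹(H, A) = H²(H, A) = 0`
for every subgroup `H` of the finite group `G`, then for every subgroup `H` all the positive
degree cohomology of `A` vanishes, and so do the Tate groups `Ĥ⁰(H, A)` and `Ĥ⁻¹(H, A)`. -/
theorem cohTriv_of_H1_H2 {G : Type u} [Group G] [Finite G] (A : Rep k G)
    (h1 : ∀ H : Subgroup G, IsZero (groupCohomology (res H.subtype A) 1))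
    (h2 : ∀ H : Subgroup G, IsZero (groupCohomology (res H.subtype A) 2)) (H : Subgroup G) :
    (∀ n : ℕ, IsZero (groupCohomology (res H.subtype A) (n + 1))) ∧
      TateZeroTrivial (res H.subtype A) ∧ TateNegOneTrivial (res H.subtype A) :=
  cohTriv_of_H1_H2_of infResStatement sylowDetectStatement A h1 h2 H

/-- The same criterion for the group `G` itself. -/
theorem cohTriv_of_H1_H2_top {G : Type u} [Group G] [Finite G] (A : Rep k G)
    (h1 : ∀ H : Subgroup G, IsZero (groupCohomology (res H.subtype A) 1))
    (h2 : ∀ H : Subgroup G, IsZero (groupCohomology (res H.subtype A) 2)) :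
    (∀ n : ℕ, IsZero (groupCohomology A (n + 1))) ∧ TateZeroTrivial A ∧ TateNegOneTrivial A :=
  cohTriv_of_H12Vanish infResStatement sylowDetectStatement A (H12Vanish_of_subgroups A h1 h2)

/-- The criterion for finite `p`-groups (the inductive core of the argument), unconditional. -/
theorem pgroup_cohTriv_of_H1_H2 (p : ℕ) [Fact p.Prime] {G : Type u} [Group G] [Finite G]
    (hG : IsPGroup p G) (A : Rep k G) (hA : H12Vanish A) :
    (∀ m : ℕ, IsZero (groupCohomology A (m + 1))) ∧ TateZeroTrivial A ∧ TateNegOneTrivial A :=
  pgroup_cohTriv infResStatement p (Nat.card G) G rfl hG A hA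

end Fermat.Agent.CFT
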