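import Mathlib
import Fermat.Agent.CFT.Tate.Shapiro
import Fermat.Agent.CFT.CupLowFunct
import Fermat.Agent.CFT.ShapiroLow

/-!
# Projection formulas for corestriction and cup products (finite index, low degrees)

For a subgroup `S ≤ G` of finite index, a pairing `Φ : X × B → Z` of `G`-representations and the
corestriction `cores` of `Tate/Shapiro.lean`:
`cor (α ∪ res β) = cor α ∪ β` in bidegrees `(1,1)`, `(2,0)`, `(1,0)`, and `(0,2)`, `(0,1)` with the
relative norm `Shap.cor₀` on invariants in degree `0`.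
-/

set_option autoImplicit false

universe u

open CategoryTheory groupCohomology Rep

namespace Fermat.Agent.CFT

variable {k G : Type u} [CommRing k] [Group G] (S : Subgroup G) [S.FiniteIndex]
  {X B Z : Rep.{u} k G} (Φ : RepPairing X B Z)

namespace Shap

omit [S.FiniteIndex] in
/-- first compatibility: evaluation at `1` -/
lemma ev₁_compat (c : Rep.coind S.subtype (Rep.res S.subtype X)) (b : B) :
    (Φ.res S.subtype).toLin ((Cup.ev₁ S (Rep.res S.subtype X)).hom c)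
        ((𝟙 (Rep.res S.subtype B) : Rep.res S.subtype B ⟶ Rep.res S.subtype B).hom b) =
      (Cup.ev₁ S (Rep.res S.subtype Z)).hom (((Φ.res S.subtype).coind S).toLin c b) :=
  ((Φ.res S.subtype).ev₁_coind S c b).symm

/-- second compatibility: trace -/
lemma tr_compat (c : Rep.coind S.subtype (Rep.res S.subtype X)) (b : B) :
    Φ.toLin ((Cup.tr S X).hom c) ((𝟙 B : B ⟶ B).hom b) =
      (Cup.tr S Z).hom (((Φ.res S.subtype).coind S).toLin c b) :=
  (Φ.tr_coind S c b).symm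

end Shap

omit [S.FiniteIndex] in
lemma exists_shapiroMap_eq (Y : Rep.{u} k S) (n : ℕ) (α : groupCohomology Y n) :
    ∃ α', shapiroMap S Y n α' = α :=
  ⟨inv (shapiroMap S Y n) α, by
    have := ConcreteCategory.congr_hom (IsIso.inv_hom_id (shapiroMap S Y n)) α
    exact this⟩

lemma map_id_id_apply (n : ℕ) (β : groupCohomology B n) :
    groupCohomology.map (MonoidHom.id G) (𝟙 B) n β = β := by
  rw [groupCohomology.map_id]
  rfl

lemma invMap_id_id (b : B.ρ.invariants) : Cup.invMap (MonoidHom.id G) (𝟙 B) b = b :=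
  Subtype.ext rfl

namespace Shap

/-- Corestriction in degree `0` on invariants: the relative norm `a ↦ ∑_{c ∈ G/S} c • a`. -/
noncomputable def cor₀ (X : Rep.{u} k G) :
    (Rep.res S.subtype X).ρ.invariants →ₗ[k] X.ρ.invariants :=
  (Cup.invMap (MonoidHom.id G) (Cup.tr S X)) ∘ₗ
    (shapInv S (Rep.res S.subtype X)).symm.toLinearMap

lemma cor₀_invMap (c : (Rep.coind S.subtype (Rep.res S.subtype X)).ρ.invariants) :
    cor₀ S X (Cup.invMap S.subtype (Cup.ev₁ S (Rep.res S.subtype X)) c) =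
      Cup.invMap (MonoidHom.id G) (Cup.tr S X) c := by
  show Cup.invMap (MonoidHom.id G) (Cup.tr S X)
    ((shapInv S (Rep.res S.subtype X)).symm (shapInv S (Rep.res S.subtype X) c)) = _
  rw [LinearEquiv.symm_apply_apply]

omit [S.FiniteIndex] in
lemma shapInv_symm_apply (a : (Rep.res S.subtype X).ρ.invariants) (g : G) :
    ((shapInv S (Rep.res S.subtype X)).symm a).1.1 g = a.1 := by
  set c := (shapInv S (Rep.res S.subtype X)).symm a with hc
  have h1 : c.1.1 1 = a.1 := by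
    have := (shapInv S (Rep.res S.subtype X)).apply_symm_apply a
    exact congrArg Subtype.val this
  have h2 : ((Rep.coind S.subtype (Rep.res S.subtype X)).ρ g c.1).1 1 = c.1.1 1 := by
    rw [c.2 g]
  rw [Cup.coind_ρ_apply, one_mul] at h2
  rw [h2, h1]

/-- `cor₀ a = ∑_{c ∈ G/S} c • a`, in terms of `Cup.trTerm`. -/
lemma cor₀_coe (a : (Rep.res S.subtype X).ρ.invariants) :
    (cor₀ S X a : X) =
      ∑ᶠ q : G ⧸ S, Cup.trTerm S X ((shapInv S (Rep.res S.subtype X)).symm a).1 q := rfl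

omit [S.FiniteIndex] in
lemma trTerm_shapInv_symm (a : (Rep.res S.subtype X).ρ.invariants) (g : G) :
    Cup.trTerm S X ((shapInv S (Rep.res S.subtype X)).symm a).1 (QuotientGroup.mk g) =
      X.ρ g a.1 := by
  rw [Cup.trTerm_mk, shapInv_symm_apply]

/-- `cor₀ ∘ res = index`. -/
lemma cor₀_res (x : X.ρ.invariants) :
    cor₀ S X (Cup.invMap S.subtype (𝟙 (Rep.res S.subtype X)) x) = S.index • x := by
  apply Subtype.ext
  rw [cor₀_coe]
  have : Finite (G ⧸ S) := Subgroup.finite_quotient_of_finiteIndex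
  classical
  have : Fintype (G ⧸ S) := Fintype.ofFinite _
  rw [finsum_eq_sum_of_fintype]
  have h : ∀ q : G ⧸ S, Cup.trTerm S X ((shapInv S (Rep.res S.subtype X)).symm
      (Cup.invMap S.subtype (𝟙 (Rep.res S.subtype X)) x)).1 q = x.1 := by
    intro q
    induction q using QuotientGroup.induction_on with | _ g =>
    rw [trTerm_shapInv_symm]
    exact x.2 g
  rw [Finset.sum_congr rfl (fun q _ => h q), Finset.sum_const, Finset.card_univ,
    Subgroup.index_eq_card, Nat.card_eq_fintype_card]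
  rfl

end Shap

/-- Projection formula `cor (α ∪ res β) = cor α ∪ β` in bidegree `(1,1)`. -/
theorem cores_cupH₁₁_resCoh (α : H1 (Rep.res S.subtype X)) (β : H1 B) :
    cores S Z 2 ((Φ.res S.subtype).cupH₁₁ α (resCoh S B 1 β)) =
      Φ.cupH₁₁ (cores S X 1 α) β := by
  obtain ⟨α', rfl⟩ := exists_shapiroMap_eq S (Rep.res S.subtype X) 1 α
  have h1 := RepPairing.map_cupH₁₁ S.subtype ((Φ.res S.subtype).coind S) (Φ.res S.subtype)
    (Cup.ev₁ S (Rep.res S.subtype X)) (𝟙 (Rep.res S.subtype B)) (Cup.ev₁ S (Rep.res S.subtype Z))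
    (Shap.ev₁_compat S Φ) α' β
  have h2 := RepPairing.map_cupH₁₁ (MonoidHom.id G) ((Φ.res S.subtype).coind S) Φ
    (Cup.tr S X) (𝟙 B) (Cup.tr S Z) (Shap.tr_compat S Φ) α' β
  have h1' : (Φ.res S.subtype).cupH₁₁ (shapiroMap S (Rep.res S.subtype X) 1 α')
      (resCoh S B 1 β) = shapiroMap S (Rep.res S.subtype Z) 2
        (((Φ.res S.subtype).coind S).cupH₁₁ α' β) := h1.symm
  rw [h1', cores_shapiroMap_apply, cores_shapiroMap_apply, h2, map_id_id_apply]

/-- Projection formula `cor (α ∪ res b) = cor α ∪ b` in bidegree `(2,0)`. -/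
theorem cores_cupH₂₀_res (α : H2 (Rep.res S.subtype X)) (b : B.ρ.invariants) :
    cores S Z 2 ((Φ.res S.subtype).cupH₂₀ α
        (Cup.invMap S.subtype (𝟙 (Rep.res S.subtype B)) b)) =
      Φ.cupH₂₀ (cores S X 2 α) b := by
  obtain ⟨α', rfl⟩ := exists_shapiroMap_eq S (Rep.res S.subtype X) 2 α
  have h1 := RepPairing.map_cupH₂₀ S.subtype ((Φ.res S.subtype).coind S) (Φ.res S.subtype)
    (Cup.ev₁ S (Rep.res S.subtype X)) (𝟙 (Rep.res S.subtype B)) (Cup.ev₁ S (Rep.res S.subtype Z))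
    (Shap.ev₁_compat S Φ) α' b
  have h2 := RepPairing.map_cupH₂₀ (MonoidHom.id G) ((Φ.res S.subtype).coind S) Φ
    (Cup.tr S X) (𝟙 B) (Cup.tr S Z) (Shap.tr_compat S Φ) α' b
  have h1' : (Φ.res S.subtype).cupH₂₀ (shapiroMap S (Rep.res S.subtype X) 2 α')
      (Cup.invMap S.subtype (𝟙 (Rep.res S.subtype B)) b) =
        shapiroMap S (Rep.res S.subtype Z) 2 (((Φ.res S.subtype).coind S).cupH₂₀ α' b) :=
    h1.symm
  rw [h1', cores_shapiroMap_apply, cores_shapiroMap_apply, h2, invMap_id_id]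

/-- Projection formula `cor (α ∪ res b) = cor α ∪ b` in bidegree `(1,0)`. -/
theorem cores_cupH₁₀_res (α : H1 (Rep.res S.subtype X)) (b : B.ρ.invariants) :
    cores S Z 1 ((Φ.res S.subtype).cupH₁₀ α
        (Cup.invMap S.subtype (𝟙 (Rep.res S.subtype B)) b)) =
      Φ.cupH₁₀ (cores S X 1 α) b := by
  obtain ⟨α', rfl⟩ := exists_shapiroMap_eq S (Rep.res S.subtype X) 1 α
  have h1 := RepPairing.map_cupH₁₀ S.subtype ((Φ.res S.subtype).coind S) (Φ.res S.subtype)
    (Cup.ev₁ S (Rep.res S.subtype X)) (𝟙 (Rep.res S.subtype B)) (Cup.ev₁ S (Rep.res S.subtype Z))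
    (Shap.ev₁_compat S Φ) α' b
  have h2 := RepPairing.map_cupH₁₀ (MonoidHom.id G) ((Φ.res S.subtype).coind S) Φ
    (Cup.tr S X) (𝟙 B) (Cup.tr S Z) (Shap.tr_compat S Φ) α' b
  have h1' : (Φ.res S.subtype).cupH₁₀ (shapiroMap S (Rep.res S.subtype X) 1 α')
      (Cup.invMap S.subtype (𝟙 (Rep.res S.subtype B)) b) =
        shapiroMap S (Rep.res S.subtype Z) 1 (((Φ.res S.subtype).coind S).cupH₁₀ α' b) :=
    h1.symm
  rw [h1', cores_shapiroMap_apply, cores_shapiroMap_apply, h2, invMap_id_id]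

/-- Projection formula `cor (a ∪ res β) = N(a) ∪ β` in bidegree `(0,2)`. -/
theorem cores_cupH₀₂_resCoh (a : (Rep.res S.subtype X).ρ.invariants) (β : H2 B) :
    cores S Z 2 ((Φ.res S.subtype).cupH₀₂ a (resCoh S B 2 β)) =
      Φ.cupH₀₂ (Shap.cor₀ S X a) β := by
  obtain ⟨a', rfl⟩ := (Shap.shapInv S (Rep.res S.subtype X)).surjective a
  have h1 := RepPairing.map_cupH₀₂ S.subtype ((Φ.res S.subtype).coind S) (Φ.res S.subtype)
    (Cup.ev₁ S (Rep.res S.subtype X)) (𝟙 (Rep.res S.subtype B)) (Cup.ev₁ S (Rep.res S.subtype Z))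
    (Shap.ev₁_compat S Φ) a' β
  have h2 := RepPairing.map_cupH₀₂ (MonoidHom.id G) ((Φ.res S.subtype).coind S) Φ
    (Cup.tr S X) (𝟙 B) (Cup.tr S Z) (Shap.tr_compat S Φ) a' β
  have h1' : (Φ.res S.subtype).cupH₀₂ (Shap.shapInv S (Rep.res S.subtype X) a')
      (resCoh S B 2 β) = shapiroMap S (Rep.res S.subtype Z) 2
        (((Φ.res S.subtype).coind S).cupH₀₂ a' β) := h1.symm
  rw [h1', cores_shapiroMap_apply, h2, map_id_id_apply, Shap.shapInv_apply, Shap.cor₀_invMap]

/-- Projection formula `cor (a ∪ res β) = N(a) ∪ β` in bidegree `(0,1)`. -/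
theorem cores_cupH₀₁_resCoh (a : (Rep.res S.subtype X).ρ.invariants) (β : H1 B) :
    cores S Z 1 ((Φ.res S.subtype).cupH₀₁ a (resCoh S B 1 β)) =
      Φ.cupH₀₁ (Shap.cor₀ S X a) β := by
  obtain ⟨a', rfl⟩ := (Shap.shapInv S (Rep.res S.subtype X)).surjective a
  have h1 := RepPairing.map_cupH₀₁ S.subtype ((Φ.res S.subtype).coind S) (Φ.res S.subtype)
    (Cup.ev₁ S (Rep.res S.subtype X)) (𝟙 (Rep.res S.subtype B)) (Cup.ev₁ S (Rep.res S.subtype Z))
    (Shap.ev₁_compat S Φ) a' β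
  have h2 := RepPairing.map_cupH₀₁ (MonoidHom.id G) ((Φ.res S.subtype).coind S) Φ
    (Cup.tr S X) (𝟙 B) (Cup.tr S Z) (Shap.tr_compat S Φ) a' β
  have h1' : (Φ.res S.subtype).cupH₀₁ (Shap.shapInv S (Rep.res S.subtype X) a')
      (resCoh S B 1 β) = shapiroMap S (Rep.res S.subtype Z) 1
        (((Φ.res S.subtype).coind S).cupH₀₁ a' β) := h1.symm
  rw [h1', cores_shapiroMap_apply, h2, map_id_id_apply, Shap.shapInv_apply, Shap.cor₀_invMap]

end Fermat.Agent.CFT
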