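import Mathlib
import Fermat.Agent.CFT.Tate.Shapiro

/-!
# Complements on corestriction

* `H0Iso_cores_zero`: in degree `0` the corestriction is the relative norm
  `a ↦ ∑_{q ∈ G/S} q • a` on invariants;
* when `[G : S]` is invertible in `k`: `A` is a direct summand of `coind_S^G res_S A`
  (`coindUnit_comp_retract`), and restriction `H^n(G, A) ⟶ H^n(S, A)` is a split monomorphism
  with retraction `[G : S]⁻¹ • cores` (`resCoh_comp_smul_cores`).
-/

open CategoryTheory Limits groupCohomology Rep

namespace Fermat.Agent.CFT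

universe u

section DegreeZero

variable {k G : Type u} [CommRing k] [Group G] (S : Subgroup G)

/-- A `G`-invariant element of `coind_S^G B` is a constant function. -/
lemma coind_invariant_apply (B : Rep.{u} k S) (F : coind S.subtype B)
    (hF : ∀ g : G, (coind S.subtype B).ρ g F = F) (g : G) : F.1 g = F.1 1 := by
  have h := congrArg (fun f => f.1 1) (hF g)
  have h' : F.1 (1 * g) = F.1 1 := h
  rwa [one_mul] at h'

/-- `map id φ 0` on invariants. -/
lemma map_id_zero_H0Iso_apply {A B : Rep.{u} k G} (φ : A ⟶ B) (x : groupCohomology A 0) :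
    ((H0Iso B).hom (groupCohomology.map (MonoidHom.id G) φ 0 x)).1 =
      φ.hom ((H0Iso A).hom x).1 := by
  have h := ConcreteCategory.congr_hom (map_id_comp_H0Iso_hom φ) x
  exact congrArg Subtype.val h

variable [S.FiniteIndex]

/-- In degree `0`, corestriction is the relative norm `a ↦ ∑_{q ∈ G/S} q • a`. -/
theorem H0Iso_cores_zero (A : Rep.{u} k G) (y : groupCohomology (res S.subtype A) 0) :
    ((H0Iso A).hom (cores S A 0 y)).1 =
      ∑ᶠ q : G ⧸ S, A.ρ q.out ((H0Iso (res S.subtype A)).hom y).1 := by
  have hsurj : Function.Surjective (shapiroMap S (res S.subtype A) 0) :=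
    (shapiroMap_zero_bijective S _).2
  obtain ⟨w, rfl⟩ := hsurj y
  rw [cores_shapiroMap_apply, shapiroMap_zero_H0Iso_apply, map_id_zero_H0Iso_apply,
    Cup.tr_hom_apply]
  refine finsum_congr fun q => ?_
  have hq : Cup.trTerm S A ((H0Iso (coind S.subtype (res S.subtype A))).hom w).1 q =
      A.ρ q.out (((H0Iso (coind S.subtype (res S.subtype A))).hom w).1.1 (q.out)⁻¹) := by
    conv_lhs => rw [← QuotientGroup.out_eq' q]
    rfl
  rw [hq, coind_invariant_apply S _ _
    ((H0Iso (coind S.subtype (res S.subtype A))).hom w).2 (q.out)⁻¹]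

end DegreeZero

section Retract

variable {k G : Type u} [CommRing k] [Group G] (S : Subgroup G) [S.FiniteIndex]

/-- If `[G : S]` is invertible in `k` then `A` is a direct summand of `coind_S^G (res_S A)`:
`u • tr` is a retraction of the unit. -/
theorem coindUnit_comp_retract (A : Rep.{u} k G) (u : k) (hu : u * (S.index : k) = 1) :
    coindUnit S A ≫ (u • Cup.tr S A) = 𝟙 A := by
  rw [Linear.comp_smul, coindUnit_comp_tr, ← Nat.cast_smul_eq_nsmul k, smul_smul, hu, one_smul]

/-- If `[G : S]` is invertible in `k` then restriction to `S` is a split monomorphism on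
cohomology, with retraction `[G : S]⁻¹ • cores`. -/
theorem resCoh_comp_smul_cores (A : Rep.{u} k G) (n : ℕ) (u : k) (hu : u * (S.index : k) = 1) :
    resCoh S A n ≫ (u • cores S A n) = 𝟙 (groupCohomology A n) := by
  rw [Linear.comp_smul, resCoh_comp_cores', smul_smul, hu, one_smul]

lemma resCoh_injective_of_index_unit (A : Rep.{u} k G) (n : ℕ) (u : k)
    (hu : u * (S.index : k) = 1) : Function.Injective (resCoh S A n) := by
  intro x y hxy
  have h := resCoh_comp_smul_cores S A n u hu
  have hx := ConcreteCategory.congr_hom h x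
  have hy := ConcreteCategory.congr_hom h y
  have hx' : (u • cores S A n) (resCoh S A n x) = x := hx
  have hy' : (u • cores S A n) (resCoh S A n y) = y := hy
  rw [← hx', ← hy', hxy]

lemma cores_surjective_of_index_unit (A : Rep.{u} k G) (n : ℕ) (u : k)
    (hu : u * (S.index : k) = 1) : Function.Surjective (cores S A n) := by
  intro x
  refine ⟨u • resCoh S A n x, ?_⟩
  rw [map_smul, cores_resCoh_apply, ← Nat.cast_smul_eq_nsmul k, smul_smul, hu, one_smul]

end Retract

end Fermat.Agent.CFT
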