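import Fermat.Agent.CFT.Tate.CyclicH2

/-!
# Naturality of the carry class

Functoriality of the Bockstein cocycle `bockFun` under `groupCohomology.map`, change of the index
function and of the modulus, and the resulting formulas for inflation and restriction of carry
classes of finite cyclic groups.  Also the multiplicative form for `Rep.ofMulDistribMulAction`.
-/

open CategoryTheory groupCohomology Rep

namespace Fermat.Agent.CFT

universe u

variable {k : Type u} [CommRing k]

section Functoriality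

variable {G H : Type u} [Group G] [Group H]

/-- Functoriality of the Bockstein cocycle: `map f φ` sends the class of `bockFun A ι n a` to the
class of `bockFun B (ι ∘ f) n (φ a)`. -/
theorem map_H2π_bockFun (f : G →* H) {A : Rep k H} {B : Rep k G} (φ : res f A ⟶ B)
    (ι : H → ℤ) (n : ℤ) (a : A) (h : bockFun A ι n a ∈ cocycles₂ A)
    (h' : bockFun B (fun g => ι (f g)) n (φ.hom a) ∈ cocycles₂ B) :
    groupCohomology.map f φ 2 (H2π A ⟨_, h⟩) = H2π B ⟨_, h'⟩ := by
  rw [H2π_comp_map_apply]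
  congr 1
  apply Subtype.ext
  funext p
  change φ.hom (bockFun A ι n a (f p.1, f p.2)) = _
  simp [bockFun]

end Functoriality

section Change

variable {G : Type u} [Group G] (A : Rep k G)

/-- Changing the index function by a multiple of the modulus changes the Bockstein cocycle by
the coboundary of `g ↦ t g • a`. -/
lemma bockFun_add_mul (ι t : G → ℤ) {n : ℤ} (hn : n ≠ 0) (a : A) (ha : ∀ g, A.ρ g a = a) :
    bockFun A (fun g => ι g + n * t g) n a =
      bockFun A ι n a + (d₁₂ A).hom (fun g => t g • a) := by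
  funext p
  obtain ⟨g, h⟩ := p
  have h1 : (ι g + n * t g + (ι h + n * t h) - (ι (g * h) + n * t (g * h))) / n =
      (ι g + ι h - ι (g * h)) / n + (t g + t h - t (g * h)) := by
    rw [← Int.add_mul_ediv_left _ _ hn]
    congr 1
    ring
  simp only [Pi.add_apply, d₁₂_hom_apply, bockFun_apply, h1, map_zsmul, ha, add_smul, sub_smul]
  abel

/-- Rescaling index function and modulus. -/
lemma bockFun_scale (ι : G → ℤ) {n m : ℤ} (e c : ℤ) (hn : n ≠ 0) (hm : m ≠ 0)
    (hec : e * n = c * m) (hdiv : ∀ g h, n ∣ ι g + ι h - ι (g * h)) (a : A) :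
    bockFun A (fun g => e * ι g) m a = bockFun A ι n (c • a) := by
  funext p
  obtain ⟨g, h⟩ := p
  obtain ⟨y, hy⟩ := hdiv g h
  have h1 : (e * ι g + e * ι h - e * ι (g * h)) / m = c * y := by
    have : e * ι g + e * ι h - e * ι (g * h) = m * (c * y) := by
      rw [← mul_add, ← mul_sub, hy, ← mul_assoc, hec]
      ring
    rw [this, Int.mul_ediv_cancel_left _ hm]
  have h2 : (ι g + ι h - ι (g * h)) / n = y := by
    rw [hy, Int.mul_ediv_cancel_left _ hn]
  simp only [bockFun_apply, h1, h2, mul_smul]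
  rw [smul_comm]

end Change

section MapCarry

variable {G H : Type u} [Group G] [Group H]

/-- **Functoriality of carry classes** for a homomorphism `f : G →* H` of finite cyclic groups
`G = ⟨σ⟩`, `H = ⟨τ⟩` with `f σ = τ ^ e` and `e * |σ| = c * |τ|`: the map induced by `f` and
`φ : res f B ⟶ A` sends the carry class of `b` to the carry class of `c • φ b`. -/
theorem map_H2π_carryCocycle (f : G →* H) {σ : G} {τ : H} {ιG : G → ℕ} {ιH : H → ℕ}
    (hG : ∀ g, σ ^ ιG g = g) (hH : ∀ h, τ ^ ιH h = h) (e c : ℕ) (he : f σ = τ ^ e)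
    (hc : e * orderOf σ = c * orderOf τ) {B : Rep k H} {A : Rep k G} (φ : res f B ⟶ A)
    (b : B) (hb : ∀ h, B.ρ h b = b) (hcb : ∀ g, A.ρ g (c • φ.hom b) = c • φ.hom b) :
    groupCohomology.map f φ 2 (H2π B (carryCocycle B hH b hb)) =
      H2π A (carryCocycle A hG (c • φ.hom b) hcb) := by
  have hφb : ∀ g, A.ρ g (φ.hom b) = φ.hom b := by
    intro g
    have h1 := Rep.hom_comm_apply φ g b
    rw [← h1]
    change φ.hom (B.ρ (f g) b) = _
    rw [hb]
  have hm : (orderOf τ : ℤ) ≠ 0 := orderOf_ne_zero_of_index hH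
  have hn : (orderOf σ : ℤ) ≠ 0 := orderOf_ne_zero_of_index hG
  -- step 1: functoriality of the Bockstein cocycle
  have hmem : bockFun A (fun g => (ιH (f g) : ℤ)) (orderOf τ) (φ.hom b) ∈ cocycles₂ A :=
    bockFun_mem_cocycles₂ hm (fun g h => by
      have := index_dvd hH (f g) (f h)
      rwa [← map_mul] at this) _ hφb
  have h1 := map_H2π_bockFun f φ (fun h => (ιH h : ℤ)) (orderOf τ) b
    (carryCocycle B hH b hb).2 hmem
  change groupCohomology.map f φ 2 (H2π B (carryCocycle B hH b hb)) = _ at h1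
  rw [h1, H2π_eq_iff]
  -- step 2: compare the index functions
  have hdiv : ∀ g, (orderOf τ : ℤ) ∣ (ιH (f g) : ℤ) - e * ιG g := by
    intro g
    have h2 : τ ^ ιH (f g) = τ ^ (e * ιG g) := by
      rw [hH, pow_mul, ← he, ← map_pow, hG]
    rw [pow_eq_pow_iff_modEq] at h2
    have h3 := (Nat.modEq_iff_dvd.1 h2.symm)
    push_cast at h3
    exact h3
  have hι : (fun g => (ιH (f g) : ℤ)) =
      fun g => (e : ℤ) * ιG g + orderOf τ * (((ιH (f g) : ℤ) - e * ιG g) / orderOf τ) := by
    funext g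
    rw [Int.mul_ediv_cancel' (hdiv g)]
    ring
  have h4 := bockFun_add_mul A (fun g => (e : ℤ) * ιG g)
    (fun g => ((ιH (f g) : ℤ) - e * ιG g) / orderOf τ) hm (φ.hom b) hφb
  have h5 := bockFun_scale A (fun g => (ιG g : ℤ)) (e : ℤ) (c : ℤ) hn hm
    (by exact_mod_cast hc) (index_dvd hG) (φ.hom b)
  refine ⟨fun g => (((ιH (f g) : ℤ) - e * ιG g) / orderOf τ) • φ.hom b, ?_⟩
  change _ = bockFun A (fun g => (ιH (f g) : ℤ)) (orderOf τ) (φ.hom b) -
    bockFun A (fun g => (ιG g : ℤ)) (orderOf σ) (c • φ.hom b)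
  rw [hι, h4, h5, natCast_zsmul]
  abel

/-- Naturality of carry classes in the coefficients. -/
theorem map_id_H2π_carryCocycle {σ : G} {ιG : G → ℕ} (hG : ∀ g, σ ^ ιG g = g) {A B : Rep k G}
    (φ : B ⟶ A) (b : B) (hb : ∀ g, B.ρ g b = b) (hφb : ∀ g, A.ρ g (φ.hom b) = φ.hom b) :
    groupCohomology.map (A := B) (B := A) (MonoidHom.id G) φ 2
        (H2π B (carryCocycle B hG b hb)) =
      H2π A (carryCocycle A hG (φ.hom b) hφb) := by
  have h1 : ∀ g, A.ρ g ((1 : ℕ) • φ.hom b) = (1 : ℕ) • φ.hom b := by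
    intro g
    rw [one_smul]
    exact hφb g
  have h := map_H2π_carryCocycle (MonoidHom.id G) hG hG 1 1 (pow_one σ).symm rfl (B := B)
    (A := A) φ b hb h1
  rw [h, carryCocycle_congr A hG (one_smul ℕ (φ.hom b)) h1]

end MapCarry

section InfRes

variable {G : Type u} [Group G] (A : Rep k G)

/-- **Inflation of a carry class**: for `G = ⟨σ⟩` finite cyclic and `S` a (normal) subgroup,
inflation `H²(G ⧸ S, A^S) ⟶ H²(G, A)` sends the carry class of `b` (w.r.t. the generator `σ S`)
to the carry class of `(|σ| / |σ S|) • b`. -/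
theorem infl_H2π_carryCocycle (S : Subgroup G) [S.Normal] {σ : G} {ιG : G → ℕ}
    {ιQ : G ⧸ S → ℕ} (hG : ∀ g, σ ^ ιG g = g) (hQ : ∀ q, (σ : G ⧸ S) ^ ιQ q = q)
    (b : A.quotientToInvariants S) (hb : ∀ q, (A.quotientToInvariants S).ρ q b = b)
    (hcb : ∀ g, A.ρ g ((orderOf σ / orderOf (σ : G ⧸ S)) • b.1) =
      (orderOf σ / orderOf (σ : G ⧸ S)) • b.1) :
    groupCohomology.map (A := A.quotientToInvariants S) (B := A) (QuotientGroup.mk' S)
        (ofHom (A.ρ.quotientToInvariants_lift S)) 2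
        (H2π (A.quotientToInvariants S) (carryCocycle (A.quotientToInvariants S) hQ b hb)) =
      H2π A (carryCocycle A hG ((orderOf σ / orderOf (σ : G ⧸ S)) • b.1) hcb) := by
  have hdvd : orderOf (σ : G ⧸ S) ∣ orderOf σ := orderOf_map_dvd (QuotientGroup.mk' S) σ
  exact map_H2π_carryCocycle (QuotientGroup.mk' S) hG hQ 1 (orderOf σ / orderOf (σ : G ⧸ S))
    (pow_one _).symm (by rw [one_mul, Nat.div_mul_cancel hdvd])
    (B := A.quotientToInvariants S) (A := A)
    (ofHom (A.ρ.quotientToInvariants_lift S)) b hb hcb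

/-- **Restriction of a carry class**: for `G = ⟨σ⟩` finite cyclic and a subgroup `S = ⟨τ⟩` with
`τ = σ ^ d`, `d * |τ| = |σ|`, restriction sends the carry class of `a` to the carry class
of `a`. -/
theorem rest_H2π_carryCocycle (S : Subgroup G) {σ : G} {τ : S} {ιG : G → ℕ} {ιS : S → ℕ}
    (hG : ∀ g, σ ^ ιG g = g) (hS : ∀ s, τ ^ ιS s = s) (d : ℕ) (hd : (τ : G) = σ ^ d)
    (hdn : d * orderOf τ = orderOf σ) (a : A) (ha : ∀ g, A.ρ g a = a) :
    groupCohomology.map (A := A) (B := res S.subtype A) S.subtype (𝟙 (res S.subtype A)) 2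
        (H2π A (carryCocycle A hG a ha)) =
      H2π (res S.subtype A) (carryCocycle (res S.subtype A) hS a (fun s => ha s)) := by
  have h1 : ∀ s : S, (res S.subtype A).ρ s ((1 : ℕ) • a) = (1 : ℕ) • a := by
    intro s
    rw [one_smul]
    exact ha s
  have h := map_H2π_carryCocycle S.subtype hS hG d 1 hd (by rw [one_mul, hdn])
    (B := A) (A := res S.subtype A) (𝟙 (res S.subtype A)) a ha h1
  rw [h]
  exact congrArg _ (carryCocycle_congr (res S.subtype A) hS (one_smul ℕ a) h1)

end InfRes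

section Mul

variable {G M : Type} [Group G] [CommGroup M] [MulDistribMulAction G M]

/-- The multiplicative carry cochain `(σ^i, σ^j) ↦ a ^ ⌊(i + j) / n⌋`. -/
noncomputable def mulCarry (σ : G) (ι : G → ℕ) (a : M) : G × G → M :=
  fun p => a ^ (((ι p.1 : ℤ) + ι p.2 - ι (p.1 * p.2)) / (orderOf σ : ℤ))

variable {σ : G} {ι : G → ℕ} (hι : ∀ g, σ ^ ι g = g)

lemma ofMul_smul_eq (a : M) (ha : ∀ g : G, g • a = a) (g : G) :
    (Rep.ofMulDistribMulAction G M).ρ g (Additive.ofMul a) = Additive.ofMul a :=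
  congrArg Additive.ofMul (ha g)

lemma cycNorm_ofMul (σ : G) (b : M) :
    cycNorm (Rep.ofMulDistribMulAction G M) σ (Additive.ofMul b : Additive M) =
      (Additive.ofMul (∏ i ∈ Finset.range (orderOf σ), σ ^ i • b) : Additive M) := by
  refine (cycNorm_apply _ σ _).trans ?_
  rw [ofMul_prod]
  rfl

lemma carryCocycle_ofMul (a : M) (ha : ∀ g : G, g • a = a) :
    ⇑(carryCocycle (Rep.ofMulDistribMulAction G M) hι (Additive.ofMul a)
      (ofMul_smul_eq a ha)) = Additive.ofMul ∘ mulCarry σ ι a := by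
  funext p
  rfl

include hι

theorem isMulCocycle₂_mulCarry (a : M) (ha : ∀ g : G, g • a = a) :
    IsMulCocycle₂ (mulCarry σ ι a) := by
  have h := isMulCocycle₂_of_mem_cocycles₂ _
    (carryCocycle (Rep.ofMulDistribMulAction G M) hι (Additive.ofMul a) (ofMul_smul_eq a ha)).2
  exact h

/-- The multiplicative carry cocycle of `a` is a coboundary iff `a` is a norm. -/
theorem isMulCoboundary₂_mulCarry_iff (a : M) (ha : ∀ g : G, g • a = a) :
    IsMulCoboundary₂ (mulCarry σ ι a) ↔
      ∃ b : M, a = ∏ i ∈ Finset.range (orderOf σ), σ ^ i • b := by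
  have h1 := H2π_carryCocycle_eq_zero_iff (Rep.ofMulDistribMulAction G M) hι
    (Additive.ofMul a) (ofMul_smul_eq a ha)
  rw [H2π_eq_zero_iff] at h1
  have h2 : (∃ b : Rep.ofMulDistribMulAction G M,
      Additive.ofMul a = cycNorm (Rep.ofMulDistribMulAction G M) σ b) ↔
      ∃ b : M, a = ∏ i ∈ Finset.range (orderOf σ), σ ^ i • b := by
    constructor
    · rintro ⟨b, hb⟩
      refine ⟨Additive.toMul (show Additive M from b), ?_⟩
      exact Additive.ofMul.injective
        (hb.trans (cycNorm_ofMul σ (Additive.toMul (show Additive M from b))))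
    · rintro ⟨b, hb⟩
      exact ⟨(Additive.ofMul b : Additive M),
        (congrArg Additive.ofMul hb).trans (cycNorm_ofMul σ b).symm⟩
  refine Iff.trans ?_ (h1.trans h2)
  constructor
  · intro h
    exact (coboundariesOfIsMulCoboundary₂ h).2
  · intro h
    exact isMulCoboundary₂_of_mem_coboundaries₂ _ h

/-- Class version of `isMulCoboundary₂_mulCarry_iff`. -/
theorem H2π_carryCocycle_ofMul_eq_zero_iff (a : M) (ha : ∀ g : G, g • a = a) :
    H2π (Rep.ofMulDistribMulAction G M) (carryCocycle (Rep.ofMulDistribMulAction G M) hι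
      (Additive.ofMul a) (ofMul_smul_eq a ha)) = 0 ↔
      ∃ b : M, a = ∏ i ∈ Finset.range (orderOf σ), σ ^ i • b := by
  rw [← isMulCoboundary₂_mulCarry_iff hι a ha, H2π_eq_zero_iff]
  constructor
  · intro h
    exact isMulCoboundary₂_of_mem_coboundaries₂ _ h
  · intro h
    exact (coboundariesOfIsMulCoboundary₂ h).2

omit hι in
lemma cycSum_ofMul (σ : G) (f : G × G → M) (m : ℕ) :
    cycSum (Rep.ofMulDistribMulAction G M) σ (Additive.ofMul ∘ f) m =
      (Additive.ofMul (∏ i ∈ Finset.range m, f (σ ^ i, σ)) : Additive M) := by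
  rw [ofMul_prod]
  rfl

/-- **Normal form of multiplicative 2-cocycles on a cyclic group**: the product
`∏_{i < n} f (σ ^ i, σ)` is invariant and `f` differs from its multiplicative carry cocycle by a
coboundary. -/
theorem isMulCocycle₂_normal_form {f : G × G → M} (hf : IsMulCocycle₂ f) :
    (∀ g : G, g • (∏ i ∈ Finset.range (orderOf σ), f (σ ^ i, σ)) =
        ∏ i ∈ Finset.range (orderOf σ), f (σ ^ i, σ)) ∧
      IsMulCoboundary₂
        (fun p => f p / mulCarry σ ι (∏ i ∈ Finset.range (orderOf σ), f (σ ^ i, σ)) p) := by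
  set F := cocyclesOfIsMulCocycle₂ hf with hF
  have hsum : cycSum (Rep.ofMulDistribMulAction G M) σ (⇑F) (orderOf σ) =
      (Additive.ofMul (∏ i ∈ Finset.range (orderOf σ), f (σ ^ i, σ)) : Additive M) :=
    cycSum_ofMul σ f (orderOf σ)
  have hinv : ∀ g : G, g • (∏ i ∈ Finset.range (orderOf σ), f (σ ^ i, σ)) =
      ∏ i ∈ Finset.range (orderOf σ), f (σ ^ i, σ) := by
    intro g
    have h1 := ρ_cycSum_eq_of_index ι hι (pow_orderOf_eq_one σ) F.2 g
    have h2 : (Rep.ofMulDistribMulAction G M).ρ g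
        (Additive.ofMul (∏ i ∈ Finset.range (orderOf σ), f (σ ^ i, σ)) : Additive M) =
        (Additive.ofMul (∏ i ∈ Finset.range (orderOf σ), f (σ ^ i, σ)) : Additive M) := by
      rw [← hsum]
      exact h1
    exact Additive.ofMul.injective h2
  refine ⟨hinv, ?_⟩
  have h3 := H2π_eq_H2π_carryCocycle (Rep.ofMulDistribMulAction G M) hι F
  rw [carryCocycle_congr (Rep.ofMulDistribMulAction G M) hι hsum, H2π_eq_iff] at h3
  exact isMulCoboundary₂_of_mem_coboundaries₂ _ h3

omit [MulDistribMulAction G M] in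
/-- Products over `i < orderOf σ` of a function of `σ ^ i` are products over the group. -/
lemma prod_range_orderOf_eq_prod [Fintype G] {N : Type*} [CommMonoid N] (F : G → N) :
    ∏ i ∈ Finset.range (orderOf σ), F (σ ^ i) = ∏ g : G, F g := by
  have h := sum_range_orderOf_eq_finsum hι (M := Additive N) (fun g => Additive.ofMul (F g))
  rw [finsum_eq_sum_of_fintype] at h
  apply Additive.ofMul.injective
  rw [ofMul_prod, ofMul_prod]
  exact h

end Mul

end Fermat.Agent.CFT
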