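import Fermat.Agent.CFT.Tate.InfResHigher

/-!
# Counting form of higher inflation–restriction

If `H^i(S, A) = 0` for `1 ≤ i ≤ n` and `H^{n+1}(G ⧸ S, A^S)`, `H^{n+1}(S, A)` are finite, then
`H^{n+1}(G, A)` is finite and its order divides `|H^{n+1}(S, A)| · |H^{n+1}(G ⧸ S, A^S)|`
(`HnInfRes_finite_and_card_dvd`; degree two: `H2_finite_and_card_dvd`).
-/

open CategoryTheory Limits groupCohomology Rep

namespace Fermat.Agent.CFT

universe u

/-- Counting in a left exact sequence `0 → X₁ → X₂ → X₃` of abelian groups. -/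
lemma finite_and_card_of_leftExact {X₁ X₂ X₃ : Type*} [AddCommGroup X₁] [AddCommGroup X₂]
    [AddCommGroup X₃] [Finite X₁] [Finite X₃] (f : X₁ →+ X₂) (g : X₂ →+ X₃)
    (hf : Function.Injective f) (hz : ∀ y, g (f y) = 0) (hex : ∀ x, g x = 0 → ∃ y, f y = x) :
    Finite X₂ ∧ Nat.card X₂ = Nat.card g.range * Nat.card X₁ := by
  have hker : g.ker = f.range := by
    ext x
    constructor
    · intro hx
      obtain ⟨y, rfl⟩ := hex x hx
      exact ⟨y, rfl⟩
    · rintro ⟨y, rfl⟩
      exact hz y
  have h1 : Nat.card g.ker = Nat.card X₁ := by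
    rw [hker]
    exact Nat.card_congr (Equiv.ofInjective f hf).symm
  have h2 : Nat.card (X₂ ⧸ g.ker) = Nat.card g.range :=
    Nat.card_congr (QuotientAddGroup.quotientKerEquivRange g).toEquiv
  have h3 : Nat.card X₂ = Nat.card g.range * Nat.card X₁ := by
    rw [AddSubgroup.card_eq_card_quotient_mul_card_addSubgroup g.ker, h1, h2]
  refine ⟨?_, h3⟩
  have hpos : 0 < Nat.card X₂ := by
    rw [h3]
    exact Nat.mul_pos Nat.card_pos Nat.card_pos
  exact (Nat.card_pos_iff.1 hpos).2

variable {k G : Type u} [CommRing k] [Group G] (A : Rep k G) (S : Subgroup G) [S.Normal]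

/-- Elementwise form: inflation followed by restriction vanishes in positive degrees. -/
theorem HnInfRes_g_f_apply (n : ℕ) (y : groupCohomology (A.quotientToInvariants S) (n + 1)) :
    (HnInfRes A S n).g.hom ((HnInfRes A S n).f.hom y) = 0 := by
  have := congrArg (fun φ => φ.hom y) (HnInfRes A S n).zero
  simpa using this

/-- Counting form of higher inflation–restriction. -/
theorem HnInfRes_finite_and_card_dvd (n : ℕ)
    (h : ∀ i, i < n → IsZero (groupCohomology (res S.subtype A) (i + 1)))
    [Finite (groupCohomology (A.quotientToInvariants S) (n + 1))]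
    [Finite (groupCohomology (res S.subtype A) (n + 1))] :
    Finite (groupCohomology A (n + 1)) ∧
      Nat.card (groupCohomology A (n + 1)) ∣
        Nat.card (groupCohomology (res S.subtype A) (n + 1)) *
          Nat.card (groupCohomology (A.quotientToInvariants S) (n + 1)) := by
  have : Finite ((HnInfRes A S n).X₁) :=
    inferInstanceAs (Finite (groupCohomology (A.quotientToInvariants S) (n + 1)))
  have : Finite ((HnInfRes A S n).X₃) :=
    inferInstanceAs (Finite (groupCohomology (res S.subtype A) (n + 1)))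
  obtain ⟨hfin, hcard⟩ := finite_and_card_of_leftExact
    (HnInfRes A S n).f.hom.toAddMonoidHom (HnInfRes A S n).g.hom.toAddMonoidHom
    (HnInfRes_f_injective A S n h) (HnInfRes_g_f_apply A S n)
    (HnInfRes_exists_of_g_eq_zero A S n h)
  refine ⟨hfin, ?_⟩
  have hcard' : Nat.card (groupCohomology A (n + 1)) =
      Nat.card ((HnInfRes A S n).g.hom.toAddMonoidHom).range *
        Nat.card (groupCohomology (A.quotientToInvariants S) (n + 1)) := hcard
  rw [hcard']
  exact Nat.mul_dvd_mul_right
    (AddSubgroup.card_addSubgroup_dvd_card ((HnInfRes A S n).g.hom.toAddMonoidHom).range) _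

/-- Degree two: if `H¹(S, A) = 0` and `H²(G ⧸ S, A^S)`, `H²(S, A)` are finite then `H²(G, A)` is
finite and `|H²(G, A)|` divides `|H²(S, A)| · |H²(G ⧸ S, A^S)|`. -/
theorem H2_finite_and_card_dvd (h1 : IsZero (groupCohomology (res S.subtype A) 1))
    [Finite (groupCohomology (A.quotientToInvariants S) 2)]
    [Finite (groupCohomology (res S.subtype A) 2)] :
    Finite (groupCohomology A 2) ∧
      Nat.card (groupCohomology A 2) ∣
        Nat.card (groupCohomology (res S.subtype A) 2) *
          Nat.card (groupCohomology (A.quotientToInvariants S) 2) :=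
  HnInfRes_finite_and_card_dvd A S 1 (isZero_of_lt_one A S h1)

end Fermat.Agent.CFT
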