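import Fermat.Agent.CFT.Tate.InfResHigher

/-!
# Comparison of two layers (the Artin–Tate argument)

`G` a finite group, `A : Rep k G`, `N`, `N'` normal subgroups with `H¹(N, A) = H¹(N', A) = 0`.
Suppose `|H²(G ⧸ N, A^N)| ≤ n` and `u' ∈ H²(G ⧸ N', A^{N'})` has order `n` and its inflation to
`G` restricts to `0` on `N`.  Then `inf u'` is the inflation of a class `u ∈ H²(G ⧸ N, A^N)` of
order `n`, which generates `H²(G ⧸ N, A^N)`; in particular that group is cyclic of order `n`.

This is the abstract form of the classical argument constructing the fundamental class of an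
arbitrary layer `L/K` from a cyclic (cyclotomic) layer `L'/K` of the same degree.
-/

open CategoryTheory Limits groupCohomology Rep

namespace Fermat.Agent.CFT

universe u

variable {k G : Type u} [CommRing k] [Group G] (A : Rep k G)

/-- An element of order `n` in a finite additive group of cardinality at most `n` generates. -/
lemma mem_zmultiples_of_addOrderOf_eq {M : Type*} [AddCommGroup M] [Finite M] (u : M) (n : ℕ)
    (hcard : Nat.card M ≤ n) (hu : addOrderOf u = n) (x : M) : x ∈ AddSubgroup.zmultiples u := by
  have h1 : Nat.card (AddSubgroup.zmultiples u) = n := by rw [Nat.card_zmultiples, hu]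
  have h2 : AddSubgroup.zmultiples u = ⊤ := by
    apply AddSubgroup.eq_top_of_le_card
    rw [h1]
    exact hcard
  rw [h2]
  exact AddSubgroup.mem_top x

/-- **Layer comparison**. -/
theorem exists_generator_of_layer_compare (N N' : Subgroup G) [N.Normal] [N'.Normal]
    (h1 : IsZero (groupCohomology (res N.subtype A) 1))
    (h1' : IsZero (groupCohomology (res N'.subtype A) 1)) (n : ℕ)
    [Finite (groupCohomology (A.quotientToInvariants N) 2)]
    (hcard : Nat.card (groupCohomology (A.quotientToInvariants N) 2) ≤ n)
    (u' : groupCohomology (A.quotientToInvariants N') 2) (hord : addOrderOf u' = n)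
    (hres : (HnInfRes A N 1).g.hom ((HnInfRes A N' 1).f.hom u') = 0) :
    ∃ u : groupCohomology (A.quotientToInvariants N) 2,
      (HnInfRes A N 1).f.hom u = (HnInfRes A N' 1).f.hom u' ∧ addOrderOf u = n ∧
        ∀ x, x ∈ AddSubgroup.zmultiples u := by
  obtain ⟨u, hu⟩ := H2_exists_inf_of_res_eq_zero A N h1 _ hres
  have hinj := H2Inf_injective A N h1
  have hinj' := H2Inf_injective A N' h1'
  have ho : addOrderOf u = n := by
    have e1 : addOrderOf ((HnInfRes A N 1).f.hom u) = addOrderOf u :=
      addOrderOf_injective (HnInfRes A N 1).f.hom.toAddMonoidHom hinj u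
    have e2 : addOrderOf ((HnInfRes A N' 1).f.hom u') = addOrderOf u' :=
      addOrderOf_injective (HnInfRes A N' 1).f.hom.toAddMonoidHom hinj' u'
    exact e1.symm.trans ((congrArg addOrderOf hu).trans (e2.trans hord))
  exact ⟨u, hu, ho, mem_zmultiples_of_addOrderOf_eq u n hcard ho⟩

end Fermat.Agent.CFT
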