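import Fermat.Agent.CFT.Tate.SplittingModule
import Fermat.Agent.CFT.Tate.DimShift
import Fermat.Agent.CFT.Tate.ResCores

/-!
# Cohomology of the splitting module

For a finite group `G`, `C : Rep ℤ G` and a 2-cocycle `φ` with class `u`, we compute with the two
short exact sequences `0 → I_G → ℤ[G] → ℤ → 0` and `0 → C → C(φ) → I_G → 0` restricted to a
subgroup `H`:

* `ℤ[G]` is coinduced (`isCoinducedRep_lregRep`);
* `H¹(H, I_G)` is generated by the class of `h ↦ [h] - [1]` (`exists_smul_eq_H1_res_augRep`),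
  and `H²(H, I_G) = 0` (`isZero_H2_res_augRep_int`);
* the connecting map `H¹(H, I_G) → H²(H, C)` sends this generator to `res_H u`
  (`δ₁_augCocycleRes`);
* hence `H¹(H, C(φ)) = 0` if `H¹(H, C) = 0` and `res_H u` has order `|H|`
  (`isZero_H1_res_splitRep`), and `H²(H, C(φ)) = 0` if `res_H u` generates `H²(H, C)`
  (`isZero_H2_res_splitRep`).
-/

set_option autoImplicit false
set_option linter.unusedSectionVars false

open CategoryTheory Limits groupCohomology Rep

namespace Fermat.Agent.CFT

universe u

section Coind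

variable (k G : Type u) [CommRing k] [Group G] [Finite G]

/-- `k[G] ≃ Fun(G, k)`, `y ↦ (x ↦ y x⁻¹)`. -/
noncomputable def lregLinearEquivFun : (G →₀ k) ≃ₗ[k] (G → k) :=
  (Finsupp.linearEquivFunOnFinite k k G).trans (LinearEquiv.funCongrLeft k k (Equiv.inv G))

lemma lregLinearEquivFun_apply (y : G →₀ k) (x : G) :
    lregLinearEquivFun k G y x = y x⁻¹ := rfl

/-- For finite `G`, `k[G] ≅ Fun(G, k)`. -/
noncomputable def lregRepIsoFunRep : lregRep k G ≅ funRep k G k :=
  Rep.mkIso (Representation.Equiv.mk (lregLinearEquivFun k G) (fun g => by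
    apply Finsupp.lhom_ext'
    intro x
    apply LinearMap.ext_ring
    funext z
    have h : g * x = z⁻¹ ↔ x = g⁻¹ * z⁻¹ := by
      rw [eq_inv_mul_iff_mul_eq]
    simp only [lregLinearEquivFun_apply, LinearMap.coe_comp, LinearEquiv.coe_coe,
      Function.comp_apply, Finsupp.lsingle_apply, lregRepresentation_single,
      funRepresentation_apply, mul_inv_rev]
    classical
    rw [Finsupp.single_apply, Finsupp.single_apply]
    simp only [h]))

lemma isCoinducedRep_lregRep : IsCoinducedRep (lregRep k G) :=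
  ⟨k, _, _, ⟨lregRepIsoFunRep k G⟩⟩

end Coind

section ResSeq

variable (k G : Type u) [CommRing k] [Group G]

/-- The restriction of `0 → I_G → k[G] → k → 0` to a subgroup. -/
noncomputable abbrev augResSC (H : Subgroup G) : ShortComplex (Rep k H) where
  X₁ := res H.subtype (augRep k G)
  X₂ := res H.subtype (lregRep k G)
  X₃ := res H.subtype (trivial k G k)
  f := (resFunctor H.subtype).map (augShortComplex k G).f
  g := (resFunctor H.subtype).map (augShortComplex k G).g
  zero := ((augShortComplex k G).map (resFunctor H.subtype)).zero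

lemma augResSC_shortExact (H : Subgroup G) : (augResSC k G H).ShortExact :=
  shortExact_map_resFunctor H (augShortComplex_shortExact k G)

/-- The element `[g] - [1]` of the augmentation ideal. -/
noncomputable def augElt (g : G) : augSubmodule k G :=
  ⟨Finsupp.single g 1 - Finsupp.single 1 1, by
    simp [augSubmodule, LinearMap.mem_ker]⟩

@[simp]
lemma augElt_coe (g : G) :
    ((augElt k G g : augSubmodule k G) : G →₀ k) = Finsupp.single g 1 - Finsupp.single 1 1 := rfl

lemma augResSC_f_comp (H : Subgroup G) :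
    (augResSC k G H).f.hom ∘ (fun h : H => augElt k G (h : G)) =
      d₀₁ (augResSC k G H).X₂ (Finsupp.single 1 1 : G →₀ k) := by
  funext h
  show ((augElt k G (h : G) : augSubmodule k G) : G →₀ k) =
    lregRepresentation k G (h : G) (Finsupp.single 1 1) - Finsupp.single 1 1
  simp

/-- The 1-cocycle `h ↦ [h] - [1]` of `H` with values in `I_G`. -/
noncomputable def augCocycleRes (H : Subgroup G) : cocycles₁ (res H.subtype (augRep k G)) :=
  ⟨fun h : H => augElt k G (h : G),
    mem_cocycles₁_of_comp_eq_d₀₁ (augResSC_shortExact k G H) (augResSC_f_comp k G H)⟩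

@[simp]
lemma augCocycleRes_apply (H : Subgroup G) (h : H) :
    augCocycleRes k G H h = augElt k G (h : G) := rfl

/-- `1 : k` as an `H`-invariant of the trivial representation. -/
def oneInvariantRes (H : Subgroup G) : (augResSC k G H).X₃.ρ.invariants :=
  ⟨(1 : k), fun _ => rfl⟩

lemma δ₀_oneInvariantRes (H : Subgroup G) :
    δ (augResSC_shortExact k G H) 0 1 rfl ((H0Iso (augResSC k G H).X₃).inv (oneInvariantRes k G H)) =
      H1π (res H.subtype (augRep k G)) (augCocycleRes k G H) :=
  δ₀_apply (augResSC_shortExact k G H) (oneInvariantRes k G H) (Finsupp.single 1 1 : G →₀ k)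
    (augLin_single k G 1 1) _ (augResSC_f_comp k G H)

lemma exists_smul_eq_H1_res_augRep [Finite G] (H : Subgroup G)
    (c : groupCohomology (res H.subtype (augRep k G)) 1) :
    ∃ r : k, c = r • H1π (res H.subtype (augRep k G)) (augCocycleRes k G H) := by
  have hX := augResSC_shortExact k G H
  have h0 : IsZero (groupCohomology (augResSC k G H).X₂ 1) :=
    ((isCoinducedRep_lregRep k G).res H).isZero_groupCohomology 0
  have hepi := epi_δ_of_isZero hX 0 h0
  have hsurj := (ModuleCat.epi_iff_surjective _).1 hepi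
  obtain ⟨w, hw⟩ := hsurj c
  obtain ⟨z, rfl⟩ : ∃ z, (H0Iso (augResSC k G H).X₃).inv z = w :=
    ⟨(H0Iso (augResSC k G H).X₃).hom w, by simp⟩
  obtain ⟨r, hr⟩ : ∃ r : k, r = z.1 := ⟨z.1, rfl⟩
  have hz : z = r • oneInvariantRes k G H := by
    apply Subtype.ext
    show z.1 = r • (1 : k)
    rw [← hr]
    exact (mul_one r).symm
  refine ⟨r, ?_⟩
  rw [← hw, hz, map_smul, map_smul, δ₀_oneInvariantRes]

end ResSeq

section SplitRes

variable {k G : Type u} [CommRing k] [Group G] (C : Rep.{u} k G) (φ : cocycles₂ C)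

/-- The restriction of `0 → C → C(φ) → I_G → 0` to a subgroup. -/
noncomputable abbrev splitResSC (H : Subgroup G) : ShortComplex (Rep k H) where
  X₁ := res H.subtype C
  X₂ := res H.subtype (splitRep C φ)
  X₃ := res H.subtype (augRep k G)
  f := (resFunctor H.subtype).map (splitShortComplex C φ).f
  g := (resFunctor H.subtype).map (splitShortComplex C φ).g
  zero := ((splitShortComplex C φ).map (resFunctor H.subtype)).zero

lemma splitResSC_shortExact (H : Subgroup G) : (splitResSC C φ H).ShortExact :=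
  shortExact_map_resFunctor H (splitShortComplex_shortExact C φ)

/-- The lift `h ↦ (φ(1,1), [h] - [1])` of the cocycle `h ↦ [h] - [1]` to `C(φ)`. -/
noncomputable def splitLiftRes (H : Subgroup G) : H → (splitResSC C φ H).X₂ :=
  fun h => (((φ : G × G → C) (1, 1), augElt k G (h : G)) : C.V × augSubmodule k G)

lemma splitResSC_g_comp (H : Subgroup G) :
    (splitResSC C φ H).g.hom ∘ splitLiftRes C φ H = augCocycleRes k G H := rfl

lemma splitResSC_f_comp (H : Subgroup G) :
    (splitResSC C φ H).f.hom ∘ (fun p : H × H => (φ : G × G → C) ((p.1 : G), (p.2 : G))) =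
      d₁₂ (splitResSC C φ H).X₂ (splitLiftRes C φ H) := by
  funext ⟨h, h'⟩
  show (((φ : G × G → C) ((h : G), (h' : G)), 0) : C.V × augSubmodule k G) =
    splitRepresentation C φ (h : G) ((φ : G × G → C) (1, 1), augElt k G (h' : G)) -
      ((φ : G × G → C) (1, 1), augElt k G ((h : G) * (h' : G))) +
      ((φ : G × G → C) (1, 1), augElt k G (h : G))
  rw [splitRepresentation_apply]
  have h1 := cocycles₂_map_one_snd φ (h : G)
  refine Prod.ext ?_ ?_
  · simp only [Prod.fst_sub, Prod.fst_add, augElt_coe, map_sub, splitPhi_single, one_smul, h1]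
    abel
  · apply Subtype.ext
    simp

lemma δ₁_augCocycleRes (H : Subgroup G) :
    δ (splitResSC_shortExact C φ H) 1 2 rfl
        (H1π (res H.subtype (augRep k G)) (augCocycleRes k G H)) =
      resCoh H C 2 (H2π C φ) := by
  have h0 := δ₁_apply (splitResSC_shortExact C φ H) (augCocycleRes k G H) (splitLiftRes C φ H)
    (splitResSC_g_comp C φ H) _ (splitResSC_f_comp C φ H)
  have h := H2π_comp_map_apply H.subtype (𝟙 (res H.subtype C)) φ
  refine h0.trans (Eq.trans ?_ h.symm)
  congr 1

end SplitRes

section LES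

variable {k G : Type u} [CommRing k] [Group G] {X : ShortComplex (Rep k G)} (hX : X.ShortExact)

include hX

/-- Elementwise exactness of `Hⁱ(X₁) → Hⁱ(X₂) → Hⁱ(X₃)`. -/
lemma les_exact₂ (i : ℕ) (x : groupCohomology X.X₂ i)
    (hx : groupCohomology.map (MonoidHom.id G) X.g i x = 0) :
    ∃ y : groupCohomology X.X₁ i, groupCohomology.map (MonoidHom.id G) X.f i y = x :=
  (ShortComplex.moduleCat_exact_iff _).1 (mapShortComplex₂_exact hX i) x hx

/-- Elementwise exactness of `Hⁱ(X₂) → Hⁱ(X₃) → Hⁱ⁺¹(X₁)`. -/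
lemma les_exact₃ (i j : ℕ) (hij : i + 1 = j) (x : groupCohomology X.X₃ i)
    (hx : δ hX i j hij x = 0) :
    ∃ y : groupCohomology X.X₂ i, groupCohomology.map (MonoidHom.id G) X.g i y = x :=
  (ShortComplex.moduleCat_exact_iff _).1 (mapShortComplex₃_exact hX hij) x hx

/-- Elementwise exactness of `Hⁱ(X₃) → Hⁱ⁺¹(X₁) → Hⁱ⁺¹(X₂)`. -/
lemma les_exact₁ (i j : ℕ) (hij : i + 1 = j) (x : groupCohomology X.X₁ j)
    (hx : groupCohomology.map (MonoidHom.id G) X.f j x = 0) :
    ∃ y : groupCohomology X.X₃ i, δ hX i j hij y = x :=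
  (ShortComplex.moduleCat_exact_iff _).1 (mapShortComplex₁_exact hX hij) x hx

lemma les_δ_comp (i j : ℕ) (hij : i + 1 = j) (x : groupCohomology X.X₃ i) :
    groupCohomology.map (MonoidHom.id G) X.f j (δ hX i j hij x) = 0 := by
  have h := (mapShortComplex₁ hX hij).zero
  exact congrArg (fun f => f.hom x) h

lemma les_comp_δ (i j : ℕ) (hij : i + 1 = j) (x : groupCohomology X.X₂ i) :
    δ hX i j hij (groupCohomology.map (MonoidHom.id G) X.g i x) = 0 := by
  have h := (mapShortComplex₃ hX hij).zero
  exact congrArg (fun f => f.hom x) h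

end LES

section TateInt

variable {G : Type} [Group G] [Finite G]

lemma H1_res_trivial_int_eq_zero (H : Subgroup G)
    (x : H1 (res H.subtype (trivial ℤ G ℤ))) : x = 0 := by
  induction x using H1_induction_on with
  | h f =>
    have hf : ∀ g h : H, f (g * h) = f h + f g := fun g h => (mem_cocycles₁_iff f).1 f.2 g h
    have hpow : ∀ (g : H) (n : ℕ), f (g ^ n) = n • f g := by
      intro g n
      induction n with
      | zero => simp
      | succ n ih => rw [pow_succ, hf, ih, succ_nsmul, add_comm]
    have h0 : ∀ g : H, f g = 0 := by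
      intro g
      have h := hpow g (Nat.card H)
      rw [pow_card_eq_one', cocycles₁_map_one] at h
      exact (smul_eq_zero.1 h.symm).resolve_left Nat.card_pos.ne'
    have hf0 : f = 0 := Subtype.ext (funext h0)
    rw [hf0, map_zero]

lemma isZero_H1_res_trivial_int (H : Subgroup G) :
    IsZero (groupCohomology (res H.subtype (trivial ℤ G ℤ)) 1) := by
  rw [ModuleCat.isZero_iff_subsingleton]
  exact ⟨fun x y => (H1_res_trivial_int_eq_zero H x).trans (H1_res_trivial_int_eq_zero H y).symm⟩

lemma isZero_H2_res_augRep_int (H : Subgroup G) :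
    IsZero (groupCohomology (res H.subtype (augRep ℤ G)) 2) := by
  have hX := augResSC_shortExact ℤ G H
  have h2 : IsZero (groupCohomology (augResSC ℤ G H).X₂ 2) :=
    ((isCoinducedRep_lregRep ℤ G).res H).isZero_groupCohomology 1
  rw [ModuleCat.isZero_iff_subsingleton]
  refine ⟨fun x y => ?_⟩
  have key : ∀ x : groupCohomology (res H.subtype (augRep ℤ G)) 2, x = 0 := by
    intro x
    obtain ⟨y, hy⟩ := les_exact₁ hX 1 2 rfl x
      ((ModuleCat.subsingleton_of_isZero h2).elim _ _)
    have hy0 : y = 0 := H1_res_trivial_int_eq_zero H y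
    rw [← hy, hy0, map_zero]
  rw [key x, key y]

lemma exists_zsmul_eq_H1_res_augRep_int (H : Subgroup G)
    (c : groupCohomology (res H.subtype (augRep ℤ G)) 1) :
    ∃ n : ℤ, c = n • H1π (res H.subtype (augRep ℤ G)) (augCocycleRes ℤ G H) := by
  obtain ⟨n, hn⟩ := exists_smul_eq_H1_res_augRep ℤ G H c
  exact ⟨n, hn.trans (int_smul_eq_zsmul _ n _)⟩

variable (C : Rep ℤ G) (φ : cocycles₂ C)

lemma isZero_H1_res_splitRep (H : Subgroup G)
    (h1 : IsZero (groupCohomology (res H.subtype C) 1))
    (hord : addOrderOf (resCoh H C 2 (H2π C φ)) = Nat.card H) :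
    IsZero (groupCohomology (res H.subtype (splitRep C φ)) 1) := by
  have hX := splitResSC_shortExact C φ H
  rw [ModuleCat.isZero_iff_subsingleton]
  have key : ∀ x : groupCohomology (res H.subtype (splitRep C φ)) 1, x = 0 := by
    intro x
    obtain ⟨n, hn⟩ := exists_zsmul_eq_H1_res_augRep_int H
      (groupCohomology.map (MonoidHom.id H) (splitResSC C φ H).g 1 x)
    have hδ := les_comp_δ hX 1 2 rfl x
    rw [hn, map_zsmul, δ₁_augCocycleRes] at hδ
    have hdvd : (Nat.card H : ℤ) ∣ n := by
      rw [← hord]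
      exact addOrderOf_dvd_iff_zsmul_eq_zero.2 hδ
    obtain ⟨m, rfl⟩ := hdvd
    have hgx0 : groupCohomology.map (MonoidHom.id H) (splitResSC C φ H).g 1 x = 0 := by
      rw [hn, mul_comm, mul_zsmul, natCast_zsmul, card_nsmul_groupCohomology_eq_zero, zsmul_zero]
    obtain ⟨y, hy⟩ := les_exact₂ hX 1 x hgx0
    have hy0 : y = 0 := (ModuleCat.subsingleton_of_isZero h1).elim _ _
    rw [← hy, hy0, map_zero]
  exact ⟨fun x y => (key x).trans (key y).symm⟩

lemma isZero_H2_res_splitRep (H : Subgroup G)
    (hgen : ∀ x : groupCohomology (res H.subtype C) 2,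
      x ∈ AddSubgroup.zmultiples (resCoh H C 2 (H2π C φ))) :
    IsZero (groupCohomology (res H.subtype (splitRep C φ)) 2) := by
  have hX := splitResSC_shortExact C φ H
  rw [ModuleCat.isZero_iff_subsingleton]
  have key : ∀ x : groupCohomology (res H.subtype (splitRep C φ)) 2, x = 0 := by
    intro x
    have hgx0 : groupCohomology.map (MonoidHom.id H) (splitResSC C φ H).g 2 x = 0 :=
      (ModuleCat.subsingleton_of_isZero (isZero_H2_res_augRep_int H)).elim _ _
    obtain ⟨w, hw⟩ := les_exact₂ hX 2 x hgx0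
    obtain ⟨n, hn⟩ := AddSubgroup.mem_zmultiples_iff.1 (hgen w)
    rw [← hw, ← hn, ← δ₁_augCocycleRes, ← map_zsmul, les_δ_comp]
  exact ⟨fun x y => (key x).trans (key y).symm⟩

end TateInt

end Fermat.Agent.CFT
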