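import Mathlib

/-!
# The splitting module of a 2-cocycle (Tate)

For a group `G`, a representation `C : Rep k G` and a 2-cocycle `φ`, the splitting module
`C(φ) = C ⊕ I_G` (with `I_G` the augmentation ideal of `k[G]`) carries the twisted action
`σ • (c, y) = (σ c + Φ_σ y, σ y)`, `Φ_σ (∑ y_τ [τ]) = ∑ y_τ φ(σ, τ)`.
There are short exact sequences `0 → C → C(φ) → I_G → 0` and `0 → I_G → k[G] → k → 0`.
-/

set_option autoImplicit false
set_option linter.unusedSectionVars false

open CategoryTheory Limits groupCohomology Rep

namespace Fermat.Agent.CFT

universe u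

section Aug

variable (k G : Type u) [CommRing k] [Group G]

/-- The left regular representation of `G` on `G →₀ k`. -/
noncomputable def lregRepresentation : Representation k G (G →₀ k) where
  toFun g := Finsupp.lmapDomain k k (g * ·)
  map_one' := by ext; simp
  map_mul' x y := by ext; simp [mul_assoc]

@[simp]
lemma lregRepresentation_single (g x : G) (r : k) :
    lregRepresentation k G g (Finsupp.single x r) = Finsupp.single (g * x) r := by
  simp [lregRepresentation]

/-- `k[G]` (as `G →₀ k`) with the left regular representation. -/
noncomputable def lregRep : Rep k G := Rep.of (lregRepresentation k G)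

/-- The augmentation `k[G] → k` as a linear map on `G →₀ k`. -/
noncomputable def augLin : (G →₀ k) →ₗ[k] k := Finsupp.linearCombination k (fun _ : G => (1 : k))

@[simp]
lemma augLin_single (g : G) (r : k) : augLin k G (Finsupp.single g r) = r := by
  simp [augLin]

lemma augLin_lreg (g : G) (y : G →₀ k) :
    augLin k G (lregRepresentation k G g y) = augLin k G y := by
  induction y using Finsupp.induction_linear with
  | zero => simp
  | add a b ha hb => simp only [map_add, ha, hb]
  | single x r => simp

/-- The augmentation as a morphism of representations `k[G] ⟶ k`. -/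
noncomputable def augHom : lregRep k G ⟶ trivial k G k :=
  Rep.ofHom ⟨augLin k G, fun g => by
    ext y
    simp⟩

/-- The augmentation ideal, as a submodule of `G →₀ k`. -/
noncomputable def augSubmodule : Submodule k (G →₀ k) := LinearMap.ker (augLin k G)

lemma augSubmodule_le_comap (g : G) :
    augSubmodule k G ≤ (augSubmodule k G).comap (lregRepresentation k G g) := by
  intro y hy
  rw [Submodule.mem_comap, augSubmodule, LinearMap.mem_ker, augLin_lreg]
  exact hy

/-- The representation of `G` on the augmentation ideal. -/
noncomputable def augRepresentation : Representation k G (augSubmodule k G) :=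
  (lregRepresentation k G).subrepresentation (augSubmodule k G) (augSubmodule_le_comap k G)

@[simp]
lemma augRepresentation_coe (σ : G) (y : augSubmodule k G) :
    ((augRepresentation k G σ y : augSubmodule k G) : G →₀ k) =
      lregRepresentation k G σ (y : G →₀ k) := rfl

/-- The augmentation ideal `I_G` as a representation. -/
noncomputable def augRep : Rep k G := Rep.of (X := augSubmodule k G) (augRepresentation k G)

/-- The short complex `0 → I_G → k[G] → k → 0`. -/
noncomputable def augShortComplex : ShortComplex (Rep k G) where
  X₁ := augRep k G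
  X₂ := lregRep k G
  X₃ := trivial k G k
  f := Rep.ofHom ⟨(augSubmodule k G).subtype, fun _ => rfl⟩
  g := augHom k G
  zero := by
    ext x
    exact x.2

lemma augShortComplex_shortExact : (augShortComplex k G).ShortExact where
  exact := (forget₂ (Rep k G) (ModuleCat k)).reflects_exact_of_faithful _ <|
    (ShortComplex.moduleCat_exact_iff _).2 fun x hx => ⟨⟨x, hx⟩, rfl⟩
  mono_f := (Rep.mono_iff_injective _).2 fun _ _ h => Subtype.ext h
  epi_g := (Rep.epi_iff_surjective _).2 fun r => ⟨Finsupp.single 1 r, augLin_single k G 1 r⟩

end Aug

section Split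

variable {k G : Type u} [CommRing k] [Group G] (C : Rep.{u} k G) (φ : cocycles₂ C)

/-- The linear map `Φ_σ : k[G] → C`, `[τ] ↦ φ(σ, τ)`. -/
noncomputable def splitPhi (σ : G) : (G →₀ k) →ₗ[k] C.V :=
  Finsupp.linearCombination k (fun τ : G => (φ : G × G → C) (σ, τ))

@[simp]
lemma splitPhi_single (σ τ : G) (r : k) :
    splitPhi C φ σ (Finsupp.single τ r) = r • (φ : G × G → C) (σ, τ) := by
  simp [splitPhi]

lemma splitPhi_one (y : G →₀ k) :
    splitPhi C φ 1 y = augLin k G y • (φ : G × G → C) (1, 1) := by
  induction y using Finsupp.induction_linear with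
  | zero => simp
  | add a b ha hb => simp only [map_add, ha, hb, add_smul]
  | single x r => simp [cocycles₂_map_one_fst]

lemma splitPhi_mul (σ ρ : G) (y : G →₀ k) :
    splitPhi C φ (σ * ρ) y + augLin k G y • (φ : G × G → C) (σ, ρ) =
      C.ρ σ (splitPhi C φ ρ y) + splitPhi C φ σ (lregRepresentation k G ρ y) := by
  induction y using Finsupp.induction_linear with
  | zero => simp
  | add a b ha hb =>
    simp only [map_add, add_smul]
    rw [add_add_add_comm, ha, hb, add_add_add_comm]
  | single x r =>
    simp only [splitPhi_single, augLin_single, lregRepresentation_single, map_smul]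
    rw [← smul_add, ← smul_add, (mem_cocycles₂_iff (φ : G × G → C)).1 φ.2 σ ρ x]

/-- The action of `σ` on the splitting module `C × I_G`. -/
noncomputable def splitAct (σ : G) :
    (C.V × augSubmodule k G) →ₗ[k] (C.V × augSubmodule k G) :=
  ((C.ρ σ).coprod (splitPhi C φ σ ∘ₗ (augSubmodule k G).subtype)).prod
    (augRepresentation k G σ ∘ₗ LinearMap.snd k C.V (augSubmodule k G))

lemma splitAct_apply (σ : G) (p : C.V × augSubmodule k G) :
    splitAct C φ σ p =
      (C.ρ σ p.1 + splitPhi C φ σ (p.2 : G →₀ k), augRepresentation k G σ p.2) := rfl

/-- The splitting module `C(φ)` as a representation on `C × I_G`. -/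
noncomputable def splitRepresentation : Representation k G (C.V × augSubmodule k G) where
  toFun σ := splitAct C φ σ
  map_one' := by
    ext p
    · simp [splitAct_apply]
    · simp [splitAct_apply]
    · have h0 : augLin k G (p : G →₀ k) = 0 := p.2
      simp [splitAct_apply, splitPhi_one, h0]
    · simp [splitAct_apply]
  map_mul' σ ρ := by
    apply LinearMap.ext
    intro p
    have h0 : augLin k G (p.2 : G →₀ k) = 0 := p.2.2
    have h := splitPhi_mul C φ σ ρ (p.2 : G →₀ k)
    rw [h0, zero_smul, add_zero] at h
    simp only [splitAct_apply, Module.End.mul_apply, map_mul, map_add, augRepresentation_coe, h]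
    refine Prod.ext ?_ rfl
    simp only [add_assoc]

/-- The splitting module `C(φ)`. -/
noncomputable def splitRep : Rep k G :=
  Rep.of (X := C.V × augSubmodule k G) (splitRepresentation C φ)

lemma splitRepresentation_apply (σ : G) (p : C.V × augSubmodule k G) :
    splitRepresentation C φ σ p =
      (C.ρ σ p.1 + splitPhi C φ σ (p.2 : G →₀ k), augRepresentation k G σ p.2) := rfl

/-- The inclusion `C → C(φ)` as an intertwining map. -/
noncomputable def splitInlMap : Representation.IntertwiningMap C.ρ (splitRepresentation C φ) where
  toLinearMap := LinearMap.inl k C.V (augSubmodule k G)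
  isIntertwining' σ := by
    apply LinearMap.ext
    intro c
    simp [splitRepresentation_apply]

/-- The projection `C(φ) → I_G` as an intertwining map. -/
noncomputable def splitSndMap :
    Representation.IntertwiningMap (splitRepresentation C φ) (augRepresentation k G) where
  toLinearMap := LinearMap.snd k C.V (augSubmodule k G)
  isIntertwining' σ := by
    apply LinearMap.ext
    intro p
    rfl

/-- The inclusion `C ⟶ C(φ)`. -/
noncomputable def splitInl : C ⟶ splitRep C φ := Rep.ofHom (splitInlMap C φ)

/-- The projection `C(φ) ⟶ I_G`. -/
noncomputable def splitSnd : splitRep C φ ⟶ augRep k G := Rep.ofHom (splitSndMap C φ)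

lemma splitInl_hom_apply (c : C.V) :
    (splitInl C φ).hom c = ((c, 0) : C.V × augSubmodule k G) := rfl

lemma splitSnd_hom_apply (p : C.V × augSubmodule k G) : (splitSnd C φ).hom p = p.2 := rfl

/-- The short complex `0 → C → C(φ) → I_G → 0`. -/
noncomputable def splitShortComplex : ShortComplex (Rep k G) where
  X₁ := C
  X₂ := splitRep C φ
  X₃ := augRep k G
  f := splitInl C φ
  g := splitSnd C φ
  zero := by
    ext c
    rfl

lemma splitShortComplex_shortExact : (splitShortComplex C φ).ShortExact where
  exact := (forget₂ (Rep k G) (ModuleCat k)).reflects_exact_of_faithful _ <|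
    (ShortComplex.moduleCat_exact_iff _).2 fun (x : C.V × augSubmodule k G) hx =>
      ⟨x.1, Prod.ext rfl (hx : x.2 = 0).symm⟩
  mono_f := (Rep.mono_iff_injective _).2 fun _ _ h => congrArg Prod.fst h
  epi_g := (Rep.epi_iff_surjective _).2 fun y => ⟨((0 : C.V), y), rfl⟩

end Split

end Fermat.Agent.CFT
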