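import Fermat.Agent.CFT.Tate.SplitCoh
import Fermat.Agent.CFT.Tate.CohTrivFinal

/-!
# Tate's theorem and the Nakayama map

`G` a finite group, `C : Rep ℤ G`, `φ` a 2-cocycle which is *fundamental* (`IsFundCocycle`): for
every subgroup `H`, the restriction of its class to `H` has order `|H|` and generates `H²(H, C)`.
If moreover `H¹(H, C) = 0` for all `H`, then

* the splitting module `C(φ)` is cohomologically trivial (`splitRep_cohTriv`);
* `H³(H, C) = 0` for all `H` (`tate_isZero_H3_of_fundCocycle`);
* the Nakayama map `σ ↦ ∑_τ φ(τ, σ)` induces an isomorphism `G^ab ≅ C^G / N_G C`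
  (`nakayama_bijective_of_fundCocycle`).
-/

set_option autoImplicit false
set_option linter.unusedSectionVars false

open CategoryTheory Limits groupCohomology Rep

namespace Fermat.Agent.CFT

universe u

section NormGeneral

variable {k G : Type u} [CommRing k] [Group G] [Fintype G]

/-- `∑_g g • y = ε(y) • ∑_g [g]` in `k[G]`. -/
lemma sum_lregRepresentation (y : G →₀ k) :
    ∑ g : G, lregRepresentation k G g y = augLin k G y • ∑ g : G, Finsupp.single g (1 : k) := by
  induction y using Finsupp.induction_linear with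
  | zero => simp
  | add a b ha hb => simp only [map_add, Finset.sum_add_distrib, ha, hb, add_smul]
  | single x r =>
    simp only [lregRepresentation_single, augLin_single, Finset.smul_sum, Finsupp.smul_single,
      smul_eq_mul, mul_one]
    exact Equiv.sum_comp (Equiv.mulRight x) (fun g => Finsupp.single g r)

variable (C : Rep.{u} k G) (φ : cocycles₂ C)

/-- `ν(σ) = ∑_τ φ(τ, σ)`. -/
def nakayamaSum (σ : G) : C.V := ∑ τ : G, (φ : G × G → C) (τ, σ)

/-- The linear map `k[G] → C`, `[σ] ↦ ν(σ)`. -/
noncomputable def nakayamaLin : (G →₀ k) →ₗ[k] C.V :=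
  Finsupp.linearCombination k (nakayamaSum C φ)

@[simp]
lemma nakayamaLin_single (σ : G) (r : k) :
    nakayamaLin C φ (Finsupp.single σ r) = r • nakayamaSum C φ σ := by
  simp [nakayamaLin]

lemma nakayamaLin_single_one (σ : G) :
    nakayamaLin C φ (Finsupp.single σ 1) = nakayamaSum C φ σ := by
  rw [nakayamaLin_single, one_smul]

lemma sum_splitPhi (y : G →₀ k) : ∑ g : G, splitPhi C φ g y = nakayamaLin C φ y := by
  induction y using Finsupp.induction_linear with
  | zero => simp
  | add a b ha hb => simp only [map_add, Finset.sum_add_distrib, ha, hb]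
  | single x r => simp [nakayamaSum, Finset.smul_sum]

/-- The cocycle identity summed over the first variable. -/
lemma nakayamaSum_add (σ σ' : G) :
    nakayamaSum C φ σ' + nakayamaSum C φ σ =
      ∑ τ : G, C.ρ τ ((φ : G × G → C) (σ, σ')) + nakayamaSum C φ (σ * σ') := by
  have h : ∀ τ : G, (φ : G × G → C) (τ * σ, σ') + (φ : G × G → C) (τ, σ) =
      C.ρ τ ((φ : G × G → C) (σ, σ')) + (φ : G × G → C) (τ, σ * σ') :=
    fun τ => (mem_cocycles₂_iff (φ : G × G → C)).1 φ.2 τ σ σ'
  have h2 : ∑ τ : G, (φ : G × G → C) (τ * σ, σ') = nakayamaSum C φ σ' :=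
    Equiv.sum_comp (Equiv.mulRight σ) (fun τ => (φ : G × G → C) (τ, σ'))
  unfold nakayamaSum at *
  rw [← h2, ← Finset.sum_add_distrib, ← Finset.sum_add_distrib]
  exact Finset.sum_congr rfl fun τ _ => h τ

/-- The first component of the norm of an element of the splitting module. -/
lemma sum_splitRepresentation_fst (p : C.V × augSubmodule k G) :
    (∑ g : G, splitRepresentation C φ g p).1 =
      ∑ g : G, C.ρ g p.1 + nakayamaLin C φ (p.2 : G →₀ k) := by
  rw [Prod.fst_sum]
  simp only [splitRepresentation_apply]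
  rw [Finset.sum_add_distrib, sum_splitPhi]

/-- The second component of the norm of an element of the splitting module vanishes. -/
lemma sum_splitRepresentation_snd (p : C.V × augSubmodule k G) :
    (∑ g : G, splitRepresentation C φ g p).2 = 0 := by
  rw [Prod.snd_sum]
  simp only [splitRepresentation_apply]
  apply Subtype.ext
  rw [AddSubmonoidClass.coe_finsetSum]
  simp only [augRepresentation_coe]
  rw [sum_lregRepresentation]
  have h0 : augLin k G (p.2 : G →₀ k) = 0 := p.2.2
  rw [h0, zero_smul]
  rfl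

end NormGeneral

section NormAddHom

variable {k G : Type u} [CommRing k] [Group G] [Finite G] (C : Rep.{u} k G)

/-- The norm `b ↦ ∑_g g • b` as an additive homomorphism. -/
noncomputable def normAddHom : C.V →+ C.V where
  toFun b := ∑ᶠ g : G, C.ρ g b
  map_zero' := by simp
  map_add' a b := by
    simp only [map_add]
    exact finsum_add_distrib (Set.toFinite _) (Set.toFinite _)

lemma normAddHom_apply (b : C.V) : normAddHom C b = ∑ᶠ g : G, C.ρ g b := rfl

lemma normAddHom_apply_sum [Fintype G] (b : C.V) : normAddHom C b = ∑ g : G, C.ρ g b :=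
  finsum_eq_sum_of_fintype _

end NormAddHom

section AbLin

variable (G : Type) [Group G]

/-- The map `ℤ[G] → G^ab`, `[σ] ↦ σ`. -/
noncomputable def abLin : (G →₀ ℤ) →ₗ[ℤ] Additive (Abelianization G) :=
  Finsupp.linearCombination ℤ (fun τ : G => Additive.ofMul (Abelianization.of τ))

@[simp]
lemma abLin_single (σ : G) (n : ℤ) :
    abLin G (Finsupp.single σ n) = n • Additive.ofMul (Abelianization.of σ) := by
  simp [abLin]

lemma abLin_lreg (g : G) (w : G →₀ ℤ) :
    abLin G (lregRepresentation ℤ G g w) =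
      abLin G w + augLin ℤ G w • Additive.ofMul (Abelianization.of g) := by
  induction w using Finsupp.induction_linear with
  | zero => simp
  | add a b ha hb =>
    simp only [map_add, ha, hb, add_smul]
    abel
  | single x n =>
    simp only [lregRepresentation_single, abLin_single, augLin_single, map_mul, ofMul_mul,
      smul_add]
    abel

/-- `abLin` kills `I_G · I_G`. -/
lemma abLin_eq_zero_of_mem_coinvariantsKer (y : augSubmodule ℤ G)
    (hy : y ∈ Representation.Coinvariants.ker (augRepresentation ℤ G)) :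
    abLin G (y : G →₀ ℤ) = 0 := by
  induction hy using Submodule.span_induction with
  | mem x hx =>
    obtain ⟨⟨g, w⟩, rfl⟩ := hx
    have h0 : augLin ℤ G (w : G →₀ ℤ) = 0 := w.2
    show abLin G (lregRepresentation ℤ G g (w : G →₀ ℤ) - (w : G →₀ ℤ)) = 0
    rw [map_sub, abLin_lreg, h0, zero_smul, add_zero, sub_self]
  | zero => simp
  | add x y _ _ hx hy =>
    show abLin G ((x : G →₀ ℤ) + (y : G →₀ ℤ)) = 0
    rw [map_add, hx, hy, add_zero]
  | smul c x _ hx =>
    show abLin G (c • (x : G →₀ ℤ)) = 0
    rw [map_smul, hx, smul_zero]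

end AbLin

lemma mk_int_smul {M : Type*} [AddCommGroup M] (h : Module ℤ M) (N : AddSubgroup M) (n : ℤ)
    (c : M) : (QuotientAddGroup.mk (h.smul n c) : M ⧸ N) = n • (QuotientAddGroup.mk c : M ⧸ N) := by
  rw [int_smul_eq_zsmul h n c]
  exact QuotientAddGroup.mk_zsmul N c n

section NakayamaInt

variable {G : Type} [Group G] [Finite G] (C : Rep ℤ G) (φ : cocycles₂ C)

/-- `ν(σ) = ∑_τ φ(τ, σ)`, as a `finsum`. -/
noncomputable def nakayamaFinsum (σ : G) : C.V := ∑ᶠ τ : G, (φ : G × G → C) (τ, σ)

lemma nakayamaFinsum_eq [Fintype G] (σ : G) : nakayamaFinsum C φ σ = nakayamaSum C φ σ :=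
  finsum_eq_sum_of_fintype _

lemma nakayamaFinsum_add (σ σ' : G) :
    nakayamaFinsum C φ σ' + nakayamaFinsum C φ σ =
      normAddHom C ((φ : G × G → C) (σ, σ')) + nakayamaFinsum C φ (σ * σ') := by
  have := Fintype.ofFinite G
  simp only [nakayamaFinsum_eq, normAddHom_apply_sum]
  exact nakayamaSum_add C φ σ σ'

lemma nakayamaFinsum_one :
    nakayamaFinsum C φ 1 = normAddHom C ((φ : G × G → C) (1, 1)) := by
  have h := nakayamaFinsum_add C φ 1 1
  rw [mul_one] at h
  exact add_right_cancel h

lemma nakayamaFinsum_mul_mk (σ σ' : G) :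
    (QuotientAddGroup.mk (nakayamaFinsum C φ (σ * σ')) : C.V ⧸ (normAddHom C).range) =
      QuotientAddGroup.mk (nakayamaFinsum C φ σ) + QuotientAddGroup.mk (nakayamaFinsum C φ σ') := by
  rw [← QuotientAddGroup.mk_add, QuotientAddGroup.eq]
  refine ⟨(φ : G × G → C) (σ, σ'), ?_⟩
  rw [eq_neg_add_iff_add_eq, add_comm (nakayamaFinsum C φ σ), add_comm]
  exact (nakayamaFinsum_add C φ σ σ').symm

/-- The Nakayama map `G → C / N_G C`, `σ ↦ ∑_τ φ(τ, σ)`, as a monoid homomorphism. -/
noncomputable def nakayamaMonoidHom : G →* Multiplicative (C.V ⧸ (normAddHom C).range) where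
  toFun σ := Multiplicative.ofAdd (QuotientAddGroup.mk (nakayamaFinsum C φ σ))
  map_one' := by
    rw [nakayamaFinsum_one]
    exact congrArg Multiplicative.ofAdd
      ((QuotientAddGroup.eq_zero_iff _).2 ⟨_, rfl⟩)
  map_mul' σ σ' := by
    rw [nakayamaFinsum_mul_mk]
    rfl

/-- The Nakayama map `G^ab → C / N_G C`. -/
noncomputable def nakayamaAddHom : Additive (Abelianization G) →+ C.V ⧸ (normAddHom C).range :=
  MonoidHom.toAdditiveLeft (Abelianization.lift (nakayamaMonoidHom C φ))

lemma nakayamaAddHom_of (σ : G) :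
    nakayamaAddHom C φ (Additive.ofMul (Abelianization.of σ)) =
      QuotientAddGroup.mk (nakayamaFinsum C φ σ) := by
  show ((Abelianization.lift (nakayamaMonoidHom C φ)) (Abelianization.of σ)).toAdd = _
  rw [Abelianization.lift_apply_of]
  rfl

lemma nakayamaAddHom_abLin [Fintype G] (y : G →₀ ℤ) :
    nakayamaAddHom C φ (abLin G y) = QuotientAddGroup.mk (nakayamaLin C φ y) := by
  induction y using Finsupp.induction_linear with
  | zero => simp
  | add a b ha hb => simp only [map_add, ha, hb, QuotientAddGroup.mk_add]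
  | single x n =>
    rw [abLin_single, map_zsmul, nakayamaAddHom_of, nakayamaLin_single, nakayamaFinsum_eq]
    exact (mk_int_smul _ _ n _).symm

/-- **Nakayama's map is bijective** `G^ab ≅ C^G / N_G C`, provided the splitting module has
trivial Tate cohomology in degrees `0` and `-1`. -/
theorem nakayama_of_tateTrivial (h0 : TateZeroTrivial (splitRep C φ))
    (hm1 : TateNegOneTrivial (splitRep C φ)) :
    ∃ f : Additive (Abelianization G) →+ (C.V ⧸ (normAddHom C).range),
      (∀ σ : G, f (Additive.ofMul (Abelianization.of σ)) =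
        QuotientAddGroup.mk (∑ᶠ τ : G, (φ : G × G → C) (τ, σ))) ∧
      Function.Injective f ∧
      (∀ c : C, (∀ g, C.ρ g c = c) → ∃ x, f x = QuotientAddGroup.mk c) := by
  have := Fintype.ofFinite G
  refine ⟨nakayamaAddHom C φ, fun σ => nakayamaAddHom_of C φ σ, ?_, ?_⟩
  · rw [injective_iff_map_eq_zero]
    intro x hx
    obtain ⟨σ, rfl⟩ : ∃ σ : G, Additive.ofMul (Abelianization.of σ) = x := by
      obtain ⟨σ, hσ⟩ := QuotientGroup.mk_surjective (Additive.toMul x)
      exact ⟨σ, congrArg Additive.ofMul hσ⟩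
    rw [nakayamaAddHom_of, QuotientAddGroup.eq_zero_iff] at hx
    obtain ⟨c', hc'⟩ := hx
    -- the element `a = (φ(1,1) - c', [σ] - [1])` of the splitting module has norm zero
    have hNa : ∑ᶠ g : G, (splitRep C φ).ρ g
        (((φ : G × G → C) (1, 1) - c', augElt ℤ G σ) : C.V × augSubmodule ℤ G) = 0 := by
      rw [finsum_eq_sum_of_fintype]
      refine Prod.ext ?_ (sum_splitRepresentation_snd C φ _)
      refine (sum_splitRepresentation_fst C φ _).trans ?_
      show ∑ g : G, C.ρ g ((φ : G × G → C) (1, 1) - c') +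
        nakayamaLin C φ (Finsupp.single σ 1 - Finsupp.single 1 1) = 0
      rw [map_sub, nakayamaLin_single_one, nakayamaLin_single_one,
        ← nakayamaFinsum_eq, ← nakayamaFinsum_eq, nakayamaFinsum_one, ← hc',
        ← normAddHom_apply_sum, map_sub]
      abel
    have hker := hom_mem_coinvariantsKer (splitSnd C φ) (hm1 _ hNa)
    have hab := abLin_eq_zero_of_mem_coinvariantsKer G (augElt ℤ G σ) hker
    rw [augElt_coe, map_sub, abLin_single, abLin_single, one_smul, one_smul, map_one, ofMul_one,
      sub_zero] at hab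
    exact hab
  · intro c hc
    obtain ⟨b, hb⟩ := h0 ((c, 0) : C.V × augSubmodule ℤ G) (fun g => by
      show splitRepresentation C φ g (c, 0) = (c, 0)
      rw [splitRepresentation_apply]
      simp [hc g])
    refine ⟨abLin G ((b : C.V × augSubmodule ℤ G).2 : G →₀ ℤ), ?_⟩
    rw [nakayamaAddHom_abLin]
    have h1 : (∑ g : G, splitRepresentation C φ g b).1 = c := by
      rw [← finsum_eq_sum_of_fintype]
      exact congrArg Prod.fst hb
    rw [sum_splitRepresentation_fst] at h1
    rw [QuotientAddGroup.eq]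
    refine ⟨(b : C.V × augSubmodule ℤ G).1, ?_⟩
    rw [normAddHom_apply_sum, ← h1]
    abel

end NakayamaInt

section TateMain

variable {G : Type} [Group G] [Finite G] (C : Rep ℤ G) (φ : cocycles₂ C)

/-- The class of the 2-cocycle `φ` is *fundamental*: for every subgroup `H`, its restriction to
`H` has order `|H|` and generates `H²(H, C)`. -/
def IsFundCocycle : Prop :=
  ∀ H : Subgroup G, addOrderOf (resCoh H C 2 (H2π C φ)) = Nat.card H ∧
    ∀ x : groupCohomology (res H.subtype C) 2,
      x ∈ AddSubgroup.zmultiples (resCoh H C 2 (H2π C φ))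

variable {C φ}

/-- The splitting module of a fundamental cocycle is cohomologically trivial. -/
theorem splitRep_cohTriv
    (h1 : ∀ H : Subgroup G, IsZero (groupCohomology (res H.subtype C) 1))
    (hφ : IsFundCocycle C φ) (H : Subgroup G) :
    (∀ n : ℕ, IsZero (groupCohomology (res H.subtype (splitRep C φ)) (n + 1))) ∧
      TateZeroTrivial (res H.subtype (splitRep C φ)) ∧
      TateNegOneTrivial (res H.subtype (splitRep C φ)) :=
  cohTriv_of_H1_H2 (splitRep C φ)
    (fun H => isZero_H1_res_splitRep C φ H (h1 H) (hφ H).1)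
    (fun H => isZero_H2_res_splitRep C φ H (hφ H).2) H

/-- The splitting module of a fundamental cocycle is cohomologically trivial (for `G` itself). -/
theorem splitRep_cohTriv_top
    (h1 : ∀ H : Subgroup G, IsZero (groupCohomology (res H.subtype C) 1))
    (hφ : IsFundCocycle C φ) :
    (∀ n : ℕ, IsZero (groupCohomology (splitRep C φ) (n + 1))) ∧
      TateZeroTrivial (splitRep C φ) ∧ TateNegOneTrivial (splitRep C φ) :=
  cohTriv_of_H1_H2_top (splitRep C φ)
    (fun H => isZero_H1_res_splitRep C φ H (h1 H) (hφ H).1)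
    (fun H => isZero_H2_res_splitRep C φ H (hφ H).2)

/-- **Tate's theorem**, `H³ = 0`: if `H¹(H, C) = 0` for all subgroups `H` and `φ` is a
fundamental cocycle, then `H³(H, C) = 0` for all subgroups `H`. -/
theorem tate_isZero_H3_of_fundCocycle
    (h1 : ∀ H : Subgroup G, IsZero (groupCohomology (res H.subtype C) 1))
    (hφ : IsFundCocycle C φ) (H : Subgroup G) :
    IsZero (groupCohomology (res H.subtype C) 3) := by
  have hX := splitResSC_shortExact C φ H
  have h3 := (splitRep_cohTriv h1 hφ H).1 2
  rw [ModuleCat.isZero_iff_subsingleton]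
  have key : ∀ x : groupCohomology (res H.subtype C) 3, x = 0 := by
    intro x
    obtain ⟨y, hy⟩ := les_exact₁ hX 2 3 rfl x ((ModuleCat.subsingleton_of_isZero h3).elim _ _)
    have hy0 : y = 0 :=
      (ModuleCat.subsingleton_of_isZero (isZero_H2_res_augRep_int H)).elim _ _
    rw [← hy, hy0, map_zero]
  exact ⟨fun x y => (key x).trans (key y).symm⟩

/-- **Nakayama's reciprocity isomorphism** `G^ab ≅ C^G / N_G C`, `σ ↦ ∑_τ φ(τ, σ)`, for a
fundamental cocycle `φ`. -/
theorem nakayama_bijective_of_fundCocycle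
    (h1 : ∀ H : Subgroup G, IsZero (groupCohomology (res H.subtype C) 1))
    (hφ : IsFundCocycle C φ) :
    ∃ f : Additive (Abelianization G) →+ (C.V ⧸ (normAddHom C).range),
      (∀ σ : G, f (Additive.ofMul (Abelianization.of σ)) =
        QuotientAddGroup.mk (∑ᶠ τ : G, (φ : G × G → C) (τ, σ))) ∧
      Function.Injective f ∧
      (∀ c : C, (∀ g, C.ρ g c = c) → ∃ x, f x = QuotientAddGroup.mk c) :=
  nakayama_of_tateTrivial C φ (splitRep_cohTriv_top h1 hφ).2.1 (splitRep_cohTriv_top h1 hφ).2.2

end TateMain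

end Fermat.Agent.CFT
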