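import Fermat.Agent.CFT.Tate.TateNakayama

/-!
# Tate's theorem and Nakayama's map: the class-formation form

Here the hypothesis "the class of `φ` is fundamental" of `TateNakayama.lean` is derived from:
`H²(H, C)` is cyclic of order `|H|` for every subgroup `H`, and the class of `φ` generates
`H²(G, C)`.  The argument is `cores ∘ res = index` in its kernel form
(`index_nsmul_eq_zero_of_resCoh`).
-/

set_option autoImplicit false
set_option linter.unusedSectionVars false

open CategoryTheory Limits groupCohomology Rep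

namespace Fermat.Agent.CFT

section Cyclic

variable {G : Type} [Group G] [Finite G] (C : Rep ℤ G)

/-- If `H²(H, C)` is cyclic of order `|H|` for all `H`, then `|H²(G, C)| = |G|`. -/
lemma natCard_H2_eq_of_cyclic
    (h2 : ∀ H : Subgroup G, ∃ u : groupCohomology (res H.subtype C) 2,
      addOrderOf u = Nat.card H ∧ ∀ x, x ∈ AddSubgroup.zmultiples u) :
    Nat.card (groupCohomology C 2) = Nat.card G := by
  obtain ⟨u0, hu0, hgen0⟩ := h2 (MonoidHom.id G).range
  have e := resRangeIso C (MonoidHom.id G) Function.injective_id 2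
  have hcard : Nat.card (groupCohomology C 2) =
      Nat.card (groupCohomology (res (MonoidHom.id G).range.subtype C) 2) :=
    Nat.card_congr e.toLinearEquiv.toEquiv
  rw [hcard, ← addOrderOf_eq_card_of_forall_mem_zmultiples hgen0, hu0]
  exact (Nat.card_congr (MonoidHom.ofInjective (f := MonoidHom.id G)
    Function.injective_id).toEquiv).symm

/-- If `H²(H, C)` is cyclic of order `|H|` for all `H`, then `H²(G, C)` has a generator. -/
lemma exists_generator_H2_of_cyclic
    (h2 : ∀ H : Subgroup G, ∃ u : groupCohomology (res H.subtype C) 2,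
      addOrderOf u = Nat.card H ∧ ∀ x, x ∈ AddSubgroup.zmultiples u) :
    ∃ u : groupCohomology C 2, ∀ x, x ∈ AddSubgroup.zmultiples u := by
  obtain ⟨u0, -, hgen0⟩ := h2 (MonoidHom.id G).range
  have e := resRangeIso C (MonoidHom.id G) Function.injective_id 2
  refine ⟨e.inv u0, fun x => ?_⟩
  obtain ⟨n, hn⟩ := AddSubgroup.mem_zmultiples_iff.1 (hgen0 (e.hom x))
  refine AddSubgroup.mem_zmultiples_iff.2 ⟨n, ?_⟩
  have h := congrArg e.inv hn
  rw [map_zsmul] at h
  refine h.trans ?_
  simp

/-- If `H²(H, C)` is cyclic of order `|H|` for all `H`, then every 2-cocycle whose class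
generates `H²(G, C)` is fundamental. -/
theorem isFundCocycle_of_cyclic
    (h2 : ∀ H : Subgroup G, ∃ u : groupCohomology (res H.subtype C) 2,
      addOrderOf u = Nat.card H ∧ ∀ x, x ∈ AddSubgroup.zmultiples u)
    (φ : cocycles₂ C) (hφ : ∀ x : H2 C, x ∈ AddSubgroup.zmultiples (H2π C φ)) :
    IsFundCocycle C φ := by
  intro H
  have hu : addOrderOf (H2π C φ) = Nat.card G :=
    (addOrderOf_eq_card_of_forall_mem_zmultiples hφ).trans (natCard_H2_eq_of_cyclic C h2)
  obtain ⟨uH, huH, hgenH⟩ := h2 H
  have hcardH : Nat.card (groupCohomology (res H.subtype C) 2) = Nat.card H :=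
    (addOrderOf_eq_card_of_forall_mem_zmultiples hgenH).symm.trans huH
  have hdvd1 : addOrderOf (resCoh H C 2 (H2π C φ)) ∣ Nat.card H := by
    rw [← hcardH]
    exact addOrderOf_dvd_natCard _
  have hdvd2 : Nat.card H ∣ addOrderOf (resCoh H C 2 (H2π C φ)) := by
    have h0 : addOrderOf (resCoh H C 2 (H2π C φ)) • resCoh H C 2 (H2π C φ) = 0 :=
      addOrderOf_nsmul_eq_zero _
    have h1 : resCoh H C 2 (addOrderOf (resCoh H C 2 (H2π C φ)) • H2π C φ) = 0 := by
      rw [map_nsmul]
      exact h0
    have h3 := index_nsmul_eq_zero_of_resCoh H 2 C _ h1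
    rw [← mul_nsmul'] at h3
    have h4 : Nat.card G ∣ H.index * addOrderOf (resCoh H C 2 (H2π C φ)) := by
      rw [← hu]
      exact addOrderOf_dvd_of_nsmul_eq_zero h3
    rw [← H.index_mul_card] at h4
    exact Nat.dvd_of_mul_dvd_mul_left (Nat.pos_of_ne_zero Subgroup.FiniteIndex.index_ne_zero) h4
  have hord : addOrderOf (resCoh H C 2 (H2π C φ)) = Nat.card H := Nat.dvd_antisymm hdvd1 hdvd2
  refine ⟨hord, ?_⟩
  have hfin : Finite (groupCohomology (res H.subtype C) 2) :=
    Nat.finite_of_card_ne_zero (by rw [hcardH]; exact Nat.card_pos.ne')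
  have htop : AddSubgroup.zmultiples (resCoh H C 2 (H2π C φ)) = ⊤ :=
    AddSubgroup.eq_top_of_card_eq _ (by rw [Nat.card_zmultiples, hord, hcardH])
  intro x
  rw [htop]
  trivial

/-- **Tate's theorem** (`H³ = 0` for class modules): if for every subgroup `H` of the finite
group `G` we have `H¹(H, C) = 0` and `H²(H, C)` cyclic of order `|H|`, then `H³(H, C) = 0` for
every subgroup `H`. -/
theorem tate_isZero_H3
    (h1 : ∀ H : Subgroup G, IsZero (groupCohomology (res H.subtype C) 1))
    (h2 : ∀ H : Subgroup G, ∃ u : groupCohomology (res H.subtype C) 2,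
      addOrderOf u = Nat.card H ∧ ∀ x, x ∈ AddSubgroup.zmultiples u)
    (H : Subgroup G) : IsZero (groupCohomology (res H.subtype C) 3) := by
  obtain ⟨u, hu⟩ := exists_generator_H2_of_cyclic C h2
  induction u using H2_induction_on with
  | h φ => exact tate_isZero_H3_of_fundCocycle h1 (isFundCocycle_of_cyclic C h2 φ hu) H

/-- **Nakayama's reciprocity isomorphism** `G^ab ≅ C^G / N_G C`, `σ ↦ ∑_τ φ(τ, σ)`, for a
2-cocycle `φ` whose class generates `H²(G, C)`, under the class-formation hypotheses. -/
theorem nakayama_bijective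
    (h1 : ∀ H : Subgroup G, IsZero (groupCohomology (res H.subtype C) 1))
    (h2 : ∀ H : Subgroup G, ∃ u : groupCohomology (res H.subtype C) 2,
      addOrderOf u = Nat.card H ∧ ∀ x, x ∈ AddSubgroup.zmultiples u)
    (φ : cocycles₂ C) (hφ : ∀ x : H2 C, x ∈ AddSubgroup.zmultiples (H2π C φ)) :
    ∃ f : Additive (Abelianization G) →+ (C.V ⧸ (normAddHom C).range),
      (∀ σ : G, f (Additive.ofMul (Abelianization.of σ)) =
        QuotientAddGroup.mk (∑ᶠ τ : G, (φ : G × G → C) (τ, σ))) ∧
      Function.Injective f ∧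
      (∀ c : C, (∀ g, C.ρ g c = c) → ∃ x, f x = QuotientAddGroup.mk c) :=
  nakayama_bijective_of_fundCocycle h1 (isFundCocycle_of_cyclic C h2 φ hφ)

end Cyclic

end Fermat.Agent.CFT
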